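import Fermat.Agent.H12.SS2.Reg11Pkg
import Fermat.Agent.H38.SS2.NormThetaU
import Fermat.Agent.H16.SS2ThetaW
import Fermat.Agent.H95.SS2.SimpleYDefs
import Fermat.Agent.H48.SS.HauptBasics
import Fermat.Agent.H98.SS.GoodBasisH4

/-!
# P-SS2 row 1108 (SS2-C5j REG11-PKG): the concrete norm package (helper12)

`reg11Pkg : SimpleYStatement M' q → Reg11PkgStatement M' q`, from

* helper38's `normThetaU` (NORM-ID + THETA-ID, unconditional),
* helper16's `thetaW_isLocUnit` (THETA-UNIT),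
* helper48's `modelHauptBasics` (`H`, `H_q ∈ B(j)`, `H_q (H_q + 16)` a unit of `B(j)`),
* helper95's `SimpleYStatement` (row 1048, hypothesis).
-/

set_option autoImplicit false
set_option linter.unusedSectionVars false
set_option linter.style.haveILetI false
set_option linter.unusedVariables false

noncomputable section

namespace Fermat.Agent.H12.SS2

open Polynomial ModularCurve AlgebraicCurve
open Fermat.Agent.H22.KL Fermat.Agent.H11.SS2 Fermat.Agent.H82.SS Fermat.Agent.H7.SS2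
open Fermat.Agent.H86.SS2 Fermat.Agent.H8.SS

/-- Evaluation of an integer polynomial in two variables at two elements of a subalgebra. -/
theorem r11_eval_mem {A E : Type} [CommRing A] [Field E] [Algebra A E] (B : Subalgebra A E)
    {a b : E} (ha : a ∈ B) (hb : b ∈ B) (R : Polynomial (Polynomial ℤ)) :
    (R.map (Polynomial.eval₂RingHom (Int.castRingHom E) a)).eval b ∈ B := by
  rw [Polynomial.eval_map, Polynomial.eval₂_eq_sum_range]
  refine Subalgebra.sum_mem _ fun i _ => ?_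
  refine Subalgebra.mul_mem _ ?_ (Subalgebra.pow_mem _ hb _)
  rw [Polynomial.coe_eval₂RingHom, Polynomial.eval₂_eq_sum_range]
  refine Subalgebra.sum_mem _ fun j _ => ?_
  refine Subalgebra.mul_mem _ ?_ (Subalgebra.pow_mem _ ha _)
  rw [eq_intCast]
  exact Subalgebra.intCast_mem _ _

/-- **REG11-PKG** (row 1108). -/
theorem reg11Pkg (M' q : ℕ) [NeZero M'] [NeZero q] (h4 : 4 ∣ M') (hq : q.Prime) (hq2 : q ≠ 2)
    (hqM : ¬ q ∣ M') (hSY : Fermat.Agent.H95.SS2.SimpleYStatement M' q) :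
    Reg11PkgStatement M' q := by
  obtain ⟨m, R, hNT⟩ := Fermat.Agent.H38.SS2.normThetaU M' q hq hq2 h4 hqM
  intro K₁ _ _ _ A₀ _ _ _ _ _ _ _ hqA x hx W hW Z hZ Y₁ hY₁
  haveI : CharZero K₁ := algebraRat.charZero K₁
  haveI : CharZero (ModelField K₁ (M' * q)) :=
    charZero_of_injective_algebraMap (algebraMap K₁ (ModelField K₁ (M' * q))).injective
  obtain ⟨Θ, u, w, hΘ, hu, huM, hw, hN⟩ := hNT K₁ Z hZ
  have hqnu : ¬ IsUnit ((q : ℕ) : A₀) := hqA.not_isUnit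
  obtain ⟨hWB, H, Hq, v, vq, hH, hHq, hHB, hHqB, hvB, hvqB, hv, hvq, hWH, hWHq⟩ :=
    Fermat.Agent.H48.SSHaupt.modelHauptBasics M' q h4 hq hq2 hqM K₁ A₀ hqnu x hx W hW
  -- `Y₁ = H - H_q ^ q`
  have hY₁eq : Y₁ = H - Hq ^ q := by
    apply Subtype.ext
    rw [hY₁]
    show sY1 K₁ q = (H : LaurentSeries K₁) - (Hq : LaurentSeries K₁) ^ q
    rw [hH, hHq]
    rfl
  have hY₁B : Y₁ ∈ chartClosure A₀ (ModelField K₁ (M' * q)) x := by
    rw [hY₁eq]
    exact Subalgebra.sub_mem _ hHB (Subalgebra.pow_mem _ hHqB q)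
  have h16 : (16 : ModelField K₁ (M' * q)) ∈ chartClosure A₀ (ModelField K₁ (M' * q)) x := by
    have : (16 : ModelField K₁ (M' * q)) = ((16 : ℕ) : ModelField K₁ (M' * q)) := by norm_num
    rw [this]
    exact Subalgebra.natCast_mem _ 16
  have hDB : Hq * (Hq + 16) ∈ chartClosure A₀ (ModelField K₁ (M' * q)) x :=
    Subalgebra.mul_mem _ hHqB (Subalgebra.add_mem _ hHqB h16)
  have heB : (Hq * (Hq + 16)) ^ m ∈ chartClosure A₀ (ModelField K₁ (M' * q)) x :=
    Subalgebra.pow_mem _ hDB m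
  have hcB : -((R.map (Polynomial.eval₂RingHom
      (Int.castRingHom (ModelField K₁ (M' * q))) Hq)).eval H) ∈
      chartClosure A₀ (ModelField K₁ (M' * q)) x :=
    Subalgebra.neg_mem _ (r11_eval_mem _ hHqB hHB R)
  have huE : u = (Hq * (Hq + 16)) ^ m * (H - Hq ^ q) -
      (q : ModelField K₁ (M' * q)) *
        (R.map (Polynomial.eval₂RingHom (Int.castRingHom (ModelField K₁ (M' * q))) Hq)).eval H :=
    huM H Hq hH hHq
  have hqcast : algebraMap A₀ (ModelField K₁ (M' * q)) ((q : ℕ) : A₀) =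
      (q : ModelField K₁ (M' * q)) := map_natCast _ q
  have huB : u ∈ chartClosure A₀ (ModelField K₁ (M' * q)) x := by
    rw [huE, ← hqcast]
    exact Subalgebra.sub_mem _ (Subalgebra.mul_mem _ heB
      (Subalgebra.sub_mem _ hHB (Subalgebra.pow_mem _ hHqB q)))
      (Subalgebra.mul_mem _ (Subalgebra.algebraMap_mem _ _) (r11_eval_mem _ hHqB hHB R))
  refine ⟨hY₁B, ⟨_, heB⟩, ⟨_, hcB⟩, ⟨u, huB⟩, w, ?_, ?_, ?_, ?_⟩
  · -- `e` is a unit of `B(j)`
    refine isUnit_iff_exists_inv.mpr ⟨⟨vq ^ m, Subalgebra.pow_mem _ hvqB m⟩, Subtype.ext ?_⟩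
    show (Hq * (Hq + 16)) ^ m * vq ^ m = 1
    rw [← mul_pow, mul_comm (Hq * (Hq + 16)) vq, hvq, one_pow]
  · show u = (Hq * (Hq + 16)) ^ m * Y₁ + algebraMap A₀ (ModelField K₁ (M' * q)) ((q : ℕ) : A₀) *
      (-((R.map (Polynomial.eval₂RingHom
        (Int.castRingHom (ModelField K₁ (M' * q))) Hq)).eval H))
    rw [huE, hqcast, hY₁eq]
    ring
  · rw [hqcast]
    exact hN
  · intro 𝔪' h𝔪' hq𝔪' hthru hnot
    have haway : ∃ s : chartClosure A₀ (ModelField K₁ (M' * q)) x,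
        (s : ModelField K₁ (M' * q)) ∈ (vZero K₁ A₀ (M' * q) W).nonunits ∧ s ∉ 𝔪' := by
      by_contra hne
      apply hnot
      intro s hs
      by_contra hs𝔪
      exact hne ⟨s, hs, hs𝔪⟩
    refine ⟨?_, ?_⟩
    · exact Fermat.Agent.H16.SS2.thetaW_isLocUnit M' q h4 hq hq2 hqM K₁ A₀ hqnu ((q : ℕ) : A₀)
        hqA x hx W hW Θ w hΘ m hw 𝔪' h𝔪' hq𝔪' haway
    · have hH' : (H : LaurentSeries K₁) = coeffEmb K₁ (h4S ℚ) := by
        rw [hH, Fermat.Agent.H98.SS.coeffEmb_h4S]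
      have hHq' : (Hq : LaurentSeries K₁) = qExpand K₁ q (coeffEmb K₁ (h4S ℚ)) := by
        rw [hHq, Fermat.Agent.H98.SS.coeffEmb_h4S]
      exact hSY K₁ A₀ hqA x hx W hW H Hq hH' hHq' 𝔪' h𝔪' hq𝔪' hnot ⟨Y₁, hY₁B⟩ hY₁eq

end Fermat.Agent.H12.SS2
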