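import Mathlib

/-!
# P-SS2 row 902 (SS2-C5 REG11), abstract statements (helper12)

`NormPlaceStatement` (Mathlib only): the **norm argument** for places.  `E / E'` a finite
extension of fields of characteristic zero, `O'` a discrete valuation ring of `E'`, `Z : E`
integral over `O'`, `N = N_{E/E'}(Z)`.

* (a) if `Z` is a non-unit of a valuation ring `P` of `E` above `O'`, then `N` is a non-unit
  of `O'`;
* (b) if `N` is a uniformiser of `O'`, then there is at most one valuation ring `P` of `E` above
  `O'` at which `Z` is a non-unit, and it has residue degree one over `O'`.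

Proof sketch.  Let `S` be the integral closure of `O'` in `E`: free of finite rank over `O'`;
`N = det (Z | S)`; Cayley-Hamilton gives `N ∈ Z S` (a).  Smith normal form
(`associated_norm_prod_smith`, `Ideal.quotientEquivPiSpan`): `S / Z S ≃ O' / N O'` as
`O'`-modules, so `S = O' + Z S` and `Z S` is a maximal ideal; every nonzero element of `E` is
`Z ^ k a / b`, `k : ℤ`, `a, b ∈ S ∖ Z S` (Krull intersection), and a valuation ring `P` above
`O'` with `Z` a non-unit is `{Z ^ k a / b, k ≥ 0} ∪ {0}`.
-/

set_option autoImplicit false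

namespace Fermat.Agent.H12.SS2

/-- **The norm argument for places** (Mathlib only).  See the module docstring. -/
def NormPlaceStatement : Prop :=
  ∀ (E' E : Type) [Field E'] [Field E] [Algebra E' E] [FiniteDimensional E' E] [CharZero E']
    (O' : ValuationSubring E'), O' ≠ ⊤ → IsPrincipalIdealRing O' →
    ∀ (Z : E),
      (∃ p : Polynomial E', p.Monic ∧ (∀ i, p.coeff i ∈ O') ∧ Polynomial.aeval Z p = 0) →
      (∀ P : ValuationSubring E, P.comap (algebraMap E' E) = O' → Z ∈ P.nonunits →
        Algebra.norm E' Z ∈ O'.nonunits) ∧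
      ((Algebra.norm E' Z ≠ 0 ∧ Algebra.norm E' Z ∈ O'.nonunits ∧
          ∀ x ∈ O'.nonunits, x / Algebra.norm E' Z ∈ O') →
        (∀ P₁ P₂ : ValuationSubring E, P₁.comap (algebraMap E' E) = O' →
          P₂.comap (algebraMap E' E) = O' → Z ∈ P₁.nonunits → Z ∈ P₂.nonunits → P₁ = P₂) ∧
        (∀ P : ValuationSubring E, P.comap (algebraMap E' E) = O' → Z ∈ P.nonunits →
          ∀ s ∈ P, ∃ d ∈ O', s - algebraMap E' E d ∈ P.nonunits))

end Fermat.Agent.H12.SS2
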