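import Fermat.Agent.H12.SS2.Reg11H11
import Fermat.Agent.H12.SS2.Reg11PkgProof
import Fermat.Agent.H95.SS2.SimpleY
import Fermat.Agent.H93.SS2.KronRelModel
import Fermat.Agent.H93.SS2.VertIffU
import Fermat.Agent.H99.SS2.FracL
import Fermat.Agent.H7.SS2.RegLH4Final
import Fermat.Agent.H35.SS2.AsmBase
import Fermat.Agent.H4.SS2.ModelVal3B

/-!
# P-SS2 (P) POINTS, chart `x = j`, `q` odd, `4 ∣ M'` (helper12)

`asmPointsChart4` : the first conjunct (`hptf`) of `Fermat.Agent.H35.SS2.AsmPoints` at the model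
level, in the context of `Fermat.Agent.H35.SS2.AsmPointsModelStatement`, over every base `OK`
whose fraction field `K₁` contains a primitive `M'`-th root of unity: every closed point `𝔪 ∋ q`
of the chart `j` of level `M' q²` satisfies `AsmPt`.

Plugged in: `asmPt_val3_reg11` (helper99 `asmPt_val3_below` + REG11), local Hartogs (helper4),
`modelKronRel4` (helper93), `regLChartR_of` + `smoothGenR_h4` + `nodeGenR_h4` (helper7),
`modelFrac_vInf`, `modelFrac_vZero` (helper99), `ss2_chartClosure_beta_eq` (helper35),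
`reg11Pkg` (helper12) with `simpleY` (helper95), `modelVal3Inputs` (helper86).
-/

set_option autoImplicit false
set_option linter.unusedSectionVars false
set_option linter.style.haveILetI false
set_option linter.unusedVariables false
set_option maxHeartbeats 1600000
set_option synthInstance.maxHeartbeats 400000

noncomputable section

namespace Fermat.Agent.H12.SS2

open ModularCurve AlgebraicCurve
open Fermat.Agent.H22.KL Fermat.Agent.H11.SS2 Fermat.Agent.H82.SS Fermat.Agent.H7.SS2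
open Fermat.Agent.H86.SS2 Fermat.Agent.H8.SS Fermat.Agent.H19.SS2 Fermat.Agent.H35.SS2

/-- **(P) POINTS, chart `j`** (`q` odd, `4 ∣ M'`, `μ_{M'} ⊆ K₁`). -/
theorem asmPointsChart4 (M' q : ℕ) [NeZero M'] [NeZero q] (hq : q.Prime) (hq2 : q ≠ 2)
    (h4 : 4 ∣ M') (hqM : ¬ q ∣ M')
    (K₁ : Type) [Field K₁] [Algebra ℚ K₁] [FiniteDimensional ℚ K₁] (OK : ValuationSubring K₁)
    [IsDiscreteValuationRing ↥OK]
    [Algebra ↥OK (ModelField K₁ (M' * q))] [IsScalarTower ↥OK K₁ (ModelField K₁ (M' * q))]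
    [Algebra ↥OK (ModelField K₁ (M' * q * q))]
    [IsScalarTower ↥OK K₁ (ModelField K₁ (M' * q * q))]
    (hirr : Irreducible ((q : ℕ) : ↥OK))
    (hζ : ∃ ζ : K₁, IsPrimitiveRoot ζ M')
    (Wq : ModelField K₁ (M' * q) ≃ₐ[K₁] ModelField K₁ (M' * q))
    (hWq : IsAtkinLehnerModel K₁ M' q Wq)
    (x : ModelField K₁ (M' * q * q)) (X₁ Y₁ : ModelField K₁ (M' * q))
    (Z : ModelField K₁ (M' * q * q))
    (V11 V02 : ValuationSubring (ModelField K₁ (M' * q * q)))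
    (hx : (x : LaurentSeries K₁) = jqModC K₁)
    (hX : (X₁ : LaurentSeries K₁) = sX1 K₁ q) (hY : (Y₁ : LaurentSeries K₁) = sY1 K₁ q)
    (hZ : (Z : LaurentSeries K₁) = sZ K₁ q)
    (hG : AsmGlobal M' q K₁ OK x (vInf K₁ ↥OK (M' * q)) (vZero K₁ ↥OK (M' * q) Wq)
      (vInf K₁ ↥OK (M' * q * q)) V11 V02 Y₁ Z)
    (𝔪 : Ideal (chartClosure ↥OK (ModelField K₁ (M' * q * q)) x)) (h𝔪 : 𝔪.IsMaximal)
    (hq𝔪 : algebraMap ↥OK (chartClosure ↥OK (ModelField K₁ (M' * q * q)) x)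
      ((q : ℕ) : ↥OK) ∈ 𝔪) :
    AsmPt ↥OK (ModelField K₁ (M' * q)) (ModelField K₁ (M' * q * q)) q
      (asmα M' q K₁) (asmβ M' q K₁) (vInf K₁ ↥OK (M' * q)) (vZero K₁ ↥OK (M' * q) Wq)
      (vInf K₁ ↥OK (M' * q * q)) V11 V02 x 𝔪 := by
  haveI : Fact q.Prime := ⟨hq⟩
  haveI : CharZero K₁ := algebraRat.charZero K₁
  haveI : CharZero (ModelField K₁ (M' * q)) :=
    charZero_of_injective_algebraMap (algebraMap K₁ (ModelField K₁ (M' * q))).injective
  haveI : CharZero (ModelField K₁ (M' * q * q)) :=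
    charZero_of_injective_algebraMap (algebraMap K₁ (ModelField K₁ (M' * q * q))).injective
  have hqnu : ¬ IsUnit ((q : ℕ) : ↥OK) := hirr.not_isUnit
  have hval := hG.val3
  -- the chart of level `M' q`
  have hjq : jq ∈ modularFunctionFieldFull (M' * q) := by
    have h1 := jqd_mem_full (M' * q) (one_dvd (M' * q))
    rwa [qExpand_one_apply] at h1
  let x' : ModelField K₁ (M' * q) := ⟨coeffEmb K₁ jq, coeffEmb_mem_laurentBaseChange K₁ hjq⟩
  have hx' : (x' : LaurentSeries K₁) = coeffEmb K₁ jq := rfl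
  have hx'j : (x' : LaurentSeries K₁) = jqModC K₁ := by rw [hx', ss2_coeffEmb_jq]
  have hxc : (x : LaurentSeries K₁) = coeffEmb K₁ jq := by rw [hx, ss2_coeffEmb_jq]
  have hyy : (asmα M' q K₁) x' = x := ss2_alpha_chart (M' * q) q K₁ x x' hx hx'j
  have hcβ : chartClosure ↥OK (ModelField K₁ (M' * q * q)) ((asmβ M' q K₁) x') =
      chartClosure ↥OK (ModelField K₁ (M' * q * q)) x :=
    ss2_chartClosure_beta_eq (M' * q) q hq K₁ ↥OK x x' hx hx'j
  -- algebra maps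
  have hinj' : Function.Injective (algebraMap ↥OK (ModelField K₁ (M' * q))) :=
    asm_algebraMap_injective (M' * q) K₁ OK
  have hinj : Function.Injective (algebraMap ↥OK (ModelField K₁ (M' * q * q))) :=
    asm_algebraMap_injective (M' * q * q) K₁ OK
  have hα : ∀ a : ↥OK, (asmα M' q K₁) (algebraMap ↥OK (ModelField K₁ (M' * q)) a) =
      algebraMap ↥OK (ModelField K₁ (M' * q * q)) a := by
    intro a
    rw [IsScalarTower.algebraMap_apply ↥OK K₁ (ModelField K₁ (M' * q)),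
      IsScalarTower.algebraMap_apply ↥OK K₁ (ModelField K₁ (M' * q * q))]
    exact (heckeAlphaBar K₁ (M' * q) q).commutes _
  have hβ : ∀ a : ↥OK, (asmβ M' q K₁) (algebraMap ↥OK (ModelField K₁ (M' * q)) a) =
      algebraMap ↥OK (ModelField K₁ (M' * q * q)) a := by
    intro a
    rw [IsScalarTower.algebraMap_apply ↥OK K₁ (ModelField K₁ (M' * q)),
      IsScalarTower.algebraMap_apply ↥OK K₁ (ModelField K₁ (M' * q * q))]
    exact (heckeBetaBar K₁ (M' * q) q).commutes _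
  -- transcendence and finiteness
  have hy' : Transcendental ↥OK x' := asm_transcendental (M' * q) K₁ OK x' hx'j
  have hfd' := asm_finite (M' * q) K₁ OK x' hx'j
  have hy : Transcendental ↥OK x := asm_transcendental (M' * q * q) K₁ OK x hx
  have hfd := asm_finite (M' * q * q) K₁ OK x hx
  -- Gauss closure
  have hgauss : ∀ z : ModelField K₁ (M' * q * q), z ∈ vInf K₁ ↥OK (M' * q * q) → z ∈ V11 →
      z ∈ V02 → z ∈ gaussClosure ↥OK (ModelField K₁ (M' * q * q)) ((q : ℕ) : ↥OK) x :=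
    fun z h1 h2 h3 => (hG.gauss z).2 ⟨h1, h2, h3⟩
  -- the Hauptmodul
  obtain ⟨hWB, H, Hq, v, vq, hH, hHq, hHB, hHqB, hvB, hvqB, hv, hvq, hWH, hWHq⟩ :=
    Fermat.Agent.H48.SSHaupt.modelHauptBasics M' q h4 hq hq2 hqM K₁ ↥OK hqnu x' hx' Wq hWq
  have eX : X₁ = Hq - H ^ q := by
    apply Subtype.ext
    rw [hX]
    show sX1 K₁ q = (Hq : LaurentSeries K₁) - (H : LaurentSeries K₁) ^ q
    rw [hH, hHq]
    rfl
  have eY : Y₁ = H - Hq ^ q := by
    apply Subtype.ext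
    rw [hY]
    show sY1 K₁ q = (H : LaurentSeries K₁) - (Hq : LaurentSeries K₁) ^ q
    rw [hH, hHq]
    rfl
  have hH' : (H : LaurentSeries K₁) = coeffEmb K₁ (h4S ℚ) := by
    rw [hH, Fermat.Agent.H98.SS.coeffEmb_h4S]
  have hHq' : (Hq : LaurentSeries K₁) = qExpand K₁ q (coeffEmb K₁ (h4S ℚ)) := by
    rw [hHq, Fermat.Agent.H98.SS.coeffEmb_h4S]
  -- REGL in the chart `j`
  have hRegL : RegLChartRStatement M' q (h4S ℚ) M' :=
    regLChartR_of M' q hq hqM h4Z M' (fun K₁ _ _ => h4S_mem_laurentBaseChange K₁ M' h4)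
      (smoothGenR_h4 M' q hq hq2 hqM h4 M') (nodeGenR_h4 M' q hq hq2 hqM h4 M')
  have hregL : ∀ 𝔪' : Ideal (chartClosure ↥OK (ModelField K₁ (M' * q)) x'), 𝔪'.IsMaximal →
      algebraMap ↥OK (chartClosure ↥OK (ModelField K₁ (M' * q)) x') ((q : ℕ) : ↥OK) ∈ 𝔪' →
      RegLAtOne ↥OK (ModelField K₁ (M' * q)) ((q : ℕ) : ↥OK) x' 𝔪'
        (vInf K₁ ↥OK (M' * q)) (vZero K₁ ↥OK (M' * q) Wq) X₁ Y₁ := by
    intro 𝔪' h𝔪' hq𝔪'
    rw [eX, eY]
    exact hRegL K₁ ↥OK hirr hζ x' hx' Wq hWq H Hq hH' hHq' 𝔪' h𝔪' hq𝔪'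
  -- the Kronecker relations
  obtain ⟨X₁', Y₁', Z', Pα, Pβ, hXs, hYs, hZs, hI⟩ :=
    modelVal3Inputs (K₁ := K₁) (A₀ := ↥OK) (M' := M') (q := q)
      (Fermat.Agent.H73.Kron2.modelKron2 M' q (Fermat.Agent.H6.SS2.modelNormZ q))
      (Fermat.Agent.H90.SS2Red.modelRed q) (Fermat.Agent.H79.SS2.al2Exists M' q)
      hq2 h4 hqM hirr Wq hWq
  have e1 : X₁' = X₁ := Subtype.ext (by rw [hXs, hX])
  have e2 : Y₁' = Y₁ := Subtype.ext (by rw [hYs, hY])
  have e3 : Z' = Z := Subtype.ext (by rw [hZs, hZ])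
  rw [e1, e2, e3] at hI
  obtain ⟨hZB, hX₂, Gα, Gβ, hGα, hGβ, hrelα, hrelβ⟩ :=
    Fermat.Agent.H93.SS2.modelKronRel4 M' q K₁ ↥OK hq hq2 h4 hqM
      (Fermat.Agent.H93.SS2.modelChartEqU M' q) hirr Wq hWq X₁ Y₁ Z Pα Pβ hX hY hI x hxc
      (vInf K₁ ↥OK (M' * q * q)) V11 V02 hval hgauss
  -- the norm package of REG11
  obtain ⟨hY₁B, e, c, u, w, he, hudef, hN, hloc⟩ :=
    reg11Pkg M' q h4 hq hq2 hqM (Fermat.Agent.H95.SS2.simpleY M' q hq hq2 hqM h4)
      K₁ ↥OK hirr x' hx' Wq hWq Z hZ Y₁ hY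
  exact asmPt_val3_reg11 Fermat.Agent.H4.SS.localHartogs hinj' hinj q hq.two_le hirr hy' hfd'
    hy hfd (asmα M' q K₁) (asmβ M' q K₁) hα hβ hyy hcβ
    (vInf K₁ ↥OK (M' * q)) (vZero K₁ ↥OK (M' * q) Wq) (vInf K₁ ↥OK (M' * q * q)) V11 V02
    X₁ Y₁ Z hval hG.vert20 hG.vert11 hG.vert02 hgauss
    (Fermat.Agent.H99.SS2.modelFrac_vInf M' q K₁ ↥OK hq hqM hqnu x' hx' Wq hWq)
    (Fermat.Agent.H99.SS2.modelFrac_vZero M' q K₁ ↥OK hq hqM hqnu x' hx' Wq hWq)
    hregL hX₂ hZB Gα Gβ hGα hrelα hGβ hrelβ hG.degα.1 w hY₁B e c u he hudef hN hloc 𝔪 h𝔪 hq𝔪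

end Fermat.Agent.H12.SS2
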