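import Fermat.Agent.H12.SS2.Reg11Core
import Fermat.Agent.H45.SS.ChartChangeCore
import Fermat.Agent.H60.SS2.ValLemmas

/-!
# P-SS2 row 902 (SS2-C5 REG11): the general formal core (helper12)

The same as `Fermat.Agent.H12.SS2.Reg11Core`, for a LOCAL function `S` (integral over `B'_{𝔪'}`
only, e.g. `S = H / H₂ - 1` at a cusp) instead of `Z ∈ B`, and without the hypothesis that the
uniformiser is a unit of the other two vertical valuations (they do not pass through `𝔪`).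

* `reg11_hyp1_easy'`, `reg11_hyp1_hard'` : HYP1 for `S` integral over `B'_{𝔪'}`.
* `r11_exists_mul_mem` : `s₀ S ∈ B` for some `s₀ ∈ B' ∖ 𝔪'`.
* `r11_prin_away` : clause (p) from LOCAL HARTOGS + HYP1 when the other vertical valuations do
  not pass through `𝔪`.
* `reg11_core_gen` : **the formal core of REG11**, all points (cuspidal or not) lying only on
  `V₁₁`.
-/

set_option autoImplicit false
set_option linter.unusedSectionVars false
set_option linter.style.haveILetI false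
set_option linter.unusedVariables false

noncomputable section

namespace Fermat.Agent.H12.SS2

open Polynomial
open Fermat.Agent.H22.KL Fermat.Agent.H11.SS2 Fermat.Agent.H45 Fermat.Agent.H41.SS
open Fermat.Agent.H93.SS2

section Hyp1

variable (A : Type) [CommRing A] [IsDomain A] [IsDiscreteValuationRing A]
  (E' E₀ : Type) [Field E'] [Field E₀] [Algebra A E'] [Algebra A E₀] [Algebra E' E₀]
  [IsScalarTower A E' E₀] [CharZero E'] [FiniteDimensional E' E₀]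

/-- Integrality over `B'_{𝔪'}` gives integrality over every place centred at `𝔪'`. -/
theorem r11_poly_of_inLoc {y' : E'} {𝔪' : Ideal (chartClosure A E' y')} {Z : E₀}
    (hZint : ∃ p : Polynomial E', p.Monic ∧ (∀ i, InLoc A E' y' 𝔪' (p.coeff i)) ∧
      Polynomial.aeval Z p = 0)
    {O' : ValuationSubring E'} (hO' : CentredAt A E' y' 𝔪' O') :
    ∃ p : Polynomial E', p.Monic ∧ (∀ i, p.coeff i ∈ O') ∧ Polynomial.aeval Z p = 0 := by
  obtain ⟨p, hp, hc, h0⟩ := hZint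
  exact ⟨p, hp, fun i => rs_mem_of_inLoc (fun z hz => rs_centred_le hO' hz) hO'.2 (hc i), h0⟩

/-- **HYP1, easy case**, for a function integral over `B'_{𝔪'}`. -/
theorem reg11_hyp1_easy' (hNP : NormPlaceStatement)
    (hinj : Function.Injective (algebraMap A E'))
    (ϖ : A) (hϖ : Irreducible ϖ) (y' : E') (y : E₀) (hy : algebraMap E' E₀ y' = y)
    (𝔪' : Ideal (chartClosure A E' y')) (𝔪 : Ideal (chartClosure A E₀ y))
    (hlie : ∀ (d : chartClosure A E' y')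
      (h : algebraMap E' E₀ (d : E') ∈ chartClosure A E₀ y),
      (⟨_, h⟩ : chartClosure A E₀ y) ∈ 𝔪 → d ∈ 𝔪')
    (Z : E₀)
    (hZint : ∃ p : Polynomial E', p.Monic ∧ (∀ i, InLoc A E' y' 𝔪' (p.coeff i)) ∧
      Polynomial.aeval Z p = 0)
    (w : E') (hw : IsLocUnit A E' y' 𝔪' w)
    (hN : Algebra.norm E' Z = algebraMap A E' ϖ * w)
    (V : ValuationSubring E₀) (hV : CentredAt A E₀ y 𝔪 V) : Z ∉ V.nonunits := by
  subst hy
  intro hZV
  have hV' : CentredAt A E' y' 𝔪' (V.comap (algebraMap E' E₀)) :=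
    r11_comap_centredAt (fun d => hlie d _) hV
  obtain ⟨hne, hpir, -⟩ := hV'.1.1
  have hpoly := r11_poly_of_inLoc A E' E₀ hZint hV'
  have hNn := (hNP E' E₀ (V.comap (algebraMap E' E₀)) hne hpir Z hpoly).1 V rfl hZV
  have hϖ0 : algebraMap A E' ϖ ≠ 0 := fun h0 =>
    hϖ.ne_zero (hinj (by rw [h0, map_zero]))
  rw [hN] at hNn
  exact r11_not_mem_nonunits_of_inv_mem (mul_ne_zero hϖ0 hw.1)
    (r11_pi_mul_unit_inv_mem A E' ϖ hϖ y' 𝔪' w hw _ hV') hNn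

/-- **HYP1, hard case**, for a function integral over `B'_{𝔪'}`. -/
theorem reg11_hyp1_hard' (hNP : NormPlaceStatement)
    (hinj : Function.Injective (algebraMap A E'))
    (ϖ : A) (hϖ : Irreducible ϖ) (y' : E') (hy' : Transcendental A y')
    (hfd' : ∃ n : ℕ, Nonempty (Module.Basis (Fin n) (chartField A E' y') E'))
    (y : E₀) (hy : algebraMap E' E₀ y' = y)
    (𝔪' : Ideal (chartClosure A E' y')) (h𝔪' : 𝔪'.IsPrime)
    (hϖ𝔪' : algebraMap A (chartClosure A E' y') ϖ ∈ 𝔪')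
    (𝔪 𝔪a : Ideal (chartClosure A E₀ y)) (h𝔪a : 𝔪a.IsPrime)
    (hlie : ∀ (d : chartClosure A E' y')
      (h : algebraMap E' E₀ (d : E') ∈ chartClosure A E₀ y),
      ((⟨_, h⟩ : chartClosure A E₀ y) ∈ 𝔪 ↔ d ∈ 𝔪'))
    (hlie_a : ∀ (d : chartClosure A E' y')
      (h : algebraMap E' E₀ (d : E') ∈ chartClosure A E₀ y),
      ((⟨_, h⟩ : chartClosure A E₀ y) ∈ 𝔪a ↔ d ∈ 𝔪'))
    (hne : ∃ s : chartClosure A E₀ y, s ∈ 𝔪 ∧ s ∉ 𝔪a)
    (Z : E₀)
    (hZint : ∃ p : Polynomial E', p.Monic ∧ (∀ i, InLoc A E' y' 𝔪' (p.coeff i)) ∧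
      Polynomial.aeval Z p = 0)
    (u : chartClosure A E' y') (hreg : IsRegularAt A E' ϖ y' 𝔪' u)
    (w : E') (hw : IsLocUnit A E' y' 𝔪' w)
    (hN : Algebra.norm E' Z = algebraMap A E' ϖ * w * (u : E'))
    (Pa : ValuationSubring E₀) (hPa : CentredAt A E₀ y 𝔪a Pa) (hPaZ : Z ∈ Pa.nonunits)
    (V : ValuationSubring E₀) (hV : CentredAt A E₀ y 𝔪 V) : Z ∉ V.nonunits := by
  subst hy
  intro hZV
  set V' := V.comap (algebraMap E' E₀) with hV'def
  set Pa' := Pa.comap (algebraMap E' E₀) with hPa'def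
  have hV' : CentredAt A E' y' 𝔪' V' :=
    r11_comap_centredAt (fun d h => (hlie d _).1 h) hV
  have hPa' : CentredAt A E' y' 𝔪' Pa' :=
    r11_comap_centredAt (fun d h => (hlie_a d _).1 h) hPa
  have hϖ0 : algebraMap A E' ϖ ≠ 0 := fun h0 =>
    hϖ.ne_zero (hinj (by rw [h0, map_zero]))
  have hNV : Algebra.norm E' Z ∈ V'.nonunits :=
    (hNP E' E₀ V' hV'.1.1.1 hV'.1.1.2.1 Z (r11_poly_of_inLoc A E' E₀ hZint hV')).1 V rfl hZV
  have hNPa : Algebra.norm E' Z ∈ Pa'.nonunits :=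
    (hNP E' E₀ Pa' hPa'.1.1.1 hPa'.1.1.2.1 Z (r11_poly_of_inLoc A E' E₀ hZint hPa')).1
      Pa rfl hPaZ
  have hu_of : ∀ W : ValuationSubring E', CentredAt A E' y' 𝔪' W →
      Algebra.norm E' Z ∈ W.nonunits → (u : E') ∈ W.nonunits := by
    intro W hW hNW
    have h1 := r11_mul_mem_nonunits hNW (r11_pi_mul_unit_inv_mem A E' ϖ hϖ y' 𝔪' w hw W hW)
    have h2 : Algebra.norm E' Z * (algebraMap A E' ϖ * w)⁻¹ = (u : E') := by
      rw [hN]
      have := hw.1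
      field_simp
    rwa [h2] at h1
  have huV := hu_of V' hV' hNV
  have huPa := hu_of Pa' hPa' hNPa
  have htube := isTubeCoordAt_of_isRegularAt hinj ϖ hϖ y' hy' hfd' 𝔪' h𝔪' hϖ𝔪' u hreg
  have h0 : (u : E') - algebraMap A E' (ϖ * 0) = (u : E') := by
    rw [mul_zero, map_zero, sub_zero]
  obtain ⟨hunif, huniq⟩ := htube V' hV' 0 (by rw [h0]; exact huV)
  rw [h0] at hunif
  have hPaV : Pa' = V' := huniq Pa' hPa' (by rw [h0]; exact huPa)
  have hNunif : Algebra.norm E' Z ≠ 0 ∧ Algebra.norm E' Z ∈ V'.nonunits ∧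
      ∀ x ∈ V'.nonunits, x / Algebra.norm E' Z ∈ V' := by
    refine ⟨?_, hNV, fun x hx => ?_⟩
    · rw [hN]
      exact mul_ne_zero (mul_ne_zero hϖ0 hw.1) hunif.1
    · have h1 := hunif.2.2 x hx
      have h2 := r11_pi_mul_unit_inv_mem A E' ϖ hϖ y' 𝔪' w hw V' hV'
      have h3 : x / Algebra.norm E' Z = x / (u : E') * (algebraMap A E' ϖ * w)⁻¹ := by
        rw [hN]
        have := hw.1
        have := hunif.1
        field_simp
      rw [h3]
      exact V'.mul_mem _ _ h1 h2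
  obtain ⟨hb1, hb2⟩ :=
    (hNP E' E₀ V' hV'.1.1.1 hV'.1.1.2.1 Z (r11_poly_of_inLoc A E' E₀ hZint hV')).2 hNunif
  have hVPa : V = Pa := hb1 V Pa rfl hPaV hZV hPaZ
  obtain ⟨s, hs𝔪, hs𝔪a⟩ := hne
  have hsV : (s : E₀) ∈ V := rs_centred_le hV s.2
  obtain ⟨d, hdV', hsd⟩ := hb2 V rfl hZV (s : E₀) hsV
  haveI := chartClosure_isNoetherianRing A E' hinj ϖ hϖ y' hy' hfd'
  haveI := chartClosure_isFractionRing A E' y' hy' hfd'
  haveI := h𝔪'
  obtain ⟨hu𝔪, hREG, hTF⟩ := hreg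
  have hϖB0 : algebraMap A ↥(chartClosure A E' y') ϖ ≠ 0 := by
    intro h0'
    have h1 := congrArg (Subtype.val) h0'
    exact hϖ.ne_zero (hinj (by rw [map_zero]; exact h1))
  obtain ⟨d₁, d₂, hor, hmem⟩ := r11_tubeLoc_resVal (E := E') (𝔪 := 𝔪')
    (algebraMap A ↥(chartClosure A E' y') ϖ) u hϖ𝔪' hu𝔪 hϖB0 hREG hTF V'
    (fun b => Fermat.Agent.H31.SS.mem_of_mem_chartClosure hV'.1 b.2)
    (fun b hb => hV'.2 b hb)
    (pi_not_mem_nonunits_of_isPlace hinj hV'.1.1 hϖ.ne_zero) huV d hdV'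
  set D₁ : chartClosure A E₀ (algebraMap E' E₀ y') :=
    ⟨algebraMap E' E₀ (d₁ : E'), r11_map_mem_chartClosure d₁.2⟩ with hD₁
  set D₂ : chartClosure A E₀ (algebraMap E' E₀ y') :=
    ⟨algebraMap E' E₀ (d₂ : E'), r11_map_mem_chartClosure d₂.2⟩ with hD₂
  have hxV : ((D₂ * s - D₁ : chartClosure A E₀ (algebraMap E' E₀ y')) : E₀) ∈ V.nonunits := by
    have hE : ((D₂ * s - D₁ : chartClosure A E₀ (algebraMap E' E₀ y')) : E₀)
        = ((s : E₀) - algebraMap E' E₀ d) * algebraMap E' E₀ (d₂ : E')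
          + algebraMap E' E₀ ((d₂ : E') * d - (d₁ : E')) := by
      show algebraMap E' E₀ (d₂ : E') * (s : E₀) - algebraMap E' E₀ (d₁ : E') = _
      rw [map_sub, map_mul]
      ring
    rw [hE]
    refine r11_add_mem_nonunits (r11_mul_mem_nonunits hsd (rs_centred_le hV D₂.2)) ?_
    exact (Fermat.Agent.H88.KLB.mem_nonunits_comap V _).1 hmem
  have hx𝔪 : D₂ * s - D₁ ∈ 𝔪 := hV.2 _ hxV
  have hx𝔪a : D₂ * s - D₁ ∈ 𝔪a := hPa.2 _ (hVPa ▸ hxV)
  have hD₁𝔪 : D₁ ∈ 𝔪 := by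
    have : D₁ = D₂ * s - (D₂ * s - D₁) := by ring
    rw [this]
    exact 𝔪.sub_mem (𝔪.mul_mem_left _ hs𝔪) hx𝔪
  have hd₁ : d₁ ∈ 𝔪' := (hlie d₁ _).1 hD₁𝔪
  rcases hor with h | h
  · exact h hd₁
  · have hD₁𝔪a : D₁ ∈ 𝔪a := (hlie_a d₁ _).2 hd₁
    have hD₂s : D₂ * s ∈ 𝔪a := by
      have : D₂ * s = (D₂ * s - D₁) + D₁ := by ring
      rw [this]
      exact 𝔪a.add_mem hx𝔪a hD₁𝔪a
    rcases h𝔪a.mem_or_mem hD₂s with h' | h'
    · exact h ((hlie_a d₂ _).1 h')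
    · exact hs𝔪a h'

end Hyp1

section Clear

variable (A : Type) [CommRing A] [IsDomain A] [IsDiscreteValuationRing A]
  (E' E₀ : Type) [Field E'] [Field E₀] [Algebra A E'] [Algebra A E₀] [Algebra E' E₀]
  [IsScalarTower A E' E₀]

/-- An element of `B(y)` is integral over `B'_{𝔪'}` (indeed over `A[y']`). -/
theorem r11_hint_of_mem {y' : E'} (𝔪' : Ideal (chartClosure A E' y')) (h𝔪' : 𝔪'.IsPrime)
    {Z : E₀} (hZ : Z ∈ chartClosure A E₀ (algebraMap E' E₀ y')) :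
    ∃ p : Polynomial E', p.Monic ∧ (∀ i, InLoc A E' y' 𝔪' (p.coeff i)) ∧
      Polynomial.aeval Z p = 0 := by
  rw [Fermat.Agent.H87.KL.mem_chartClosure_iff] at hZ
  obtain ⟨p, hp, hpZ⟩ := hZ
  refine ⟨p.map (Fermat.Agent.H87.KL.evX (A := A) y'), hp.map _, fun i => ?_, ?_⟩
  · rw [Polynomial.coeff_map, Fermat.Agent.H87.KL.evX_apply]
    refine ⟨1, (Ideal.ne_top_iff_one 𝔪').mp h𝔪'.ne_top, ?_⟩
    have h1 : ((1 : chartClosure A E' y') : E') = 1 := rfl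
    rw [h1, one_mul, Fermat.Agent.H87.KL.mem_chartClosure_iff]
    exact Fermat.Agent.H87.KL.IntX.map (A := A) y' (p.coeff i)
  · rw [Polynomial.aeval_def, Polynomial.eval₂_map, r11_evX_comp]
    exact hpZ

/-- A common denominator for finitely many elements of `B'_{𝔪'}`. -/
theorem r11_common_denom {y' : E'} (𝔪' : Ideal (chartClosure A E' y')) (h𝔪' : 𝔪'.IsPrime)
    (c : ℕ → E') (hc : ∀ i, InLoc A E' y' 𝔪' (c i)) (F : Finset ℕ) :
    ∃ s₀ : chartClosure A E' y', s₀ ∉ 𝔪' ∧ ∀ i ∈ F, (s₀ : E') * c i ∈ chartClosure A E' y' := by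
  classical
  induction F using Finset.induction_on with
  | empty =>
    exact ⟨1, (Ideal.ne_top_iff_one 𝔪').mp h𝔪'.ne_top, fun i hi => by simp at hi⟩
  | insert a F ha ih =>
    obtain ⟨s₀, hs₀, hs₀c⟩ := ih
    obtain ⟨b, hb, hbc⟩ := hc a
    refine ⟨b * s₀, fun h => ?_, fun i hi => ?_⟩
    · rcases h𝔪'.mem_or_mem h with h' | h'
      · exact hb h'
      · exact hs₀ h'
    · rcases Finset.mem_insert.1 hi with rfl | hi'
      · have : ((b * s₀ : chartClosure A E' y') : E') * c i = (s₀ : E') * ((b : E') * c i) := by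
          show (b : E') * (s₀ : E') * c i = _
          ring
        rw [this]
        exact Subalgebra.mul_mem _ s₀.2 hbc
      · have : ((b * s₀ : chartClosure A E' y') : E') * c i = (b : E') * ((s₀ : E') * c i) := by
          show (b : E') * (s₀ : E') * c i = _
          ring
        rw [this]
        exact Subalgebra.mul_mem _ b.2 (hs₀c i hi')

/-- A function integral over `B'_{𝔪'}` becomes an element of `B` after multiplication by some
`s₀ ∈ B' ∖ 𝔪'`. -/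
theorem r11_exists_mul_mem {y' : E'} (𝔪' : Ideal (chartClosure A E' y')) (h𝔪' : 𝔪'.IsPrime)
    {S : E₀}
    (hSint : ∃ p : Polynomial E', p.Monic ∧ (∀ i, InLoc A E' y' 𝔪' (p.coeff i)) ∧
      Polynomial.aeval S p = 0) :
    ∃ s₀ : chartClosure A E' y', s₀ ∉ 𝔪' ∧
      algebraMap E' E₀ (s₀ : E') * S ∈ chartClosure A E₀ (algebraMap E' E₀ y') := by
  obtain ⟨p, hp, hc, h0⟩ := hSint
  obtain ⟨s₀, hs₀, hs₀c⟩ := r11_common_denom A E' 𝔪' h𝔪' (fun i => p.coeff i) hc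
    (Finset.range p.natDegree)
  refine ⟨s₀, hs₀, ?_⟩
  set Q : Polynomial E₀ := (scaleRoots p (s₀ : E')).map (algebraMap E' E₀) with hQ
  have hQm : Q.Monic := ((monic_scaleRoots_iff _).2 hp).map _
  have hQc : ∀ i, Q.coeff i ∈ chartClosure A E₀ (algebraMap E' E₀ y') := by
    intro i
    rw [hQ, Polynomial.coeff_map, coeff_scaleRoots]
    refine r11_map_mem_chartClosure ?_
    rcases lt_trichotomy i p.natDegree with hlt | heq | hgt
    · obtain ⟨e, he⟩ : ∃ e, p.natDegree - i = e + 1 := ⟨p.natDegree - i - 1, by omega⟩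
      rw [he]
      have e1 : p.coeff i * (s₀ : E') ^ (e + 1) = ((s₀ : E') * p.coeff i) * (s₀ : E') ^ e := by
        rw [pow_succ]
        ring
      rw [e1]
      exact Subalgebra.mul_mem _ (hs₀c i (Finset.mem_range.2 hlt)) (Subalgebra.pow_mem _ s₀.2 _)
    · rw [heq, hp.coeff_natDegree, one_mul]
      exact Subalgebra.pow_mem _ s₀.2 _
    · rw [coeff_eq_zero_of_natDegree_lt hgt, zero_mul]
      exact Subalgebra.zero_mem _
  have hQs : Q.eval (algebraMap E' E₀ (s₀ : E') * S) = 0 := by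
    rw [hQ, Polynomial.eval_map, ← Polynomial.aeval_def]
    exact scaleRoots_aeval_eq_zero h0
  exact Fermat.Agent.H45.cc_mem_of_monic_coeff_mem _ Q hQm hQc _ hQs

end Clear

section CoreGen

variable (A : Type) [CommRing A] [IsDomain A] [IsDiscreteValuationRing A]
  (E : Type) [Field E] [Algebra A E] [CharZero E]

/-- **Clause (p) away from the other branches.**  `x₁` a uniformiser of `V₁₁` which is a unit
of every place centred at `𝔪`; the other two vertical valuations do not pass through `𝔪`.  Then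
the centre of `V₁₁` is generated by `x₁` locally at `𝔪`. -/
theorem r11_prin_away (hH : LocalHartogsStatement)
    (hinj : Function.Injective (algebraMap A E))
    (ϖ : A) (hϖ : Irreducible ϖ) (y : E) (hy : Transcendental A y)
    (hfd : ∃ n : ℕ, Nonempty (Module.Basis (Fin n) (chartField A E y) E))
    (𝔪 : Ideal (chartClosure A E y)) (h𝔪 : 𝔪.IsMaximal)
    (hϖ𝔪 : algebraMap A (chartClosure A E y) ϖ ∈ 𝔪)
    (V₂₀ V₁₁ V₀₂ : ValuationSubring E)
    (hV20 : IsVertical A E ϖ y V₂₀) (hV11 : IsVertical A E ϖ y V₁₁)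
    (hV02 : IsVertical A E ϖ y V₀₂)
    (hC : ∀ z : E, z ∈ V₂₀ → z ∈ V₁₁ → z ∈ V₀₂ → z ∈ gaussClosure A E ϖ y)
    (hA20 : ∃ s : chartClosure A E y, (s : E) ∈ V₂₀.nonunits ∧ s ∉ 𝔪)
    (hA02 : ∃ s : chartClosure A E y, (s : E) ∈ V₀₂.nonunits ∧ s ∉ 𝔪)
    (x₁ : E) (hunif : IsUniformiser E V₁₁ x₁)
    (hhor : ∀ V' : ValuationSubring E, CentredAt A E y 𝔪 V' → x₁⁻¹ ∈ V')
    (s : chartClosure A E y) (hs : (s : E) ∈ V₁₁.nonunits) :
    Fermat.Agent.H99.SS2.InLoc A E y 𝔪 ((s : E) / x₁) := by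
  have h𝔪p : 𝔪.IsPrime := h𝔪.isPrime
  have hB : ∀ V : ValuationSubring E, IsVertical A E ϖ y V →
      ∀ z ∈ chartClosure A E y, z ∈ V := fun V hV z hz =>
    hV.2.2.1 z (Fermat.Agent.H89.klg_chartClosure_le_gaussClosure hϖ hy hz)
  have hz : (s : E) / x₁ ∈ V₁₁ := hunif.2.2 _ hs
  obtain ⟨s₂₀, hs₂₀V, hs₂₀𝔪⟩ := hA20
  obtain ⟨s₀₂, hs₀₂V, hs₀₂𝔪⟩ := hA02
  have hne : ∀ t : chartClosure A E y, t ∉ 𝔪 → (t : E) ≠ 0 := by
    intro t ht h0
    apply ht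
    have : t = 0 := Subtype.ext h0
    rw [this]
    exact 𝔪.zero_mem
  obtain ⟨N₁, hN₁⟩ := Fermat.Agent.H60.SS2.vs_exists_pow_mul_mem V₂₀ hV20.1 hV20.2.1 hs₂₀V
    (hne _ hs₂₀𝔪) ((s : E) / x₁)
  obtain ⟨N₂, hN₂⟩ := Fermat.Agent.H60.SS2.vs_exists_pow_mul_mem V₀₂ hV02.1 hV02.2.1 hs₀₂V
    (hne _ hs₀₂𝔪) ((s : E) / x₁)
  set T : chartClosure A E y := s₂₀ ^ N₁ * s₀₂ ^ N₂ with hT
  have hT𝔪 : T ∉ 𝔪 := by
    intro h
    rcases h𝔪p.mem_or_mem h with h' | h'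
    · exact hs₂₀𝔪 (h𝔪p.mem_of_pow_mem _ h')
    · exact hs₀₂𝔪 (h𝔪p.mem_of_pow_mem _ h')
  have hTE : (T : E) = (s₂₀ : E) ^ N₁ * (s₀₂ : E) ^ N₂ := rfl
  have hTz20 : (T : E) * ((s : E) / x₁) ∈ V₂₀ := by
    have : (T : E) * ((s : E) / x₁) = (s₀₂ : E) ^ N₂ * ((s₂₀ : E) ^ N₁ * ((s : E) / x₁)) := by
      rw [hTE]
      ring
    rw [this]
    exact V₂₀.mul_mem _ _ (hB V₂₀ hV20 _ (Subalgebra.pow_mem _ s₀₂.2 _)) hN₁
  have hTz02 : (T : E) * ((s : E) / x₁) ∈ V₀₂ := by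
    have : (T : E) * ((s : E) / x₁) = (s₂₀ : E) ^ N₁ * ((s₀₂ : E) ^ N₂ * ((s : E) / x₁)) := by
      rw [hTE]
      ring
    rw [this]
    exact V₀₂.mul_mem _ _ (hB V₀₂ hV02 _ (Subalgebra.pow_mem _ s₂₀.2 _)) hN₂
  have hTz11 : (T : E) * ((s : E) / x₁) ∈ V₁₁ := V₁₁.mul_mem _ _ (hB V₁₁ hV11 _ T.2) hz
  have hgc := hC _ hTz20 hTz11 hTz02
  obtain ⟨b, hb, hbm⟩ := hH A E hinj ϖ hϖ y hy hfd 𝔪 h𝔪 hϖ𝔪 _ hgc (fun V' hV' => by
    have : (T : E) * ((s : E) / x₁) = ((T : E) * (s : E)) * x₁⁻¹ := by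
      rw [div_eq_mul_inv]
      ring
    rw [this]
    exact V'.mul_mem _ _ (rs_centred_le hV' (Subalgebra.mul_mem _ T.2 s.2)) (hhor V' hV'))
  refine ⟨b * T, fun h => ?_, ?_⟩
  · rcases h𝔪p.mem_or_mem h with h' | h'
    · exact hb h'
    · exact hT𝔪 h'
  · have : ((b * T : chartClosure A E y) : E) * ((s : E) / x₁)
        = (b : E) * ((T : E) * ((s : E) / x₁)) := by
      show (b : E) * (T : E) * ((s : E) / x₁) = _
      ring
    rw [this]
    exact hbm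

end CoreGen

section CoreGen2

variable (A : Type) [CommRing A] [IsDomain A] [IsDiscreteValuationRing A]
  (E' E : Type) [Field E'] [Field E] [Algebra A E'] [Algebra A E] [Algebra E' E]
  [IsScalarTower A E' E] [CharZero E'] [FiniteDimensional E' E]

/-- **REG11, general formal core** (all closed points lying only on `V₁₁`, cuspidal or not).
`𝔪` a closed point of level `L q` above the point `𝔪'` of level `L`; `V₁₁` a vertical valuation
through `𝔪`, the other two vertical valuations do not pass through `𝔪`; `S` a LOCAL function,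
integral over `B'_{𝔪'}`, which is a uniformiser of `V₁₁`; `V₁₁ ∩ E' = V₁₀` with residue degree
one, `V₁₀` a localisation of `B'`, `𝔪'` a regular point `(ϖ, U')` on `V₁₀`; the norm
`N_{E/E'}(S) = ϖ w u` with `w` a unit of `B'_{𝔪'}` and `u ∈ B'` either a unit at `𝔪'` or a
regular parameter, in which case some place `Pa` with `S ∈ 𝔪_{Pa}` is centred at another point
`𝔪a ≠ 𝔪` above `𝔪'`.  Then `𝔪` is a regular point with parameters `(s₀ S, U)`, `s₀ ∈ B' ∖ 𝔪'`. -/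
theorem reg11_core_gen (hH : LocalHartogsStatement) (hNP : NormPlaceStatement)
    (hinj' : Function.Injective (algebraMap A E'))
    (ϖ : A) (hϖ : Irreducible ϖ) (y' : E') (hy' : Transcendental A y')
    (hfd' : ∃ n : ℕ, Nonempty (Module.Basis (Fin n) (chartField A E' y') E'))
    (y : E) (hyy : algebraMap E' E y' = y) (hy : Transcendental A y)
    (hfd : ∃ n : ℕ, Nonempty (Module.Basis (Fin n) (chartField A E y) E))
    (𝔪 : Ideal (chartClosure A E y)) (h𝔪 : 𝔪.IsMaximal)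
    (hϖ𝔪 : algebraMap A (chartClosure A E y) ϖ ∈ 𝔪)
    (𝔪' : Ideal (chartClosure A E' y')) (h𝔪' : 𝔪'.IsPrime)
    (hL : Fermat.Agent.H99.SS2.LiesOverAlong A E E' (algebraMap E' E) y' y 𝔪' 𝔪)
    (V₂₀ V₁₁ V₀₂ : ValuationSubring E)
    (hV20 : IsVertical A E ϖ y V₂₀) (hV11 : IsVertical A E ϖ y V₁₁)
    (hV02 : IsVertical A E ϖ y V₀₂)
    (hC : ∀ z : E, z ∈ V₂₀ → z ∈ V₁₁ → z ∈ V₀₂ → z ∈ gaussClosure A E ϖ y)
    (hthru : Through A E y 𝔪 V₁₁)
    (hA20 : ∃ s : chartClosure A E y, (s : E) ∈ V₂₀.nonunits ∧ s ∉ 𝔪)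
    (hA02 : ∃ s : chartClosure A E y, (s : E) ∈ V₀₂.nonunits ∧ s ∉ 𝔪)
    (S : E)
    (hSint : ∃ p : Polynomial E', p.Monic ∧ (∀ i, InLoc A E' y' 𝔪' (p.coeff i)) ∧
      Polynomial.aeval S p = 0)
    (hunif : IsUniformiser E V₁₁ S)
    (V₁₀ : ValuationSubring E') (hVV' : V₁₁.comap (algebraMap E' E) = V₁₀)
    (hres : ∀ z ∈ V₁₁, ∃ z' ∈ V₁₀, z - algebraMap E' E z' ∈ V₁₁.nonunits)
    (hfrac : ∀ z' ∈ V₁₀, ∃ d₁ d₂ : chartClosure A E' y',
      (d₂ : E') ∉ V₁₀.nonunits ∧ z' * (d₂ : E') = d₁)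
    (U' : E') (hreg' : IsRegPoint A E' ϖ y' 𝔪' V₁₀ (algebraMap A E' ϖ) U')
    (w : E') (hw : IsLocUnit A E' y' 𝔪' w) (u : chartClosure A E' y')
    (hN : Algebra.norm E' S = algebraMap A E' ϖ * w * (u : E'))
    (hcase : u ∉ 𝔪' ∨ (IsRegularAt A E' ϖ y' 𝔪' u ∧
      ∃ (𝔪a : Ideal (chartClosure A E y)) (Pa : ValuationSubring E), 𝔪a.IsPrime ∧
        (∃ s : chartClosure A E y, s ∈ 𝔪 ∧ s ∉ 𝔪a) ∧
        Fermat.Agent.H99.SS2.LiesOverAlong A E E' (algebraMap E' E) y' y 𝔪' 𝔪a ∧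
        CentredAt A E y 𝔪a Pa ∧ S ∈ Pa.nonunits)) :
    ∃ x₁ U : E, IsRegPoint A E ϖ y 𝔪 V₁₁ x₁ U := by
  subst hyy
  haveI : CharZero E := charZero_of_injective_algebraMap (algebraMap E' E).injective
  have hinj : Function.Injective (algebraMap A E) := by
    rw [IsScalarTower.algebraMap_eq A E' E]
    exact (algebraMap E' E).injective.comp hinj'
  have hφ : ∀ a : A, algebraMap E' E (algebraMap A E' a) = algebraMap A E a := fun a =>
    (IsScalarTower.algebraMap_apply A E' E a).symm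
  have h𝔪p : 𝔪.IsPrime := h𝔪.isPrime
  have hϖ𝔪' : algebraMap A (chartClosure A E' y') ϖ ∈ 𝔪' :=
    hreg'.thru _ hreg'.vert.2.2.2
  -- HYP1 for `S`
  have hhyp1 : ∀ V : ValuationSubring E,
      CentredAt A E (algebraMap E' E y') 𝔪 V → S ∉ V.nonunits := by
    intro V hV
    rcases hcase with hu | ⟨hreg, 𝔪a, Pa, h𝔪a, hne, hLa, hPa, hPaZ⟩
    · have hwu : IsLocUnit A E' y' 𝔪' (w * (u : E')) :=
        Fermat.Agent.H93.SS2.rs_isLocUnit_mul hw (r11_isLocUnit_of_not_mem A E' h𝔪' u hu)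
      exact reg11_hyp1_easy' A E' E hNP hinj' ϖ hϖ y' _ rfl 𝔪' 𝔪
        (fun d h => (r11_lie_of_liesOverAlong A E' E h𝔪p hL d h).1) S hSint _ hwu
        (by rw [hN, mul_assoc]) V hV
    · exact reg11_hyp1_hard' A E' E hNP hinj' ϖ hϖ y' hy' hfd' _ rfl 𝔪' h𝔪' hϖ𝔪' 𝔪 𝔪a h𝔪a
        (r11_lie_of_liesOverAlong A E' E h𝔪p hL) (r11_lie_of_liesOverAlong A E' E h𝔪a hLa)
        hne S hSint u hreg w hw hN Pa hPa hPaZ V hV
  -- the uniformiser `x₁ = s₀ S ∈ B`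
  obtain ⟨s₀, hs₀, hs₀S⟩ := r11_exists_mul_mem A E' E 𝔪' h𝔪' hSint
  set σ : chartClosure A E (algebraMap E' E y') :=
    ⟨algebraMap E' E (s₀ : E'), r11_map_mem_chartClosure s₀.2⟩ with hσ
  have hσ𝔪 : σ ∉ 𝔪 := fun h => hs₀ ((r11_lie_of_liesOverAlong A E' E h𝔪p hL s₀ _).1 h)
  have hσ0 : (σ : E) ≠ 0 := by
    intro h0
    apply hσ𝔪
    have : σ = 0 := Subtype.ext h0
    rw [this]
    exact 𝔪.zero_mem
  have hσV : (σ : E) ∉ V₁₁.nonunits := fun h => hσ𝔪 (hthru σ h)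
  have hσinv : (σ : E)⁻¹ ∈ V₁₁ := r11_inv_mem hσV
  have hBV11 : ∀ z ∈ chartClosure A E (algebraMap E' E y'), z ∈ V₁₁ := fun z hz =>
    hV11.2.2.1 z (Fermat.Agent.H89.klg_chartClosure_le_gaussClosure hϖ hy hz)
  have hunif₁ : IsUniformiser E V₁₁ ((σ : E) * S) := by
    refine ⟨mul_ne_zero hσ0 hunif.1, ?_, fun z hz => ?_⟩
    · rw [mul_comm]
      exact r11_mul_mem_nonunits hunif.2.1 (hBV11 _ σ.2)
    · have : z / ((σ : E) * S) = z / S * (σ : E)⁻¹ := by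
        have := hunif.1
        field_simp
      rw [this]
      exact V₁₁.mul_mem _ _ (hunif.2.2 z hz) hσinv
  have hhor : ∀ V : ValuationSubring E, CentredAt A E (algebraMap E' E y') 𝔪 V →
      ((σ : E) * S)⁻¹ ∈ V := by
    intro V hV
    rw [mul_inv]
    exact V.mul_mem _ _ (r11_inv_mem (fun h => hσ𝔪 (hV.2 σ h))) (r11_inv_mem (hhyp1 V hV))
  have hprin : ∀ s : chartClosure A E (algebraMap E' E y'), (s : E) ∈ V₁₁.nonunits →
      Fermat.Agent.H99.SS2.InLoc A E (algebraMap E' E y') 𝔪 ((s : E) / ((σ : E) * S)) :=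
    fun s hs => r11_prin_away A E hH hinj ϖ hϖ _ hy hfd 𝔪 h𝔪 hϖ𝔪 V₂₀ V₁₁ V₀₂ hV20 hV11 hV02
      hC hA20 hA02 _ hunif₁ hhor s hs
  obtain ⟨b₀, hb₀, hb₀U⟩ := hL.1 ⟨U', hreg'.mem₂⟩
  exact ⟨_, _, reg11_gen hinj' hinj hϖ hy' hfd' hy (algebraMap E' E) hφ 𝔪 h𝔪p 𝔪' h𝔪' hL V₁₁
    hV11 hthru _ hs₀S hunif₁ hprin V₁₀ hVV' hres hfrac U' hreg' b₀ hb₀ hb₀U⟩

end CoreGen2

end Fermat.Agent.H12.SS2
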