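import Fermat.Agent.H12.SS2.PointsChart4
import Fermat.Agent.H35.SS2.AsmGlue2
import Fermat.Agent.H22.SS2.PointsInvStmt

/-!
# P-SS2 (P) POINTS, chart `x = j`, `q` odd, `4 ∣ M'`: the exact target of helper35 (helper12)

* `asmPointsChart : AsmPointsChartStatement M' q M'` (the first half of (P), over bases
  containing a primitive `M'`-th root of unity), unconditional for `q` an odd prime, `q ∤ M'`,
  `4 ∣ M'`.
* `newInvariantFF_odd4 : NewInvariantFFStatement (M' * q) q` : (KC-FF) at level `M' q²` for `q`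
  an odd prime, `q ∤ M'`, `4 ∣ M'`, UNCONDITIONAL (helper35's glue `newInvariantFF_of_halves`,
  helper22's chart `x⁻¹` half `asmPointsInvStatement`).
-/

set_option autoImplicit false

noncomputable section

namespace Fermat.Agent.H12.SS2

/-- **(P) POINTS, chart `j`**: the exact target `AsmPointsChartStatement M' q M'`. -/
theorem asmPointsChart (M' q : ℕ) [NeZero M'] [NeZero q] (hq : q.Prime) (hq2 : q ≠ 2)
    (h4 : 4 ∣ M') (hqM : ¬ q ∣ M') :
    Fermat.Agent.H35.SS2.AsmPointsChartStatement M' q M' := by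
  intro K₁ _ _ _ OK _ _ _ _ _ hirr hζ Wq hWq x X₁ Y₁ Z V11 V02 hx hX hY hZ _ hG 𝔪 h𝔪 hq𝔪
  exact asmPointsChart4 M' q hq hq2 h4 hqM K₁ OK hirr hζ Wq hWq x X₁ Y₁ Z V11 V02 hx hX hY hZ
    hG 𝔪 h𝔪 hq𝔪

/-- **(KC-FF) at level `M' q²`**, `q` an odd prime, `q ∤ M'`, `4 ∣ M'`: unconditional. -/
theorem newInvariantFF_odd4 (M' q : ℕ) [NeZero M'] [NeZero q] (hq : q.Prime) (hq2 : q ≠ 2)
    (h4 : 4 ∣ M') (hqM : ¬ q ∣ M') :
    Fermat.Agent.H11.SS2.NewInvariantFFStatement (M' * q) q :=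
  Fermat.Agent.H35.SS2.newInvariantFF_of_halves M' q M' M' hq hq2 h4 hqM
    (Nat.pos_of_ne_zero (NeZero.ne M')) (Nat.pos_of_ne_zero (NeZero.ne M')) hqM hqM
    (asmPointsChart M' q hq hq2 h4 hqM)
    (Fermat.Agent.H22.SS2.asmPointsInvStatement M' q hq hqM)

end Fermat.Agent.H12.SS2
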