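import Fermat.Agent.H12.SS2.Reg11Defs
import Fermat.Agent.H11.SS2.Defs
import Fermat.Agent.H41.SS.TubeChart
import Fermat.Agent.H88.KL.KummerBranch
import Fermat.Agent.H93.SS2.RegSSCore

/-!
# P-SS2 row 902 (SS2-C5 REG11): the abstract core of HYP1 (helper12)

Chart language of `Fermat.Agent.H22.KL` / `Fermat.Agent.H45` / `Fermat.Agent.H11.SS2.Defs`.
Two levels: `E' ⊆ E₀` (finite), the same chart coordinate `y = y'`, `B' = B(y') ⊆ B = B(y)`,
a maximal ideal `𝔪` of `B` above `𝔪'` of `B'`.  `Z ∈ B`, `N = N_{E₀/E'}(Z)`.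

* `reg11_hyp1_easy` : if `N = ϖ w` with `w` a unit of `B'_{𝔪'}`, then `Z` is a unit of every
  place centred at `𝔪`.
* `reg11_hyp1_hard` : if `N = ϖ w u` with `w` a unit of `B'_{𝔪'}` and `(ϖ, u)` regular
  parameters at `𝔪'`, and if some place `Pa` with `Z ∈ 𝔪_{Pa}` is centred at a maximal ideal
  `𝔪a ≠ 𝔪` above `𝔪'`, then `Z` is a unit of every place centred at `𝔪`.
-/

set_option autoImplicit false
set_option linter.style.haveILetI false
set_option linter.unusedSectionVars false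

noncomputable section

namespace Fermat.Agent.H12.SS2

open Polynomial
open Fermat.Agent.H22.KL Fermat.Agent.H11.SS2 Fermat.Agent.H45

section Maps

variable {A : Type} [CommRing A] {E' E₀ : Type} [Field E'] [Field E₀] [Algebra A E']
  [Algebra A E₀] [Algebra E' E₀] [IsScalarTower A E' E₀]

theorem r11_evX_comp (y' : E') :
    (algebraMap E' E₀).comp (Fermat.Agent.H87.KL.evX (A := A) y')
      = Fermat.Agent.H87.KL.evX (A := A) (algebraMap E' E₀ y') := by
  ext a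
  · simp only [RingHom.comp_apply, Fermat.Agent.H87.KL.evX_apply, aeval_C]
    exact (IsScalarTower.algebraMap_apply A E' E₀ a).symm
  · simp only [RingHom.comp_apply, Fermat.Agent.H87.KL.evX_apply, aeval_X]

/-- `B(y') ⊆ B(y)`. -/
theorem r11_map_mem_chartClosure {y' d : E'} (hd : d ∈ chartClosure A E' y') :
    algebraMap E' E₀ d ∈ chartClosure A E₀ (algebraMap E' E₀ y') := by
  rw [Fermat.Agent.H87.KL.mem_chartClosure_iff] at hd ⊢
  obtain ⟨p, hp, hpd⟩ := hd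
  refine ⟨p, hp, ?_⟩
  rw [← r11_evX_comp, ← Polynomial.hom_eval₂, hpd, map_zero]

/-- The restriction of a finite place is a finite place. -/
theorem r11_comap_isFinitePlace [Algebra.IsAlgebraic E' E₀] {y' : E'}
    {V : ValuationSubring E₀} (hV : IsFinitePlace A E₀ (algebraMap E' E₀ y') V) :
    IsFinitePlace A E' y' (V.comap (algebraMap E' E₀)) :=
  ⟨Fermat.Agent.H88.KLB.isPlace_comap hV.1, ValuationSubring.mem_comap.mpr hV.2⟩

/-- The restriction of a place centred at `𝔪` is centred at `𝔪'` when `𝔪 ∩ B' ⊆ 𝔪'`. -/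
theorem r11_comap_centredAt [Algebra.IsAlgebraic E' E₀] {y' : E'}
    {𝔪' : Ideal (chartClosure A E' y')}
    {𝔪 : Ideal (chartClosure A E₀ (algebraMap E' E₀ y'))}
    (hlie : ∀ d : chartClosure A E' y',
      (⟨algebraMap E' E₀ d, r11_map_mem_chartClosure d.2⟩ :
        chartClosure A E₀ (algebraMap E' E₀ y')) ∈ 𝔪 → d ∈ 𝔪')
    {V : ValuationSubring E₀} (hV : CentredAt A E₀ (algebraMap E' E₀ y') 𝔪 V) :
    CentredAt A E' y' 𝔪' (V.comap (algebraMap E' E₀)) := by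
  refine ⟨r11_comap_isFinitePlace hV.1, fun s hs => hlie s (hV.2 _ ?_)⟩
  exact (Fermat.Agent.H88.KLB.mem_nonunits_comap V _).1 hs

/-- An element of `B(y)` is integral over the restriction of a finite place, in polynomial
form. -/
theorem r11_integral_poly {y' : E'} {Z : E₀}
    (hZ : Z ∈ chartClosure A E₀ (algebraMap E' E₀ y'))
    {O' : ValuationSubring E'} (hO' : IsFinitePlace A E' y' O') :
    ∃ p : Polynomial E', p.Monic ∧ (∀ i, p.coeff i ∈ O') ∧ Polynomial.aeval Z p = 0 := by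
  rw [Fermat.Agent.H87.KL.mem_chartClosure_iff] at hZ
  obtain ⟨p, hp, hpZ⟩ := hZ
  refine ⟨p.map (Fermat.Agent.H87.KL.evX (A := A) y'), hp.map _, fun i => ?_, ?_⟩
  · rw [Polynomial.coeff_map, Fermat.Agent.H87.KL.evX_apply]
    exact Fermat.Agent.H31.SS.aeval_mem_of_isFinitePlace hO' _
  · rw [Polynomial.aeval_def, Polynomial.eval₂_map, r11_evX_comp]
    exact hpZ

end Maps

section Val

variable {E : Type*} [Field E]

theorem r11_zero_mem_nonunits (V : ValuationSubring E) : (0 : E) ∈ V.nonunits := by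
  rw [ValuationSubring.mem_nonunits_iff, map_zero]
  exact zero_lt_one

theorem r11_inv_mem {V : ValuationSubring E} {x : E} (hx : x ∉ V.nonunits) : x⁻¹ ∈ V := by
  by_contra h
  exact hx ((ValuationSubring.mem_nonunits_iff_or V).2 (Or.inr h))

theorem r11_mul_mem_nonunits {V : ValuationSubring E} {x y : E} (hx : x ∈ V.nonunits)
    (hy : y ∈ V) : x * y ∈ V.nonunits := by
  rw [ValuationSubring.mem_nonunits_iff] at hx ⊢
  rw [map_mul]
  rw [mul_comm]
  exact mul_lt_of_le_one_of_lt ((V.valuation_le_one_iff y).2 hy) hx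

theorem r11_add_mem_nonunits {V : ValuationSubring E} {x y : E} (hx : x ∈ V.nonunits)
    (hy : y ∈ V.nonunits) : x + y ∈ V.nonunits := by
  rw [ValuationSubring.mem_nonunits_iff] at hx hy ⊢
  exact lt_of_le_of_lt (V.valuation.map_add _ _) (max_lt hx hy)

theorem r11_not_mem_nonunits_of_inv_mem {V : ValuationSubring E} {x : E} (hx0 : x ≠ 0)
    (hx : x⁻¹ ∈ V) : x ∉ V.nonunits := by
  intro h
  have h1 := r11_mul_mem_nonunits h hx
  rw [mul_inv_cancel₀ hx0, ValuationSubring.mem_nonunits_iff, map_one] at h1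
  exact lt_irrefl _ h1

end Val

section ResVal

open IsLocalRing

variable {R : Type*} [CommRing R] [IsDomain R] [IsLocalRing R] [IsNoetherianRing R]
variable {E : Type*} [Field E] [Algebra R E] [IsFractionRing R E]
variable {p u : R} (hmax : maximalIdeal R = Ideal.span {p, u})
  (hprime : (Ideal.span {p}).IsPrime) (hp : p ≠ 0) (hu : u ∉ Ideal.span {p}) (c : R)

include hmax hprime hp hu in
/-- **The image of a regular local ring in the residue field of the place `t = 0` is a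
valuation ring.**  For every `d ∈ V` there are `r₁, r₂ ∈ R`, one of them a unit, with
`r₂ d ≡ r₁` modulo `𝔪_V`. -/
theorem r11_resVal (V : ValuationSubring E) (hRV : ∀ r : R, algebraMap R E r ∈ V)
    (hpV : algebraMap R E p ∉ V.nonunits)
    (htV : algebraMap R E (u - p * c) ∈ V.nonunits) (d : E) (hd : d ∈ V) :
    ∃ r₁ r₂ : R, (IsUnit r₁ ∨ IsUnit r₂) ∧
      algebraMap R E r₂ * d - algebraMap R E r₁ ∈ V.nonunits := by
  by_cases hd0 : d = 0
  · refine ⟨0, 1, Or.inr isUnit_one, ?_⟩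
    rw [hd0, mul_zero, map_zero, sub_zero]
    exact r11_zero_mem_nonunits V
  set t : R := u - p * c with ht
  have hcen := Fermat.Agent.H41.SS.regTube_centre_eq hmax hprime hp hu c V hRV hpV htV
  have hunit : ∀ w : R, w ∉ Ideal.span {t} → algebraMap R E w ∉ V.nonunits := by
    intro w hw hwV
    apply hw
    rw [← hcen]
    exact (Fermat.Agent.H41.SS.mem_regTubeCentre V hRV w).2 hwV
  obtain ⟨n₁, n₂, w₁, w₂, hw₁, hw₂, hrel⟩ :=
    Fermat.Agent.H41.SS.regTube_quot hmax c d hd0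
  have hval := Fermat.Agent.H41.SS.regTube_val hmax hprime hp hu c V hRV hpV htV hw₁ hw₂ hrel
  have ht0 : algebraMap R E t ≠ 0 := by
    rw [Ne, map_eq_zero_iff _ (IsFractionRing.injective R E)]
    exact Fermat.Agent.H41.SS.regTube_t_ne_zero hu c
  have hτ0 : V.valuation (algebraMap R E t) ≠ 0 := by
    rw [Ne, map_eq_zero]; exact ht0
  have hτ1 : V.valuation (algebraMap R E t) < 1 :=
    (ValuationSubring.mem_nonunits_iff _).1 htV
  have hle : n₂ ≤ n₁ :=
    (Fermat.Agent.H41.SS.regTube_order hτ0 hτ1 hval).1 ((V.valuation_le_one_iff d).2 hd)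
  obtain ⟨k, rfl⟩ := Nat.exists_eq_add_of_le hle
  have hw₂0 : algebraMap R E w₂ ≠ 0 := by
    rw [Ne, map_eq_zero_iff _ (IsFractionRing.injective R E)]
    rintro rfl
    exact hw₂ (Ideal.zero_mem _)
  have hw₂inv : (algebraMap R E w₂)⁻¹ ∈ V :=
    r11_inv_mem (hunit w₂ hw₂)
  -- `d w₂ = t ^ k w₁`
  have hrel' : d * algebraMap R E w₂ = algebraMap R E t ^ k * algebraMap R E w₁ := by
    have h1 : algebraMap R E t ^ n₂ ≠ 0 := pow_ne_zero _ ht0
    apply mul_left_cancel₀ h1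
    rw [pow_add] at hrel
    linear_combination hrel
  rcases Nat.eq_zero_or_pos k with hk | hk
  · -- `k = 0`
    subst hk
    rw [pow_zero, one_mul] at hrel'
    haveI hP : (Ideal.span {t}).IsPrime :=
      Fermat.Agent.H71.SS.regPoint_isPrime hmax hprime hp hu c
    haveI : IsDomain (R ⧸ Ideal.span {t}) := Ideal.Quotient.isDomain _
    haveI hD : IsDiscreteValuationRing (R ⧸ Ideal.span {t}) :=
      Fermat.Agent.H71.SS.regPoint_quotient_isDVR hmax hprime hp hu c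
    rcases ValuationRing.dvd_total (Ideal.Quotient.mk (Ideal.span {t}) w₂)
      (Ideal.Quotient.mk (Ideal.span {t}) w₁) with h | h
    · -- `w₁ ≡ w₂ x`
      obtain ⟨x', hx'⟩ := h
      obtain ⟨x, rfl⟩ := Ideal.Quotient.mk_surjective x'
      rw [← map_mul, Ideal.Quotient.eq, Ideal.mem_span_singleton'] at hx'
      obtain ⟨yy, hyy⟩ := hx'
      refine ⟨x, 1, Or.inr isUnit_one, ?_⟩
      have hE : algebraMap R E 1 * d - algebraMap R E x
          = algebraMap R E t * (algebraMap R E yy * (algebraMap R E w₂)⁻¹) := by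
        have h2 : algebraMap R E yy * algebraMap R E t
            = algebraMap R E w₁ - algebraMap R E w₂ * algebraMap R E x := by
          rw [← map_mul, hyy, map_sub, map_mul]
        rw [map_one, one_mul]
        field_simp
        linear_combination hrel' - h2
      rw [hE]
      exact r11_mul_mem_nonunits htV (V.mul_mem _ _ (hRV yy) hw₂inv)
    · -- `w₂ ≡ w₁ x`
      obtain ⟨x', hx'⟩ := h
      obtain ⟨x, rfl⟩ := Ideal.Quotient.mk_surjective x'
      rw [← map_mul, Ideal.Quotient.eq, Ideal.mem_span_singleton'] at hx'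
      obtain ⟨yy, hyy⟩ := hx'
      refine ⟨1, x, Or.inl isUnit_one, ?_⟩
      have hE : algebraMap R E x * d - algebraMap R E 1
          = algebraMap R E t * (-(algebraMap R E yy) * (algebraMap R E w₂)⁻¹) := by
        have h2 : algebraMap R E yy * algebraMap R E t
            = algebraMap R E w₂ - algebraMap R E w₁ * algebraMap R E x := by
          rw [← map_mul, hyy, map_sub, map_mul]
        rw [map_one]
        field_simp
        linear_combination (algebraMap R E x) * hrel' + h2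
      rw [hE]
      exact r11_mul_mem_nonunits htV (V.mul_mem _ _ (V.neg_mem _ (hRV yy)) hw₂inv)
  · -- `k > 0`: `d` is a non-unit
    refine ⟨0, 1, Or.inr isUnit_one, ?_⟩
    rw [map_one, one_mul, map_zero, sub_zero]
    obtain ⟨k', rfl⟩ := Nat.exists_eq_succ_of_ne_zero hk.ne'
    have hE : d = algebraMap R E t *
        (algebraMap R E t ^ k' * algebraMap R E w₁ * (algebraMap R E w₂)⁻¹) := by
      field_simp
      rw [hrel', pow_succ]
      ring
    rw [hE]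
    exact r11_mul_mem_nonunits htV
      (V.mul_mem _ _ (V.mul_mem _ _ (pow_mem (hRV t) _) (hRV w₁)) hw₂inv)

end ResVal

section ResValLoc

open IsLocalRing Fermat.Agent.H41.SS

variable {B : Type*} [CommRing B] [IsDomain B] [IsNoetherianRing B]
variable {E : Type*} [Field E] [Algebra B E] [IsFractionRing B E]
variable {𝔪 : Ideal B} [h𝔪 : 𝔪.IsPrime]

/-- An element of `B_𝔪` is a quotient `a / s`, `s ∉ 𝔪`, and `a ∉ 𝔪` if it is a unit. -/
theorem r11_tubeLoc_repr (r : ↥(tubeLocRing (E := E) 𝔪)) :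
    ∃ a s : B, s ∉ 𝔪 ∧ algebraMap B E s * (r : E) = algebraMap B E a ∧
      (IsUnit r → a ∉ 𝔪) := by
  haveI := tubeLocRing_isLocalRing (E := E) 𝔪
  obtain ⟨a, s, hs, hr⟩ := (mem_tubeLocRing_iff 𝔪 (r : E)).1 r.2
  have hs0 : algebraMap B E s ≠ 0 := by
    rw [Ne, map_eq_zero_iff _ (IsFractionRing.injective B E)]
    rintro rfl
    exact hs (Ideal.zero_mem _)
  refine ⟨a, s, hs, ?_, fun hru ha => ?_⟩
  · rw [hr]
    field_simp
  · -- `a = s r` in `B_𝔪`
    have h1 : algebraMap B ↥(tubeLocRing (E := E) 𝔪) a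
        = algebraMap B ↥(tubeLocRing (E := E) 𝔪) s * r := by
      apply Subtype.ext
      show algebraMap B E a = algebraMap B E s * (r : E)
      rw [hr]
      field_simp
    have h2 : algebraMap B ↥(tubeLocRing (E := E) 𝔪) a ∈
        maximalIdeal ↥(tubeLocRing (E := E) 𝔪) :=
      (IsLocalization.AtPrime.to_map_mem_maximal_iff _ 𝔪 a).2 ha
    have h3 : IsUnit (algebraMap B ↥(tubeLocRing (E := E) 𝔪) s) :=
      IsLocalization.map_units _ (⟨s, hs⟩ : 𝔪.primeCompl)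
    rw [h1] at h2
    exact (IsLocalRing.mem_maximalIdeal _).1 h2 (h3.mul hru)

/-- **Residue valuation ring, `B`-form.**  At a regular point `𝔪 B_𝔪 = (π, u)`, for a
valuation subring `V ⊇ B` centred in `𝔪` with `π` a unit and `u` a non-unit: every `d ∈ V`
satisfies `d₂ d ≡ d₁` modulo `𝔪_V` with `d₁, d₂ ∈ B` not both in `𝔪`. -/
theorem r11_tubeLoc_resVal (π u : B) (hπ𝔪 : π ∈ 𝔪) (hu𝔪 : u ∈ 𝔪) (hπ0 : π ≠ 0)
    (hreg : ∀ z ∈ 𝔪, ∃ s, s ∉ 𝔪 ∧ ∃ b₁ b₂ : B, s * z = π * b₁ + u * b₂)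
    (htf : ∀ (n : ℕ) (b : B), (∃ b' : B, u ^ n * b = π * b') →
      ∃ s, s ∉ 𝔪 ∧ ∃ b' : B, s * b = π * b')
    (V : ValuationSubring E) (hBV : ∀ b : B, algebraMap B E b ∈ V)
    (hcen : ∀ b : B, algebraMap B E b ∈ V.nonunits → b ∈ 𝔪)
    (hπV : algebraMap B E π ∉ V.nonunits)
    (htV : algebraMap B E u ∈ V.nonunits) (d : E) (hd : d ∈ V) :
    ∃ d₁ d₂ : B, (d₁ ∉ 𝔪 ∨ d₂ ∉ 𝔪) ∧
      algebraMap B E d₂ * d - algebraMap B E d₁ ∈ V.nonunits := by
  haveI := tubeLocRing_isLocalRing (E := E) 𝔪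
  haveI := tubeLocRing_isNoetherianRing (E := E) 𝔪
  obtain ⟨hmax, hprime, hp, hu⟩ := tubeLoc_regular (E := E) π u hπ𝔪 hu𝔪 hπ0 hreg htf
  obtain ⟨r₁, r₂, hor, hmem⟩ := r11_resVal (E := E) hmax hprime hp hu
    (0 : ↥(tubeLocRing (E := E) 𝔪)) V
    (tubeLoc_mem_valuationSubring V hBV hcen) hπV
    (by rw [mul_zero, sub_zero]; exact htV) d hd
  obtain ⟨a₁, s₁, hs₁, he₁, hu₁⟩ := r11_tubeLoc_repr (E := E) r₁
  obtain ⟨a₂, s₂, hs₂, he₂, hu₂⟩ := r11_tubeLoc_repr (E := E) r₂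
  refine ⟨a₁ * s₂, a₂ * s₁, ?_, ?_⟩
  · rcases hor with h | h
    · left
      intro hmem'
      rcases h𝔪.mem_or_mem hmem' with h' | h'
      exacts [hu₁ h h', hs₂ h']
    · right
      intro hmem'
      rcases h𝔪.mem_or_mem hmem' with h' | h'
      exacts [hu₂ h h', hs₁ h']
  · have hE : algebraMap B E (a₂ * s₁) * d - algebraMap B E (a₁ * s₂)
        = (algebraMap ↥(tubeLocRing (E := E) 𝔪) E r₂ * d
            - algebraMap ↥(tubeLocRing (E := E) 𝔪) E r₁)
          * (algebraMap B E s₁ * algebraMap B E s₂) := by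
      have e₁ : algebraMap ↥(tubeLocRing (E := E) 𝔪) E r₁ = (r₁ : E) := rfl
      have e₂ : algebraMap ↥(tubeLocRing (E := E) 𝔪) E r₂ = (r₂ : E) := rfl
      rw [e₁, e₂, map_mul, map_mul, ← he₁, ← he₂]
      ring
    rw [hE]
    exact r11_mul_mem_nonunits hmem (V.mul_mem _ _ (hBV s₁) (hBV s₂))

end ResValLoc

section Main

open Fermat.Agent.H41.SS Fermat.Agent.H93.SS2

variable (A : Type) [CommRing A] [IsDomain A] [IsDiscreteValuationRing A]
  (E' E₀ : Type) [Field E'] [Field E₀] [Algebra A E'] [Algebra A E₀] [Algebra E' E₀]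
  [IsScalarTower A E' E₀] [CharZero E'] [FiniteDimensional E' E₀]

/-- A unit of `B'_{𝔪'}` times `ϖ` is a unit of every place centred at `𝔪'`. -/
theorem r11_pi_mul_unit_inv_mem (ϖ : A) (hϖ : Irreducible ϖ) (y' : E')
    (𝔪' : Ideal (chartClosure A E' y')) (w : E') (hw : IsLocUnit A E' y' 𝔪' w)
    (V' : ValuationSubring E') (hV' : CentredAt A E' y' 𝔪' V') :
    (algebraMap A E' ϖ * w)⁻¹ ∈ V' := by
  have hϖu : (algebraMap A E' ϖ)⁻¹ ∈ V' := (hV'.1.1.2.2 ϖ hϖ.ne_zero).2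
  have hwinv : w⁻¹ ∈ V' :=
    rs_mem_of_inLoc (fun z hz => rs_centred_le hV' hz) hV'.2 hw.2.2
  rw [mul_inv]
  exact V'.mul_mem _ _ hϖu hwinv

/-- **HYP1, easy case.**  If `N_{E₀/E'}(Z) = ϖ w` with `w` a unit of `B'_{𝔪'}`, then `Z` is a
unit of every place of `E₀` centred at a maximal ideal `𝔪` above `𝔪'`. -/
theorem reg11_hyp1_easy (hNP : NormPlaceStatement)
    (hinj : Function.Injective (algebraMap A E'))
    (ϖ : A) (hϖ : Irreducible ϖ) (y' : E') (y : E₀) (hy : algebraMap E' E₀ y' = y)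
    (𝔪' : Ideal (chartClosure A E' y')) (𝔪 : Ideal (chartClosure A E₀ y))
    (hlie : ∀ (d : chartClosure A E' y')
      (h : algebraMap E' E₀ (d : E') ∈ chartClosure A E₀ y),
      (⟨_, h⟩ : chartClosure A E₀ y) ∈ 𝔪 → d ∈ 𝔪')
    (Z : E₀) (hZ : Z ∈ chartClosure A E₀ y)
    (w : E') (hw : IsLocUnit A E' y' 𝔪' w)
    (hN : Algebra.norm E' Z = algebraMap A E' ϖ * w)
    (V : ValuationSubring E₀) (hV : CentredAt A E₀ y 𝔪 V) : Z ∉ V.nonunits := by
  subst hy
  intro hZV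
  have hV' : CentredAt A E' y' 𝔪' (V.comap (algebraMap E' E₀)) :=
    r11_comap_centredAt (fun d => hlie d _) hV
  obtain ⟨hne, hpir, -⟩ := hV'.1.1
  have hpoly := r11_integral_poly hZ hV'.1
  have hNn := (hNP E' E₀ (V.comap (algebraMap E' E₀)) hne hpir Z hpoly).1 V rfl hZV
  have hϖ0 : algebraMap A E' ϖ ≠ 0 := fun h0 =>
    hϖ.ne_zero (hinj (by rw [h0, map_zero]))
  rw [hN] at hNn
  exact r11_not_mem_nonunits_of_inv_mem (mul_ne_zero hϖ0 hw.1)
    (r11_pi_mul_unit_inv_mem A E' ϖ hϖ y' 𝔪' w hw _ hV') hNn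

/-- **HYP1, hard case.**  `N_{E₀/E'}(Z) = ϖ w u` with `w` a unit of `B'_{𝔪'}` and `(ϖ, u)`
regular parameters at `𝔪'`; some place `Pa` of `E₀` with `Z ∈ 𝔪_{Pa}` is centred at a prime
`𝔪a` above `𝔪'` which does not contain `𝔪`.  Then `Z` is a unit of every place centred at
`𝔪`. -/
theorem reg11_hyp1_hard (hNP : NormPlaceStatement)
    (hinj : Function.Injective (algebraMap A E'))
    (ϖ : A) (hϖ : Irreducible ϖ) (y' : E') (hy' : Transcendental A y')
    (hfd' : ∃ n : ℕ, Nonempty (Module.Basis (Fin n) (chartField A E' y') E'))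
    (y : E₀) (hy : algebraMap E' E₀ y' = y)
    (𝔪' : Ideal (chartClosure A E' y')) (h𝔪' : 𝔪'.IsPrime)
    (hϖ𝔪' : algebraMap A (chartClosure A E' y') ϖ ∈ 𝔪')
    (𝔪 𝔪a : Ideal (chartClosure A E₀ y)) (h𝔪a : 𝔪a.IsPrime)
    (hlie : ∀ (d : chartClosure A E' y')
      (h : algebraMap E' E₀ (d : E') ∈ chartClosure A E₀ y),
      ((⟨_, h⟩ : chartClosure A E₀ y) ∈ 𝔪 ↔ d ∈ 𝔪'))
    (hlie_a : ∀ (d : chartClosure A E' y')
      (h : algebraMap E' E₀ (d : E') ∈ chartClosure A E₀ y),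
      ((⟨_, h⟩ : chartClosure A E₀ y) ∈ 𝔪a ↔ d ∈ 𝔪'))
    (hne : ∃ s : chartClosure A E₀ y, s ∈ 𝔪 ∧ s ∉ 𝔪a)
    (Z : E₀) (hZ : Z ∈ chartClosure A E₀ y)
    (u : chartClosure A E' y') (hreg : IsRegularAt A E' ϖ y' 𝔪' u)
    (w : E') (hw : IsLocUnit A E' y' 𝔪' w)
    (hN : Algebra.norm E' Z = algebraMap A E' ϖ * w * (u : E'))
    (Pa : ValuationSubring E₀) (hPa : CentredAt A E₀ y 𝔪a Pa) (hPaZ : Z ∈ Pa.nonunits)
    (V : ValuationSubring E₀) (hV : CentredAt A E₀ y 𝔪 V) : Z ∉ V.nonunits := by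
  subst hy
  intro hZV
  set V' := V.comap (algebraMap E' E₀) with hV'def
  set Pa' := Pa.comap (algebraMap E' E₀) with hPa'def
  have hV' : CentredAt A E' y' 𝔪' V' :=
    r11_comap_centredAt (fun d h => (hlie d _).1 h) hV
  have hPa' : CentredAt A E' y' 𝔪' Pa' :=
    r11_comap_centredAt (fun d h => (hlie_a d _).1 h) hPa
  have hϖ0 : algebraMap A E' ϖ ≠ 0 := fun h0 =>
    hϖ.ne_zero (hinj (by rw [h0, map_zero]))
  -- the norm is a non-unit of both restrictions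
  have hNV : Algebra.norm E' Z ∈ V'.nonunits :=
    (hNP E' E₀ V' hV'.1.1.1 hV'.1.1.2.1 Z (r11_integral_poly hZ hV'.1)).1 V rfl hZV
  have hNPa : Algebra.norm E' Z ∈ Pa'.nonunits :=
    (hNP E' E₀ Pa' hPa'.1.1.1 hPa'.1.1.2.1 Z (r11_integral_poly hZ hPa'.1)).1 Pa rfl hPaZ
  -- hence so is `u`
  have hu_of : ∀ W : ValuationSubring E', CentredAt A E' y' 𝔪' W →
      Algebra.norm E' Z ∈ W.nonunits → (u : E') ∈ W.nonunits := by
    intro W hW hNW
    have h1 := r11_mul_mem_nonunits hNW (r11_pi_mul_unit_inv_mem A E' ϖ hϖ y' 𝔪' w hw W hW)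
    have h2 : Algebra.norm E' Z * (algebraMap A E' ϖ * w)⁻¹ = (u : E') := by
      rw [hN]
      have := hw.1
      field_simp
    rwa [h2] at h1
  have huV := hu_of V' hV' hNV
  have huPa := hu_of Pa' hPa' hNPa
  -- tube coordinate at level `E'`
  have htube := isTubeCoordAt_of_isRegularAt hinj ϖ hϖ y' hy' hfd' 𝔪' h𝔪' hϖ𝔪' u hreg
  have h0 : (u : E') - algebraMap A E' (ϖ * 0) = (u : E') := by
    rw [mul_zero, map_zero, sub_zero]
  obtain ⟨hunif, huniq⟩ := htube V' hV' 0 (by rw [h0]; exact huV)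
  rw [h0] at hunif
  have hPaV : Pa' = V' := huniq Pa' hPa' (by rw [h0]; exact huPa)
  -- the norm is a uniformiser of `V'`
  have hNunif : Algebra.norm E' Z ≠ 0 ∧ Algebra.norm E' Z ∈ V'.nonunits ∧
      ∀ x ∈ V'.nonunits, x / Algebra.norm E' Z ∈ V' := by
    refine ⟨?_, hNV, fun x hx => ?_⟩
    · rw [hN]
      exact mul_ne_zero (mul_ne_zero hϖ0 hw.1) hunif.1
    · have h1 := hunif.2.2 x hx
      have h2 := r11_pi_mul_unit_inv_mem A E' ϖ hϖ y' 𝔪' w hw V' hV'
      have h3 : x / Algebra.norm E' Z = x / (u : E') * (algebraMap A E' ϖ * w)⁻¹ := by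
        rw [hN]
        have := hw.1
        have := hunif.1
        field_simp
      rw [h3]
      exact V'.mul_mem _ _ h1 h2
  obtain ⟨hb1, hb2⟩ :=
    (hNP E' E₀ V' hV'.1.1.1 hV'.1.1.2.1 Z (r11_integral_poly hZ hV'.1)).2 hNunif
  -- `V = Pa`
  have hVPa : V = Pa := hb1 V Pa rfl hPaV hZV hPaZ
  -- residue degree one and the residue valuation ring
  obtain ⟨s, hs𝔪, hs𝔪a⟩ := hne
  have hsV : (s : E₀) ∈ V := rs_centred_le hV s.2
  obtain ⟨d, hdV', hsd⟩ := hb2 V rfl hZV (s : E₀) hsV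
  haveI := chartClosure_isNoetherianRing A E' hinj ϖ hϖ y' hy' hfd'
  haveI := chartClosure_isFractionRing A E' y' hy' hfd'
  haveI := h𝔪'
  obtain ⟨hu𝔪, hREG, hTF⟩ := hreg
  have hϖB0 : algebraMap A ↥(chartClosure A E' y') ϖ ≠ 0 := by
    intro h0'
    have h1 := congrArg (Subtype.val) h0'
    exact hϖ.ne_zero (hinj (by rw [map_zero]; exact h1))
  obtain ⟨d₁, d₂, hor, hmem⟩ := r11_tubeLoc_resVal (E := E') (𝔪 := 𝔪')
    (algebraMap A ↥(chartClosure A E' y') ϖ) u hϖ𝔪' hu𝔪 hϖB0 hREG hTF V'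
    (fun b => Fermat.Agent.H31.SS.mem_of_mem_chartClosure hV'.1 b.2)
    (fun b hb => hV'.2 b hb)
    (pi_not_mem_nonunits_of_isPlace hinj hV'.1.1 hϖ.ne_zero) huV d hdV'
  -- the element `x = d₂ s - d₁` of `B`
  set D₁ : chartClosure A E₀ (algebraMap E' E₀ y') :=
    ⟨algebraMap E' E₀ (d₁ : E'), r11_map_mem_chartClosure d₁.2⟩ with hD₁
  set D₂ : chartClosure A E₀ (algebraMap E' E₀ y') :=
    ⟨algebraMap E' E₀ (d₂ : E'), r11_map_mem_chartClosure d₂.2⟩ with hD₂
  have hxV : ((D₂ * s - D₁ : chartClosure A E₀ (algebraMap E' E₀ y')) : E₀) ∈ V.nonunits := by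
    have hE : ((D₂ * s - D₁ : chartClosure A E₀ (algebraMap E' E₀ y')) : E₀)
        = ((s : E₀) - algebraMap E' E₀ d) * algebraMap E' E₀ (d₂ : E')
          + algebraMap E' E₀ ((d₂ : E') * d - (d₁ : E')) := by
      show algebraMap E' E₀ (d₂ : E') * (s : E₀) - algebraMap E' E₀ (d₁ : E') = _
      rw [map_sub, map_mul]
      ring
    rw [hE]
    refine r11_add_mem_nonunits (r11_mul_mem_nonunits hsd (rs_centred_le hV D₂.2)) ?_
    exact (Fermat.Agent.H88.KLB.mem_nonunits_comap V _).1 hmem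
  have hx𝔪 : D₂ * s - D₁ ∈ 𝔪 := hV.2 _ hxV
  have hx𝔪a : D₂ * s - D₁ ∈ 𝔪a := hPa.2 _ (hVPa ▸ hxV)
  have hD₁𝔪 : D₁ ∈ 𝔪 := by
    have : D₁ = D₂ * s - (D₂ * s - D₁) := by ring
    rw [this]
    exact 𝔪.sub_mem (𝔪.mul_mem_left _ hs𝔪) hx𝔪
  have hd₁ : d₁ ∈ 𝔪' := (hlie d₁ _).1 hD₁𝔪
  rcases hor with h | h
  · exact h hd₁
  · have hD₁𝔪a : D₁ ∈ 𝔪a := (hlie_a d₁ _).2 hd₁
    have hD₂s : D₂ * s ∈ 𝔪a := by
      have : D₂ * s = (D₂ * s - D₁) + D₁ := by ring
      rw [this]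
      exact 𝔪a.add_mem hx𝔪a hD₁𝔪a
    rcases h𝔪a.mem_or_mem hD₂s with h' | h'
    · exact h ((hlie_a d₂ _).1 h')
    · exact hs𝔪a h'

end Main

end Fermat.Agent.H12.SS2
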