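import Fermat.Agent.H12.SS2.Reg11Rows
import Fermat.Agent.H11.SS2.Defs
import Fermat.Agent.H99.SS2.Through

/-!
# P-SS2 row 902 (SS2-C5 REG11): exact statements of three abstract glue sub-rows (helper12)

* `ChangeParamStatement` : change of the second regular parameter,
  `u = e u₀ + ϖ c` with `e` a unit of `B_𝔪` and `c ∈ B_𝔪`.
* `PaGlueStatement` : at a regular point `𝔪a B_𝔪a = (ϖ, u₀)` on the vertical valuation `V`
  (local equation `ϖ`), every `Z ∈ B` with `Z ≡ u₀` on `V` vanishes at some place centred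
  at `𝔪a`.
* `PointAboveStatement` : above a maximal ideal `𝔪'` of the lower chart through the restriction
  of `V` there is a maximal ideal of the upper chart through `V`.
-/

set_option autoImplicit false

noncomputable section

namespace Fermat.Agent.H12.SS2

open Fermat.Agent.H22.KL

/-- **CHANGE-PARAM**: if `(ϖ, u₀)` are regular parameters at `𝔪` and `u = e u₀ + ϖ c` with `e`
a unit of `B_𝔪`, `c ∈ B_𝔪`, `u ∈ B`, then `(ϖ, u)` are regular parameters at `𝔪`. -/
def ChangeParamStatement : Prop :=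
  ∀ (A : Type) [CommRing A] [IsDomain A] [IsDiscreteValuationRing A]
    (E : Type) [Field E] [Algebra A E] [CharZero E],
    Function.Injective (algebraMap A E) →
    ∀ (ϖ : A), Irreducible ϖ → ∀ (y : E), Transcendental A y →
    (∃ n : ℕ, Nonempty (Module.Basis (Fin n) (chartField A E y) E)) →
    ∀ (𝔪 : Ideal (chartClosure A E y)), 𝔪.IsMaximal →
      algebraMap A (chartClosure A E y) ϖ ∈ 𝔪 →
    ∀ (u₀ u : chartClosure A E y), Fermat.Agent.H41.SS.IsRegularAt A E ϖ y 𝔪 u₀ →
    ∀ (e c : E), Fermat.Agent.H11.SS2.IsLocUnit A E y 𝔪 e →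
      Fermat.Agent.H11.SS2.InLoc A E y 𝔪 c →
      (u : E) = e * (u₀ : E) + algebraMap A E ϖ * c →
      Fermat.Agent.H41.SS.IsRegularAt A E ϖ y 𝔪 u

/-- **PA-GLUE**: at a regular point `(ϖ, u₀)` of the vertical valuation `V` (with local
equation `ϖ`), a function `Z ∈ B` with `Z ≡ u₀` modulo `𝔪_V` vanishes at some place centred at
the point. -/
def PaGlueStatement : Prop :=
  ∀ (A : Type) [CommRing A] [IsDomain A] [IsDiscreteValuationRing A]
    (E : Type) [Field E] [Algebra A E] [CharZero E],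
    Function.Injective (algebraMap A E) →
    ∀ (ϖ : A), Irreducible ϖ → ∀ (y : E), Transcendental A y →
    (∃ n : ℕ, Nonempty (Module.Basis (Fin n) (chartField A E y) E)) →
    ∀ (𝔪a : Ideal (chartClosure A E y)), 𝔪a.IsMaximal →
      algebraMap A (chartClosure A E y) ϖ ∈ 𝔪a →
    ∀ (V : ValuationSubring E) (u₀ : E),
      Fermat.Agent.H11.SS2.IsRegPoint A E ϖ y 𝔪a V (algebraMap A E ϖ) u₀ →
    ∀ (Z : chartClosure A E y), (Z : E) - u₀ ∈ V.nonunits →
      ∃ Pa : ValuationSubring E, Fermat.Agent.H45.CentredAt A E y 𝔪a Pa ∧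
        (Z : E) ∈ Pa.nonunits

/-- **POINT-ABOVE**: going up along a finite extension of charts, on a prescribed valuation. -/
def PointAboveStatement : Prop :=
  ∀ (A : Type) [CommRing A] [IsDomain A] [IsDiscreteValuationRing A]
    (E' : Type) [Field E'] [Algebra A E'] [CharZero E']
    (E : Type) [Field E] [Algebra A E] [CharZero E] [Algebra E' E] [IsScalarTower A E' E],
    Function.Injective (algebraMap A E') →
    ∀ (ϖ : A), Irreducible ϖ → ∀ (y' : E'), Transcendental A y' →
    (∃ n : ℕ, Nonempty (Module.Basis (Fin n) (chartField A E' y') E')) →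
    ∀ (y : E), algebraMap E' E y' = y →
    (∃ n : ℕ, Nonempty (Module.Basis (Fin n) (chartField A E y) E)) →
    ∀ (𝔪' : Ideal (chartClosure A E' y')), 𝔪'.IsMaximal →
    ∀ (V : ValuationSubring E), (∀ z ∈ chartClosure A E y, z ∈ V) →
      Fermat.Agent.H11.SS2.Through A E' y' 𝔪' (V.comap (algebraMap E' E)) →
      ∃ 𝔪a : Ideal (chartClosure A E y), 𝔪a.IsMaximal ∧
        Fermat.Agent.H99.SS2.LiesOverAlong A E E' (algebraMap E' E) y' y 𝔪' 𝔪a ∧
        Fermat.Agent.H11.SS2.Through A E y 𝔪a V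

end Fermat.Agent.H12.SS2
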