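import Fermat.Agent.H12.SS2.Reg11Gen
import Fermat.Agent.H12.SS2.Reg11Rows2

/-!
# P-SS2 row 902 (SS2-C5 REG11): abstract assembly at the non-cuspidal points (helper12)

* `reg11_regPoint_of_isRegularAt` : at level `L`, a regular point `(ϖ, U')` on `V₁₀` with
  `IsRegularAt (ϖ, u)` is a regular point `(ϖ, u)` on `V₁₀`.
* `reg11_assembled` : **REG11 at a point on `V₁₁` only**, from
  the classification outputs (`Through`, `KcAway`), the table of restrictions of the three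
  vertical valuations, level-`L` regularity, the norm identity `N(Z) = ϖ w u`, the alternative
  `u ∉ 𝔪'` or `(ϖ, u)` regular at `𝔪'`, and the congruence `e Z + u ∈ 𝔪_{V₂₀}`
  (`e ∈ B' ∖ 𝔪'`).  The place `Pa` of the hard case is produced here: the point `𝔪a` of `C₂₀`
  above `𝔪'` (POINT-ABOVE), regular with parameters `(ϖ, α u)` (helper99's `regsm_of_mem`),
  hence with parameters `(ϖ, - e Z)`, and the place `Z = 0` through it (PA-GLUE).
-/

set_option autoImplicit false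
set_option linter.unusedSectionVars false
set_option linter.style.haveILetI false
set_option linter.unusedVariables false

noncomputable section

namespace Fermat.Agent.H12.SS2

open Polynomial
open Fermat.Agent.H22.KL Fermat.Agent.H11.SS2 Fermat.Agent.H45 Fermat.Agent.H41.SS
open Fermat.Agent.H93.SS2

section RegPt

variable (A : Type) [CommRing A] [IsDomain A] [IsDiscreteValuationRing A]
  (E' : Type) [Field E'] [Algebra A E'] [CharZero E']

/-- Change of the second parameter of a regular point on a branch with local equation `ϖ`. -/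
theorem reg11_regPoint_of_isRegularAt {ϖ : A} {y' : E'} {𝔪' : Ideal (chartClosure A E' y')}
    {V₁₀ : ValuationSubring E'} {U' : E'}
    (hreg' : IsRegPoint A E' ϖ y' 𝔪' V₁₀ (algebraMap A E' ϖ) U')
    (u : chartClosure A E' y') (hreg : IsRegularAt A E' ϖ y' 𝔪' u) :
    IsRegPoint A E' ϖ y' 𝔪' V₁₀ (algebraMap A E' ϖ) (u : E') := by
  refine ⟨hreg'.vert, hreg'.thru, hreg'.mem₁, u.2, fun _ => hreg.1, hreg'.unif, hreg'.prin,
    fun s hs => ?_⟩
  obtain ⟨t, ht, b₁, b₂, hEq⟩ := hreg.2.1 s hs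
  have ht0 : (t : E') ≠ 0 := by
    intro h0
    apply ht
    have : t = 0 := Subtype.ext h0
    rw [this]
    exact 𝔪'.zero_mem
  have hEq' : (t : E') * (s : E') = algebraMap A E' ϖ * (b₁ : E') + (u : E') * (b₂ : E') :=
    congrArg Subtype.val hEq
  refine ⟨(b₁ : E') / (t : E'), (b₂ : E') / (t : E'), ⟨t, ht, ?_⟩, ⟨t, ht, ?_⟩, ?_⟩
  · rw [mul_div_cancel₀ _ ht0]
    exact b₁.2
  · rw [mul_div_cancel₀ _ ht0]
    exact b₂.2
  · field_simp
    rw [mul_comm (s : E') (t : E'), hEq']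
    ring

end RegPt

section Asm

variable (A : Type) [CommRing A] [IsDomain A] [IsDiscreteValuationRing A]
  (E' E : Type) [Field E'] [Field E] [Algebra A E'] [Algebra A E] [Algebra E' E]
  [IsScalarTower A E' E] [CharZero E'] [CharZero E] [FiniteDimensional E' E]

/-- **REG11, abstract assembly** (points on `V₁₁` only, uniformiser `Z ∈ B`). -/
theorem reg11_assembled (hH : LocalHartogsStatement) (hNP : NormPlaceStatement)
    (hPG : PaGlueStatement) (hPA : PointAboveStatement)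
    (hinj' : Function.Injective (algebraMap A E'))
    (ϖ : A) (hϖ : Irreducible ϖ) (y' : E') (hy' : Transcendental A y')
    (hfd' : ∃ n : ℕ, Nonempty (Module.Basis (Fin n) (chartField A E' y') E'))
    (y : E) (hyy : algebraMap E' E y' = y) (hy : Transcendental A y)
    (hfd : ∃ n : ℕ, Nonempty (Module.Basis (Fin n) (chartField A E y) E))
    (𝔪 : Ideal (chartClosure A E y)) (h𝔪 : 𝔪.IsMaximal)
    (hϖ𝔪 : algebraMap A (chartClosure A E y) ϖ ∈ 𝔪)
    (𝔪' : Ideal (chartClosure A E' y')) (h𝔪' : 𝔪'.IsMaximal)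
    (hL : Fermat.Agent.H99.SS2.LiesOverAlong A E E' (algebraMap E' E) y' y 𝔪' 𝔪)
    (V₂₀ V₁₁ V₀₂ : ValuationSubring E)
    (hV20 : IsVertical A E ϖ y V₂₀) (hV11 : IsVertical A E ϖ y V₁₁)
    (hV02 : IsVertical A E ϖ y V₀₂)
    (hC : ∀ z : E, z ∈ V₂₀ → z ∈ V₁₁ → z ∈ V₀₂ → z ∈ gaussClosure A E ϖ y)
    (hthru : Through A E y 𝔪 V₁₁)
    (hA20 : ∃ s : chartClosure A E y, (s : E) ∈ V₂₀.nonunits ∧ s ∉ 𝔪)
    (hA02 : ∃ s : chartClosure A E y, (s : E) ∈ V₀₂.nonunits ∧ s ∉ 𝔪)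
    (hu20 : IsUniformiser E V₂₀ (algebraMap A E ϖ))
    (hu02 : IsUniformiser E V₀₂ (algebraMap A E ϖ))
    (hN11 : ∃ N : ℕ, ∀ s ∈ V₁₁.nonunits, s ^ N / algebraMap A E ϖ ∈ V₁₁)
    (hcls : ∀ 𝔫 : Ideal (chartClosure A E y), 𝔫.IsMaximal → Through A E y 𝔫 V₂₀ →
      Through A E y 𝔫 V₁₁ → Through A E y 𝔫 V₀₂)
    (Z : E) (hZ : Z ∈ chartClosure A E y) (hunif : IsUniformiser E V₁₁ Z)
    (V₁₀ V₀₁ : ValuationSubring E')
    (hα20 : V₂₀.comap (algebraMap E' E) = V₁₀) (hα11 : V₁₁.comap (algebraMap E' E) = V₁₀)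
    (hα02 : V₀₂.comap (algebraMap E' E) = V₀₁)
    (hres20 : ∀ z ∈ V₂₀, ∃ z' ∈ V₁₀, z - algebraMap E' E z' ∈ V₂₀.nonunits)
    (hres11 : ∀ z ∈ V₁₁, ∃ z' ∈ V₁₀, z - algebraMap E' E z' ∈ V₁₁.nonunits)
    (hfrac : ∀ z' ∈ V₁₀, ∃ d₁ d₂ : chartClosure A E' y',
      (d₂ : E') ∉ V₁₀.nonunits ∧ z' * (d₂ : E') = d₁)
    (hnot01 : ¬ Through A E' y' 𝔪' V₀₁)
    (U' : E') (hreg' : IsRegPoint A E' ϖ y' 𝔪' V₁₀ (algebraMap A E' ϖ) U')
    (w : E') (hw : IsLocUnit A E' y' 𝔪' w) (u : chartClosure A E' y')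
    (hN : Algebra.norm E' Z = algebraMap A E' ϖ * w * (u : E'))
    (hu : u ∉ 𝔪' ∨ IsRegularAt A E' ϖ y' 𝔪' u)
    (e : chartClosure A E' y') (he : e ∉ 𝔪')
    (hZu : algebraMap E' E (e : E') * Z + algebraMap E' E (u : E') ∈ V₂₀.nonunits) :
    ∃ x₁ U : E, IsRegPoint A E ϖ y 𝔪 V₁₁ x₁ U := by
  classical
  have h𝔪'p : 𝔪'.IsPrime := h𝔪'.isPrime
  have h𝔪p : 𝔪.IsPrime := h𝔪.isPrime
  have hinj : Function.Injective (algebraMap A E) := by
    rw [IsScalarTower.algebraMap_eq A E' E]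
    exact (algebraMap E' E).injective.comp hinj'
  have hφ : ∀ a : A, algebraMap E' E (algebraMap A E' a) = algebraMap A E a := fun a =>
    (IsScalarTower.algebraMap_apply A E' E a).symm
  have hB : ∀ V : ValuationSubring E, IsVertical A E ϖ y V →
      ∀ z ∈ chartClosure A E y, z ∈ V := fun V hV z hz =>
    hV.2.2.1 z (Fermat.Agent.H89.klg_chartClosure_le_gaussClosure hϖ hy hz)
  refine reg11_core_gen A E' E hH hNP hinj' ϖ hϖ y' hy' hfd' y hyy hy hfd 𝔪 h𝔪 hϖ𝔪 𝔪' h𝔪'p hL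
    V₂₀ V₁₁ V₀₂ hV20 hV11 hV02 hC hthru hA20 hA02 Z ?_ hunif V₁₀ hα11 hres11 hfrac U' hreg'
    w hw u hN ?_
  · subst hyy
    exact r11_hint_of_mem A E' E 𝔪' h𝔪'p hZ
  rcases hu with hu | hreg
  · exact Or.inl hu
  refine Or.inr ⟨hreg, ?_⟩
  -- the point of `C₂₀` above `𝔪'`
  have hthru' : Through A E' y' 𝔪' (V₂₀.comap (algebraMap E' E)) := by
    rw [hα20]
    exact hreg'.thru
  obtain ⟨𝔪a, h𝔪a, hLa, hthru_a⟩ := hPA A E' E hinj' ϖ hϖ y' hy' hfd' y hyy hfd 𝔪' h𝔪' V₂₀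
    (hB V₂₀ hV20) hthru'
  have h𝔪ap : 𝔪a.IsPrime := h𝔪a.isPrime
  have hϖ𝔪a : algebraMap A (chartClosure A E y) ϖ ∈ 𝔪a := hthru_a _ hV20.2.2.2
  subst hyy
  have hlie_a := r11_lie_of_liesOverAlong A E' E h𝔪ap hLa
  -- the other two branches do not pass through `𝔪a`
  have hn02 : ¬ Through A E (algebraMap E' E y') 𝔪a V₀₂ := by
    intro h
    apply hnot01
    intro s hs
    have hs' : (s : E') ∈ (V₀₂.comap (algebraMap E' E)).nonunits := by rw [hα02]; exact hs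
    exact (hlie_a s (r11_map_mem_chartClosure s.2)).1
      (h ⟨_, r11_map_mem_chartClosure s.2⟩ ((Fermat.Agent.H88.KLB.mem_nonunits_comap V₀₂ _).1 hs'))
  have hn11 : ¬ Through A E (algebraMap E' E y') 𝔪a V₁₁ := fun h =>
    hn02 (hcls 𝔪a h𝔪a hthru_a h)
  -- regularity at `𝔪a` with parameters `(ϖ, α u)`
  have hreg'u := reg11_regPoint_of_isRegularAt A E' hreg' u hreg
  have hrega : IsRegPoint A E ϖ (algebraMap E' E y') 𝔪a V₂₀ (algebraMap A E ϖ)
      (algebraMap E' E (u : E')) := by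
    refine Fermat.Agent.H99.SS2.regsm_of_mem hinj' hinj hϖ hy' hfd' hy (algebraMap E' E) hφ 𝔪a
      h𝔪ap 𝔪' h𝔪'p hLa V₂₀ hV20 hthru_a hu20 ({V₁₁, V₀₂} : Finset (ValuationSubring E))
      ?_ ?_ ?_ ?_ V₁₀ hα20 hres20 hfrac (u : E') hreg'u (r11_map_mem_chartClosure u.2)
    · intro z hz hS
      exact hC z hz (hS _ (by simp)) (hS _ (by simp))
    · intro W hW z hz
      simp only [Finset.mem_insert, Finset.mem_singleton] at hW
      rcases hW with rfl | rfl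
      · exact hB _ hV11 z hz
      · exact hB _ hV02 z hz
    · intro W hW
      simp only [Finset.mem_insert, Finset.mem_singleton] at hW
      rcases hW with rfl | rfl
      · exact hN11
      · exact ⟨1, fun s hs => by rw [pow_one]; exact hu02.2.2 s hs⟩
    · intro W hW
      simp only [Finset.mem_insert, Finset.mem_singleton] at hW
      rcases hW with rfl | rfl
      · exact hn11
      · exact hn02
  -- the place `Z = 0` through `𝔪a`
  set ε : chartClosure A E (algebraMap E' E y') :=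
    ⟨algebraMap E' E (e : E'), r11_map_mem_chartClosure e.2⟩ with hε
  have hε𝔪a : ε ∉ 𝔪a := fun h => he ((hlie_a e _).1 h)
  have hε0 : (ε : E) ≠ 0 := by
    intro h0
    apply hε𝔪a
    have : ε = 0 := Subtype.ext h0
    rw [this]
    exact 𝔪a.zero_mem
  set Z'' : chartClosure A E (algebraMap E' E y') := -(ε * ⟨Z, hZ⟩) with hZ''
  have hZ''E : (Z'' : E) = -((ε : E) * Z) := rfl
  have hdiff : (Z'' : E) - algebraMap E' E (u : E') ∈ V₂₀.nonunits := by
    have : (Z'' : E) - algebraMap E' E (u : E')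
        = -(algebraMap E' E (e : E') * Z + algebraMap E' E (u : E')) := by
      rw [hZ''E]
      show -(algebraMap E' E (e : E') * Z) - _ = _
      ring
    rw [this]
    exact Fermat.Agent.H99.SS2.neg_mem_nonunits V₂₀ hZu
  obtain ⟨Pa, hPa, hPaZ⟩ := hPG A E hinj ϖ hϖ _ hy hfd 𝔪a h𝔪a hϖ𝔪a V₂₀ _ hrega Z'' hdiff
  have hεPa : (ε : E)⁻¹ ∈ Pa := r11_inv_mem (fun h => hε𝔪a (hPa.2 ε h))
  have hZPa : Z ∈ Pa.nonunits := by
    have : Z = -((Z'' : E) * (ε : E)⁻¹) := by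
      rw [hZ''E]
      field_simp
    rw [this]
    exact Fermat.Agent.H99.SS2.neg_mem_nonunits Pa (r11_mul_mem_nonunits hPaZ hεPa)
  refine ⟨𝔪a, Pa, h𝔪ap, ?_, hLa, hPa, hZPa⟩
  by_contra hcon
  push Not at hcon
  have hle : 𝔪 ≤ 𝔪a := fun s hs => hcon s hs
  have heq : 𝔪 = 𝔪a := h𝔪.eq_of_le h𝔪a.ne_top hle
  obtain ⟨s, hsV, hs𝔪⟩ := hA20
  exact hs𝔪 (heq ▸ hthru_a s hsV)

end Asm

end Fermat.Agent.H12.SS2
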