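import Fermat.Agent.H12.SS2.Reg11Abs
import Fermat.Agent.H99.SS2.RegSm

/-!
# P-SS2 row 902 (SS2-C5 REG11): the formal core (helper12)

* `reg11_gen` : the DVR-maximality argument of helper99's `regsm` for an arbitrary uniformiser
  `x₁ ∈ B` of the branch `V` (instead of `ϖ`), with clause (p) as a hypothesis: if `V'` = `V ∩ E'`
  has the same residue field, `𝔪'` is a regular point `(ϖ, U')` on `V'` and the centre of `V` is
  generated by `x₁` at `𝔪`, then `𝔪` is a regular point with parameters `(x₁, b₀ φ(U'))`.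
-/

set_option autoImplicit false
set_option linter.unusedSectionVars false
set_option linter.style.haveILetI false
set_option linter.unusedVariables false

noncomputable section

namespace Fermat.Agent.H12.SS2

open Fermat.Agent.H22.KL Fermat.Agent.H99.SS2
open Fermat.Agent.H67.KLConn (PiDvd)

section Gen

variable {A : Type} [CommRing A] [IsDomain A] [IsDiscreteValuationRing A]
variable {E' : Type} [Field E'] [Algebra A E'] [CharZero E']
variable {E : Type} [Field E] [Algebra A E]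

/-- **REGSM for a general uniformiser** (adapted from `Fermat.Agent.H99.SS2.regsm`). -/
theorem reg11_gen (hinj' : Function.Injective (algebraMap A E'))
    (hinj : Function.Injective (algebraMap A E))
    {ϖ : A} (hϖ : Irreducible ϖ) {y' : E'} (hy' : Transcendental A y')
    (hfd' : ∃ n : ℕ, Nonempty (Module.Basis (Fin n) (chartField A E' y') E'))
    {y : E} (hy : Transcendental A y)
    (φ : E' →+* E) (hφ : ∀ a : A, φ (algebraMap A E' a) = algebraMap A E a)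
    (𝔪 : Ideal (chartClosure A E y)) (h𝔪 : 𝔪.IsPrime)
    (𝔪' : Ideal (chartClosure A E' y')) (h𝔪' : 𝔪'.IsPrime)
    (hL : LiesOverAlong A E E' φ y' y 𝔪' 𝔪)
    (V : ValuationSubring E) (hV : Fermat.Agent.H11.SS2.IsVertical A E ϖ y V)
    (hthru : Fermat.Agent.H11.SS2.Through A E y 𝔪 V)
    (x₁ : E) (hx₁ : x₁ ∈ chartClosure A E y) (hunif : IsUniformiser E V x₁)
    (hprin : ∀ s : chartClosure A E y, (s : E) ∈ V.nonunits →
      InLoc A E y 𝔪 ((s : E) / x₁))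
    (V' : ValuationSubring E') (hVV' : V.comap φ = V')
    (hres : ∀ z ∈ V, ∃ z' ∈ V', z - φ z' ∈ V.nonunits)
    (hfrac : ∀ z' ∈ V', ∃ d₁ d₂ : chartClosure A E' y',
      (d₂ : E') ∉ V'.nonunits ∧ z' * (d₂ : E') = d₁)
    (U' : E')
    (hreg' : Fermat.Agent.H11.SS2.IsRegPoint A E' ϖ y' 𝔪' V' (algebraMap A E' ϖ) U')
    (b₀ : chartClosure A E y) (hb₀ : b₀ ∉ 𝔪) (hb₀U : (b₀ : E) * φ U' ∈ chartClosure A E y) :
    Fermat.Agent.H11.SS2.IsRegPoint A E ϖ y 𝔪 V x₁ ((b₀ : E) * φ U') := by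
  classical
  have hBV : ∀ z ∈ chartClosure A E y, z ∈ V := fun z hz =>
    hV.2.2.1 z (Fermat.Agent.H89.klg_chartClosure_le_gaussClosure hϖ hy hz)
  have hϖV : algebraMap A E ϖ ∈ V.nonunits := hV.2.2.2
  have hϖ0 : algebraMap A E ϖ ≠ 0 := fun h0 => hϖ.ne_zero (hinj (by rw [h0, map_zero]))
  have hB'V' : ∀ z ∈ chartClosure A E' y', z ∈ V' := fun z hz =>
    hreg'.vert.2.2.1 z (Fermat.Agent.H89.klg_chartClosure_le_gaussClosure hϖ hy' hz)
  have hthru' : PassesThrough A E y 𝔪 V := hthru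
  have hlocV : ∀ z, InLoc A E y 𝔪 z → z ∈ V := fun z hz =>
    hz.mem_of_passesThrough hBV hthru'
  have hlocMax : ∀ z, InLoc A E y 𝔪 z → z ∈ V.nonunits → InLocMax A E y 𝔪 z :=
    fun z hz hzV => hz.inLocMax_of_mem_nonunits hBV hthru' hzV
  have hx₁0 : x₁ ≠ 0 := hunif.1
  have hprinLoc : ∀ w, InLoc A E y 𝔪 w → w ∈ V.nonunits →
      InLoc A E y 𝔪 (w / x₁) := by
    rintro w ⟨b, hb, hbw⟩ hwV
    have h1 : ((⟨(b : E) * w, hbw⟩ : chartClosure A E y) : E) ∈ V.nonunits :=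
      mul_mem_nonunits_left V (hBV _ b.2) hwV
    have h2 := hprin ⟨_, hbw⟩ h1
    have hb0 : (b : E) ≠ 0 := coe_ne_zero_of_not_mem hb
    have h3 : w / x₁ = (b : E)⁻¹ * ((b : E) * w / x₁) := by
      field_simp
    rw [h3]
    exact (InLoc.inv_of_not_mem hb).mul h𝔪 h2
  have hφnon : ∀ x : E', x ∈ V'.nonunits ↔ φ x ∈ V.nonunits := fun x => by
    rw [← hVV', mem_nonunits_comap_iff]
  have huLoc : InLoc A E y 𝔪 (φ U') := hL.1 ⟨U', hreg'.mem₂⟩
  have huMax : InLocMax A E y 𝔪 (φ U') :=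
    (hL.2 ⟨U', hreg'.mem₂⟩).1 (hreg'.mem_max₂ hreg'.mem₂)
  have hb₀0 : (b₀ : E) ≠ 0 := coe_ne_zero_of_not_mem hb₀
  have hφV : ∀ x : chartClosure A E' y', φ x ∈ V := fun x => hlocV _ (hL.1 x)
  have hφnz : ∀ x : chartClosure A E' y', x ∉ 𝔪' → φ x ≠ 0 := fun x hx =>
    (_root_.map_ne_zero φ).2 (coe_ne_zero_of_not_mem hx)
  have hφunit : ∀ x : chartClosure A E' y', x ∉ 𝔪' → φ x ∉ V.nonunits := fun x hx h =>
    hx (hreg'.thru x ((hφnon _).2 h))
  refine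
    { vert := hV
      thru := hthru
      mem₁ := hx₁
      mem₂ := hb₀U
      mem_max₂ := ?_
      unif := hunif
      prin := hprin
      gen := ?_ }
  · intro h
    apply mem_of_inLocMax h𝔪
    exact InLocMax.mul_left h𝔪 (InLoc.of_mem h𝔪 b₀.2) huMax
  · intro s hs
    by_cases hsV : (s : E) ∈ V.nonunits
    · refine ⟨(s : E) / x₁, 0, hprin s hsV,
        InLoc.of_mem h𝔪 (Subalgebra.zero_mem _), ?_⟩
      field_simp
      ring
    · obtain ⟨z', hz'V', hz'⟩ := hres (s : E) (hBV _ s.2)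
      obtain ⟨d₁, d₂, hd₂, hzd⟩ := hfrac z' hz'V'
      have hz'u : z' ∉ V'.nonunits := by
        intro h
        apply hsV
        have : (s : E) = ((s : E) - φ z') + φ z' := by ring
        rw [this]
        exact add_mem_nonunits V hz' ((hφnon z').1 h)
      have hd₁ : (d₁ : E') ∉ V'.nonunits := by
        rw [← hzd]
        exact mul_not_mem_nonunits hz'V' (hB'V' _ d₂.2) hz'u hd₂
      obtain ⟨n₁, s₁, e₁, b₁, hs₁, he₁, h₁⟩ :=
        decomp_of_isRegPoint hinj' hϖ hy' hfd' 𝔪' h𝔪' V' U' hreg' d₁ hd₁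
      obtain ⟨n₂, s₂, e₂, b₂, hs₂, he₂, h₂⟩ :=
        decomp_of_isRegPoint hinj' hϖ hy' hfd' 𝔪' h𝔪' V' U' hreg' d₂ hd₂
      have H₁ : φ s₁ * φ d₁ = φ U' ^ n₁ * φ e₁ + algebraMap A E ϖ * φ b₁ := by
        rw [← map_mul, h₁, map_add, map_mul, map_mul, map_pow, hφ]
      have H₂ : φ s₂ * φ d₂ = φ U' ^ n₂ * φ e₂ + algebraMap A E ϖ * φ b₂ := by
        rw [← map_mul, h₂, map_add, map_mul, map_mul, map_pow, hφ]
      have Hz : φ z' * φ d₂ = φ d₁ := by rw [← map_mul, hzd]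
      have huV : φ U' ∈ V := hlocV _ huLoc
      -- the key congruence
      have hX : (s : E) * φ s₁ * φ U' ^ n₂ * φ e₂ - φ s₂ * φ U' ^ n₁ * φ e₁ ∈ V.nonunits := by
        have e1 : (s : E) * φ s₁ * φ U' ^ n₂ * φ e₂ - φ s₂ * φ U' ^ n₁ * φ e₁ =
            φ s₁ * φ s₂ * φ d₂ * ((s : E) - φ z') -
              algebraMap A E ϖ * ((s : E) * φ s₁ * φ b₂ - φ s₂ * φ b₁) := by
          linear_combination (-((s : E) * φ s₁)) * H₂ + (φ s₂ * φ s₁) * Hz + φ s₂ * H₁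
        rw [e1]
        refine sub_mem_nonunits V ?_ ?_
        · exact mul_mem_nonunits_left V
            (V.mul_mem _ _ (V.mul_mem _ _ (hφV s₁) (hφV s₂)) (hφV d₂)) hz'
        · refine mul_mem_nonunits_right V ?_ hϖV
          exact sub_mem (V.mul_mem _ _ (V.mul_mem _ _ (hBV _ s.2) (hφV s₁)) (hφV b₂))
            (V.mul_mem _ _ (hφV s₂) (hφV b₁))
      have hpow : ∀ (n : ℕ) (si di ei bi : chartClosure A E' y'), si ∉ 𝔪' →
          (di : E') ∉ V'.nonunits →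
          φ si * φ di = φ U' ^ n * φ ei + algebraMap A E ϖ * φ bi →
          φ U' ^ n ∉ V.nonunits := by
        intro n si di ei bi hsi hdi H hcon
        have h1 : φ si * φ di ∉ V.nonunits :=
          mul_not_mem_nonunits (hφV si) (hφV di) (hφunit si hsi) (fun h => hdi ((hφnon _).2 h))
        apply h1
        rw [H]
        exact add_mem_nonunits V (mul_mem_nonunits_right V (hφV ei) hcon)
          (mul_mem_nonunits_right V (hφV bi) hϖV)
      have hu₁ := hpow n₁ s₁ d₁ e₁ b₁ hs₁ hd₁ H₁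
      have hu₂ := hpow n₂ s₂ d₂ e₂ b₂ hs₂ hd₂ H₂
      have hsMax : InLocMax A E y 𝔪 (s : E) := InLocMax.of_mem h𝔪 hs
      rcases Nat.lt_or_ge n₂ n₁ with hlt | hge
      · -- `n₂ < n₁` : the decomposition
        obtain ⟨k, rfl⟩ : ∃ k, n₁ = n₂ + (k + 1) := ⟨n₁ - n₂ - 1, by omega⟩
        set Y : E := (s : E) * φ s₁ * φ e₂ - φ s₂ * φ U' ^ (k + 1) * φ e₁ with hY
        have hXY : (s : E) * φ s₁ * φ U' ^ n₂ * φ e₂ - φ s₂ * φ U' ^ (n₂ + (k + 1)) * φ e₁ =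
            φ U' ^ n₂ * Y := by rw [hY]; ring
        have hYV : Y ∈ V.nonunits := by
          have h0 : φ U' ^ n₂ ≠ 0 := fun h0 => hu₂ (h0 ▸ zero_mem_nonunits V)
          have : Y = (φ U' ^ n₂)⁻¹ * (φ U' ^ n₂ * Y) := by field_simp
          rw [this, ← hXY]
          exact mul_mem_nonunits_left V (inv_mem_of_not_mem_nonunits hu₂) hX
        have hYloc : InLoc A E y 𝔪 Y :=
          (((InLoc.of_mem h𝔪 s.2).mul h𝔪 (hL.1 s₁)).mul h𝔪 (hL.1 e₂)).sub h𝔪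
            (((hL.1 s₂).mul h𝔪 (huLoc.pow h𝔪 (k + 1))).mul h𝔪 (hL.1 e₁))
        have hYϖ := hprinLoc Y hYloc hYV
        have hs₁0 := hφnz s₁ hs₁
        have he₂0 := hφnz e₂ he₂
        refine ⟨(φ s₁)⁻¹ * (φ e₂)⁻¹ * (Y / x₁),
          (φ s₁)⁻¹ * (φ e₂)⁻¹ * (φ s₂ * φ e₁ * φ U' ^ k * (b₀ : E)⁻¹), ?_, ?_, ?_⟩
        · exact ((hL.inv_inLoc hs₁).mul h𝔪 (hL.inv_inLoc he₂)).mul h𝔪 hYϖ
        · exact ((hL.inv_inLoc hs₁).mul h𝔪 (hL.inv_inLoc he₂)).mul h𝔪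
            ((((hL.1 s₂).mul h𝔪 (hL.1 e₁)).mul h𝔪 (huLoc.pow h𝔪 k)).mul h𝔪
              (InLoc.inv_of_not_mem hb₀))
        · rw [hY]
          field_simp
          ring
      · -- `n₁ ≤ n₂` : impossible
        exfalso
        obtain ⟨k, rfl⟩ : ∃ k, n₂ = n₁ + k := ⟨n₂ - n₁, by omega⟩
        set Y : E := (s : E) * φ s₁ * φ U' ^ k * φ e₂ - φ s₂ * φ e₁ with hY
        have hXY : (s : E) * φ s₁ * φ U' ^ (n₁ + k) * φ e₂ - φ s₂ * φ U' ^ n₁ * φ e₁ =
            φ U' ^ n₁ * Y := by rw [hY]; ring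
        have hYV : Y ∈ V.nonunits := by
          have h0 : φ U' ^ n₁ ≠ 0 := fun h0 => hu₁ (h0 ▸ zero_mem_nonunits V)
          have : Y = (φ U' ^ n₁)⁻¹ * (φ U' ^ n₁ * Y) := by field_simp
          rw [this, ← hXY]
          exact mul_mem_nonunits_left V (inv_mem_of_not_mem_nonunits hu₁) hX
        have hT : InLocMax A E y 𝔪 ((s : E) * φ s₁ * φ U' ^ k * φ e₂) := by
          have : (s : E) * φ s₁ * φ U' ^ k * φ e₂ = (φ s₁ * φ U' ^ k * φ e₂) * (s : E) := by ring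
          rw [this]
          exact InLocMax.mul_left h𝔪 (((hL.1 s₁).mul h𝔪 (huLoc.pow h𝔪 k)).mul h𝔪 (hL.1 e₂)) hsMax
        have hYloc : InLoc A E y 𝔪 Y := hT.inLoc.sub h𝔪 ((hL.1 s₂).mul h𝔪 (hL.1 e₁))
        have hYMax := hlocMax Y hYloc hYV
        have h5 : InLocMax A E y 𝔪 (φ s₂ * φ e₁) := by
          have : φ s₂ * φ e₁ = (s : E) * φ s₁ * φ U' ^ k * φ e₂ - Y := by rw [hY]; ring
          rw [this]
          exact hT.sub h𝔪 hYMax
        have h6 : s₂ * e₁ ∉ 𝔪' := fun h => (h𝔪'.mem_or_mem h).elim hs₂ he₁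
        apply hL.not_inLocMax h6
        have : φ ((s₂ * e₁ : chartClosure A E' y') : E') = φ s₂ * φ e₁ := by
          push_cast; rw [map_mul]
        rw [this]
        exact h5


end Gen

section Core

open Fermat.Agent.H11.SS2 Fermat.Agent.H45 Fermat.Agent.H41.SS

variable (A : Type) [CommRing A] [IsDomain A] [IsDiscreteValuationRing A]
  (E' E : Type) [Field E'] [Field E] [Algebra A E'] [Algebra A E] [Algebra E' E]
  [IsScalarTower A E' E] [CharZero E'] [FiniteDimensional E' E]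

/-- `LiesOverAlong` along an inclusion which preserves the chart coordinate is `𝔪 ∩ B' = 𝔪'`. -/
theorem r11_lie_of_liesOverAlong {y' : E'}
    {𝔪' : Ideal (chartClosure A E' y')}
    {𝔪 : Ideal (chartClosure A E (algebraMap E' E y'))} (h𝔪 : 𝔪.IsPrime)
    (hL : LiesOverAlong A E E' (algebraMap E' E) y' (algebraMap E' E y') 𝔪' 𝔪)
    (d : chartClosure A E' y')
    (h : algebraMap E' E (d : E') ∈ chartClosure A E (algebraMap E' E y')) :
    (⟨_, h⟩ : chartClosure A E (algebraMap E' E y')) ∈ 𝔪 ↔ d ∈ 𝔪' := by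
  rw [hL.2 d]
  constructor
  · intro hmem
    exact InLocMax.of_mem h𝔪 hmem
  · intro hmax
    exact mem_of_inLocMax h𝔪 hmax

/-- An element of `B' ∖ 𝔪'` is a unit of `B'_{𝔪'}`. -/
theorem r11_isLocUnit_of_not_mem {y' : E'} {𝔪' : Ideal (chartClosure A E' y')}
    (h𝔪' : 𝔪'.IsPrime) (u : chartClosure A E' y') (hu : u ∉ 𝔪') :
    IsLocUnit A E' y' 𝔪' (u : E') := by
  have hu0 : (u : E') ≠ 0 := by
    intro h0
    apply hu
    have : u = 0 := Subtype.ext h0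
    rw [this]
    exact 𝔪'.zero_mem
  refine ⟨hu0, ⟨1, (Ideal.ne_top_iff_one 𝔪').mp h𝔪'.ne_top, by simp⟩, ⟨u, hu, ?_⟩⟩
  rw [mul_inv_cancel₀ hu0]
  exact Subalgebra.one_mem _

/-- **REG11, formal core** (non-cuspidal points).  `𝔪` a closed point of level `L q` above the
point `𝔪'` of level `L`, `V₁₁` a vertical valuation through `𝔪` with uniformiser `Z ∈ B` which is
a unit of the other two vertical valuations; `V₁₁ ∩ E' = V₁₀` with residue degree one, `V₁₀` a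
localisation of `B'`, `𝔪'` a regular point `(ϖ, U')` on `V₁₀`; the norm
`N_{E/E'}(Z) = ϖ w u` with `w` a unit of `B'_{𝔪'}` and `u ∈ B'` either a unit at `𝔪'` or a
regular parameter, in which case some place `Pa` with `Z ∈ 𝔪_{Pa}` is centred at another point
`𝔪a ≠ 𝔪` above `𝔪'`.  Then `𝔪` is a regular point with parameters `(Z, U)`. -/
theorem reg11_core (hH : LocalHartogsStatement) (hNP : NormPlaceStatement)
    (hinj' : Function.Injective (algebraMap A E'))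
    (ϖ : A) (hϖ : Irreducible ϖ) (y' : E') (hy' : Transcendental A y')
    (hfd' : ∃ n : ℕ, Nonempty (Module.Basis (Fin n) (chartField A E' y') E'))
    (y : E) (hyy : algebraMap E' E y' = y) (hy : Transcendental A y)
    (hfd : ∃ n : ℕ, Nonempty (Module.Basis (Fin n) (chartField A E y) E))
    (𝔪 : Ideal (chartClosure A E y)) (h𝔪 : 𝔪.IsMaximal)
    (hϖ𝔪 : algebraMap A (chartClosure A E y) ϖ ∈ 𝔪)
    (𝔪' : Ideal (chartClosure A E' y')) (h𝔪' : 𝔪'.IsPrime)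
    (hL : LiesOverAlong A E E' (algebraMap E' E) y' y 𝔪' 𝔪)
    (V₂₀ V₁₁ V₀₂ : ValuationSubring E)
    (hV20 : IsVertical A E ϖ y V₂₀) (hV11 : IsVertical A E ϖ y V₁₁)
    (hV02 : IsVertical A E ϖ y V₀₂)
    (hC : ∀ z : E, z ∈ V₂₀ → z ∈ V₁₁ → z ∈ V₀₂ → z ∈ gaussClosure A E ϖ y)
    (hthru : Through A E y 𝔪 V₁₁)
    (Z : E) (hZ : Z ∈ chartClosure A E y) (hunif : IsUniformiser E V₁₁ Z)
    (hZ20 : Z⁻¹ ∈ V₂₀) (hZ02 : Z⁻¹ ∈ V₀₂)
    (V₁₀ : ValuationSubring E') (hVV' : V₁₁.comap (algebraMap E' E) = V₁₀)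
    (hres : ∀ z ∈ V₁₁, ∃ z' ∈ V₁₀, z - algebraMap E' E z' ∈ V₁₁.nonunits)
    (hfrac : ∀ z' ∈ V₁₀, ∃ d₁ d₂ : chartClosure A E' y',
      (d₂ : E') ∉ V₁₀.nonunits ∧ z' * (d₂ : E') = d₁)
    (U' : E') (hreg' : IsRegPoint A E' ϖ y' 𝔪' V₁₀ (algebraMap A E' ϖ) U')
    (w : E') (hw : IsLocUnit A E' y' 𝔪' w) (u : chartClosure A E' y')
    (hN : Algebra.norm E' Z = algebraMap A E' ϖ * w * (u : E'))
    (hcase : u ∉ 𝔪' ∨ (IsRegularAt A E' ϖ y' 𝔪' u ∧
      ∃ (𝔪a : Ideal (chartClosure A E y)) (Pa : ValuationSubring E), 𝔪a.IsPrime ∧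
        (∃ s : chartClosure A E y, s ∈ 𝔪 ∧ s ∉ 𝔪a) ∧
        LiesOverAlong A E E' (algebraMap E' E) y' y 𝔪' 𝔪a ∧
        CentredAt A E y 𝔪a Pa ∧ Z ∈ Pa.nonunits)) :
    ∃ U : E, IsRegPoint A E ϖ y 𝔪 V₁₁ Z U := by
  subst hyy
  haveI : CharZero E := charZero_of_injective_algebraMap (algebraMap E' E).injective
  have hinj : Function.Injective (algebraMap A E) := by
    rw [IsScalarTower.algebraMap_eq A E' E]
    exact (algebraMap E' E).injective.comp hinj'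
  have hφ : ∀ a : A, algebraMap E' E (algebraMap A E' a) = algebraMap A E a := fun a =>
    (IsScalarTower.algebraMap_apply A E' E a).symm
  have h𝔪p : 𝔪.IsPrime := h𝔪.isPrime
  have hϖ𝔪' : algebraMap A (chartClosure A E' y') ϖ ∈ 𝔪' :=
    hreg'.thru _ hreg'.vert.2.2.2
  have hB : ∀ V : ValuationSubring E, IsVertical A E ϖ (algebraMap E' E y') V →
      ∀ z ∈ chartClosure A E (algebraMap E' E y'), z ∈ V := fun V hV z hz =>
    hV.2.2.1 z (Fermat.Agent.H89.klg_chartClosure_le_gaussClosure hϖ hy hz)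
  -- HYP1
  have hhyp1 : ∀ V : ValuationSubring E,
      CentredAt A E (algebraMap E' E y') 𝔪 V → Z ∉ V.nonunits := by
    intro V hV
    rcases hcase with hu | ⟨hreg, 𝔪a, Pa, h𝔪a, hne, hLa, hPa, hPaZ⟩
    · have hwu : IsLocUnit A E' y' 𝔪' (w * (u : E')) :=
        Fermat.Agent.H93.SS2.rs_isLocUnit_mul hw (r11_isLocUnit_of_not_mem A E' h𝔪' u hu)
      exact reg11_hyp1_easy A E' E hNP hinj' ϖ hϖ y' _ rfl 𝔪' 𝔪
        (fun d h => (r11_lie_of_liesOverAlong A E' E h𝔪p hL d h).1) Z hZ _ hwu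
        (by rw [hN, mul_assoc]) V hV
    · exact reg11_hyp1_hard A E' E hNP hinj' ϖ hϖ y' hy' hfd' _ rfl 𝔪' h𝔪' hϖ𝔪' 𝔪 𝔪a h𝔪a
        (r11_lie_of_liesOverAlong A E' E h𝔪p hL) (r11_lie_of_liesOverAlong A E' E h𝔪a hLa)
        hne Z hZ u hreg w hw hN Pa hPa hPaZ V hV
  -- clause (p)
  have hprin : ∀ s : chartClosure A E (algebraMap E' E y'), (s : E) ∈ V₁₁.nonunits →
      Fermat.Agent.H99.SS2.InLoc A E (algebraMap E' E y') 𝔪 ((s : E) / Z) := by
    intro s hs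
    refine Fermat.Agent.H93.SS2.rs_prin A E hH hinj ϖ hϖ _ hy hfd 𝔪 h𝔪 hϖ𝔪 V₁₁ Z hunif
      (fun z hz hzV => hC _ ?_ hzV ?_) (fun V' hV' => r11_inv_mem (hhyp1 V' hV')) s hs
    · rw [div_eq_mul_inv]
      exact V₂₀.mul_mem _ _ (hB V₂₀ hV20 z hz) hZ20
    · rw [div_eq_mul_inv]
      exact V₀₂.mul_mem _ _ (hB V₀₂ hV02 z hz) hZ02
  obtain ⟨b₀, hb₀, hb₀U⟩ := hL.1 ⟨U', hreg'.mem₂⟩
  exact ⟨_, reg11_gen hinj' hinj hϖ hy' hfd' hy (algebraMap E' E) hφ 𝔪 h𝔪p 𝔪' h𝔪' hL V₁₁ hV11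
    hthru Z hZ hunif hprin V₁₀ hVV' hres hfrac U' hreg' b₀ hb₀ hb₀U⟩

end Core

end Fermat.Agent.H12.SS2
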