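import Fermat.Agent.H41.SS.TubeChart

/-!
# P-SS2 row 902 (SS2-C5 REG11): exact statements of the abstract sub-rows (helper12)

* `PlaceExistsStatement` (sub-row PLACE-EXIST): at a regular point `𝔪 B_𝔪 = (ϖ, u)` of the chart
  `y` there is a place centred at `𝔪` at which `u` vanishes (the discrete valuation ring
  `(B_𝔪)_{(u)}`).
-/

set_option autoImplicit false

noncomputable section

namespace Fermat.Agent.H12.SS2

open Fermat.Agent.H22.KL

/-- **PLACE-EXIST**: existence of the place `u = 0` through a regular point `(ϖ, u)`. -/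
def PlaceExistsStatement : Prop :=
  ∀ (A : Type) [CommRing A] [IsDomain A] [IsDiscreteValuationRing A]
    (E : Type) [Field E] [Algebra A E] [CharZero E],
    Function.Injective (algebraMap A E) →
    ∀ (ϖ : A), Irreducible ϖ → ∀ (y : E), Transcendental A y →
    (∃ n : ℕ, Nonempty (Module.Basis (Fin n) (chartField A E y) E)) →
    ∀ (𝔪 : Ideal (chartClosure A E y)), 𝔪.IsMaximal →
      algebraMap A (chartClosure A E y) ϖ ∈ 𝔪 →
    ∀ (u : chartClosure A E y), Fermat.Agent.H41.SS.IsRegularAt A E ϖ y 𝔪 u →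
      ∃ V : ValuationSubring E, Fermat.Agent.H45.CentredAt A E y 𝔪 V ∧ (u : E) ∈ V.nonunits

end Fermat.Agent.H12.SS2
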