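import Fermat.Agent.H12.SS2.Reg11Asm
import Fermat.Agent.H4.SS.Hartogs
import Fermat.Agent.H46.SS2.NormPlace
import Fermat.Agent.H97.SS2.PaGlue
import Fermat.Agent.H2.SS2.PointAbove
import Fermat.Agent.H37.SS2.ChangeParam

/-!
# P-SS2 row 902 (SS2-C5 REG11): the unconditional abstract theorem (helper12)

* `reg11_final` : `reg11_assembled` with LOCAL HARTOGS (helper4), NORMPLACE (helper46),
  PA-GLUE (helper97), POINT-ABOVE (helper2) plugged in.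
* `reg11_val3` : the same with the norm package in the shape delivered by the concrete rows:
  `N_{E/E'}(Z) = ϖ w u`, `u = e Y₁ + ϖ c` with `e ∈ B' ∖ 𝔪'`, `c ∈ B'`, `Z + α Y₁ ∈ 𝔪_{V₂₀}`
  (`Val3Data.X₂₀`), and SIMPLE-Y: `Y₁ ∉ 𝔪'` or `(ϖ, Y₁)` regular at `𝔪'`
  (CHANGE-PARAM, helper37).
-/

set_option autoImplicit false
set_option linter.unusedSectionVars false
set_option linter.style.haveILetI false
set_option linter.unusedVariables false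

noncomputable section

namespace Fermat.Agent.H12.SS2

open Polynomial
open Fermat.Agent.H22.KL Fermat.Agent.H11.SS2 Fermat.Agent.H45 Fermat.Agent.H41.SS
open Fermat.Agent.H93.SS2

section Final

variable (A : Type) [CommRing A] [IsDomain A] [IsDiscreteValuationRing A]
  (E' E : Type) [Field E'] [Field E] [Algebra A E'] [Algebra A E] [Algebra E' E]
  [IsScalarTower A E' E] [CharZero E'] [CharZero E] [FiniteDimensional E' E]

/-- **REG11, abstract, unconditional.** -/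
theorem reg11_final
    (hinj' : Function.Injective (algebraMap A E'))
    (ϖ : A) (hϖ : Irreducible ϖ) (y' : E') (hy' : Transcendental A y')
    (hfd' : ∃ n : ℕ, Nonempty (Module.Basis (Fin n) (chartField A E' y') E'))
    (y : E) (hyy : algebraMap E' E y' = y) (hy : Transcendental A y)
    (hfd : ∃ n : ℕ, Nonempty (Module.Basis (Fin n) (chartField A E y) E))
    (𝔪 : Ideal (chartClosure A E y)) (h𝔪 : 𝔪.IsMaximal)
    (hϖ𝔪 : algebraMap A (chartClosure A E y) ϖ ∈ 𝔪)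
    (𝔪' : Ideal (chartClosure A E' y')) (h𝔪' : 𝔪'.IsMaximal)
    (hL : Fermat.Agent.H99.SS2.LiesOverAlong A E E' (algebraMap E' E) y' y 𝔪' 𝔪)
    (V₂₀ V₁₁ V₀₂ : ValuationSubring E)
    (hV20 : IsVertical A E ϖ y V₂₀) (hV11 : IsVertical A E ϖ y V₁₁)
    (hV02 : IsVertical A E ϖ y V₀₂)
    (hC : ∀ z : E, z ∈ V₂₀ → z ∈ V₁₁ → z ∈ V₀₂ → z ∈ gaussClosure A E ϖ y)
    (hthru : Through A E y 𝔪 V₁₁)
    (hA20 : ∃ s : chartClosure A E y, (s : E) ∈ V₂₀.nonunits ∧ s ∉ 𝔪)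
    (hA02 : ∃ s : chartClosure A E y, (s : E) ∈ V₀₂.nonunits ∧ s ∉ 𝔪)
    (hu20 : IsUniformiser E V₂₀ (algebraMap A E ϖ))
    (hu02 : IsUniformiser E V₀₂ (algebraMap A E ϖ))
    (hN11 : ∃ N : ℕ, ∀ s ∈ V₁₁.nonunits, s ^ N / algebraMap A E ϖ ∈ V₁₁)
    (hcls : ∀ 𝔫 : Ideal (chartClosure A E y), 𝔫.IsMaximal → Through A E y 𝔫 V₂₀ →
      Through A E y 𝔫 V₁₁ → Through A E y 𝔫 V₀₂)
    (Z : E) (hZ : Z ∈ chartClosure A E y) (hunif : IsUniformiser E V₁₁ Z)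
    (V₁₀ V₀₁ : ValuationSubring E')
    (hα20 : V₂₀.comap (algebraMap E' E) = V₁₀) (hα11 : V₁₁.comap (algebraMap E' E) = V₁₀)
    (hα02 : V₀₂.comap (algebraMap E' E) = V₀₁)
    (hres20 : ∀ z ∈ V₂₀, ∃ z' ∈ V₁₀, z - algebraMap E' E z' ∈ V₂₀.nonunits)
    (hres11 : ∀ z ∈ V₁₁, ∃ z' ∈ V₁₀, z - algebraMap E' E z' ∈ V₁₁.nonunits)
    (hfrac : ∀ z' ∈ V₁₀, ∃ d₁ d₂ : chartClosure A E' y',
      (d₂ : E') ∉ V₁₀.nonunits ∧ z' * (d₂ : E') = d₁)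
    (hnot01 : ¬ Through A E' y' 𝔪' V₀₁)
    (U' : E') (hreg' : IsRegPoint A E' ϖ y' 𝔪' V₁₀ (algebraMap A E' ϖ) U')
    (w : E') (hw : IsLocUnit A E' y' 𝔪' w) (u : chartClosure A E' y')
    (hN : Algebra.norm E' Z = algebraMap A E' ϖ * w * (u : E'))
    (hu : u ∉ 𝔪' ∨ IsRegularAt A E' ϖ y' 𝔪' u)
    (e : chartClosure A E' y') (he : e ∉ 𝔪')
    (hZu : algebraMap E' E (e : E') * Z + algebraMap E' E (u : E') ∈ V₂₀.nonunits) :
    ∃ x₁ U : E, IsRegPoint A E ϖ y 𝔪 V₁₁ x₁ U :=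
  reg11_assembled A E' E Fermat.Agent.H4.SS.localHartogs Fermat.Agent.H46.SS2.normPlace
    Fermat.Agent.H97.SS2.paGlue Fermat.Agent.H2.pointAbove hinj' ϖ hϖ y' hy' hfd' y hyy hy hfd
    𝔪 h𝔪 hϖ𝔪 𝔪' h𝔪' hL V₂₀ V₁₁ V₀₂ hV20 hV11 hV02 hC hthru hA20 hA02 hu20 hu02 hN11 hcls Z hZ
    hunif V₁₀ V₀₁ hα20 hα11 hα02 hres20 hres11 hfrac hnot01 U' hreg' w hw u hN hu e he hZu

/-- **REG11 with the norm package of the concrete rows.**  `N(Z) = ϖ w u`,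
`u = e Y₁ + ϖ c`, `e ∈ B' ∖ 𝔪'`, `Z + α Y₁ ∈ 𝔪_{V₂₀}`, and `Y₁ ∉ 𝔪'` or `(ϖ, Y₁)` regular
parameters at `𝔪'`. -/
theorem reg11_val3
    (hinj' : Function.Injective (algebraMap A E'))
    (ϖ : A) (hϖ : Irreducible ϖ) (y' : E') (hy' : Transcendental A y')
    (hfd' : ∃ n : ℕ, Nonempty (Module.Basis (Fin n) (chartField A E' y') E'))
    (y : E) (hyy : algebraMap E' E y' = y) (hy : Transcendental A y)
    (hfd : ∃ n : ℕ, Nonempty (Module.Basis (Fin n) (chartField A E y) E))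
    (𝔪 : Ideal (chartClosure A E y)) (h𝔪 : 𝔪.IsMaximal)
    (hϖ𝔪 : algebraMap A (chartClosure A E y) ϖ ∈ 𝔪)
    (𝔪' : Ideal (chartClosure A E' y')) (h𝔪' : 𝔪'.IsMaximal)
    (hL : Fermat.Agent.H99.SS2.LiesOverAlong A E E' (algebraMap E' E) y' y 𝔪' 𝔪)
    (V₂₀ V₁₁ V₀₂ : ValuationSubring E)
    (hV20 : IsVertical A E ϖ y V₂₀) (hV11 : IsVertical A E ϖ y V₁₁)
    (hV02 : IsVertical A E ϖ y V₀₂)
    (hC : ∀ z : E, z ∈ V₂₀ → z ∈ V₁₁ → z ∈ V₀₂ → z ∈ gaussClosure A E ϖ y)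
    (hthru : Through A E y 𝔪 V₁₁)
    (hA20 : ∃ s : chartClosure A E y, (s : E) ∈ V₂₀.nonunits ∧ s ∉ 𝔪)
    (hA02 : ∃ s : chartClosure A E y, (s : E) ∈ V₀₂.nonunits ∧ s ∉ 𝔪)
    (hu20 : IsUniformiser E V₂₀ (algebraMap A E ϖ))
    (hu02 : IsUniformiser E V₀₂ (algebraMap A E ϖ))
    (hN11 : ∃ N : ℕ, ∀ s ∈ V₁₁.nonunits, s ^ N / algebraMap A E ϖ ∈ V₁₁)
    (hcls : ∀ 𝔫 : Ideal (chartClosure A E y), 𝔫.IsMaximal → Through A E y 𝔫 V₂₀ →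
      Through A E y 𝔫 V₁₁ → Through A E y 𝔫 V₀₂)
    (Z : E) (hZ : Z ∈ chartClosure A E y) (hunif : IsUniformiser E V₁₁ Z)
    (V₁₀ V₀₁ : ValuationSubring E')
    (hα20 : V₂₀.comap (algebraMap E' E) = V₁₀) (hα11 : V₁₁.comap (algebraMap E' E) = V₁₀)
    (hα02 : V₀₂.comap (algebraMap E' E) = V₀₁)
    (hres20 : ∀ z ∈ V₂₀, ∃ z' ∈ V₁₀, z - algebraMap E' E z' ∈ V₂₀.nonunits)
    (hres11 : ∀ z ∈ V₁₁, ∃ z' ∈ V₁₀, z - algebraMap E' E z' ∈ V₁₁.nonunits)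
    (hfrac : ∀ z' ∈ V₁₀, ∃ d₁ d₂ : chartClosure A E' y',
      (d₂ : E') ∉ V₁₀.nonunits ∧ z' * (d₂ : E') = d₁)
    (hnot01 : ¬ Through A E' y' 𝔪' V₀₁)
    (U' : E') (hreg' : IsRegPoint A E' ϖ y' 𝔪' V₁₀ (algebraMap A E' ϖ) U')
    (w : E') (hw : IsLocUnit A E' y' 𝔪' w)
    (Y₁ e c u : chartClosure A E' y') (he : e ∉ 𝔪')
    (hudef : (u : E') = (e : E') * (Y₁ : E') + algebraMap A E' ϖ * (c : E'))
    (hN : Algebra.norm E' Z = algebraMap A E' ϖ * w * (u : E'))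
    (hY : Y₁ ∉ 𝔪' ∨ IsRegularAt A E' ϖ y' 𝔪' Y₁)
    (hX20 : Z + algebraMap E' E (Y₁ : E') ∈ V₂₀.nonunits) :
    ∃ x₁ U : E, IsRegPoint A E ϖ y 𝔪 V₁₁ x₁ U := by
  have h𝔪'p : 𝔪'.IsPrime := h𝔪'.isPrime
  have hϖ𝔪' : algebraMap A (chartClosure A E' y') ϖ ∈ 𝔪' :=
    hreg'.thru _ hreg'.vert.2.2.2
  have hudefB : u = e * Y₁ + algebraMap A (chartClosure A E' y') ϖ * c := Subtype.ext hudef
  have hB20 : ∀ z ∈ chartClosure A E y, z ∈ V₂₀ := fun z hz =>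
    hV20.2.2.1 z (Fermat.Agent.H89.klg_chartClosure_le_gaussClosure hϖ hy hz)
  refine reg11_final A E' E hinj' ϖ hϖ y' hy' hfd' y hyy hy hfd 𝔪 h𝔪 hϖ𝔪 𝔪' h𝔪' hL V₂₀ V₁₁ V₀₂
    hV20 hV11 hV02 hC hthru hA20 hA02 hu20 hu02 hN11 hcls Z hZ hunif V₁₀ V₀₁ hα20 hα11 hα02
    hres20 hres11 hfrac hnot01 U' hreg' w hw u hN ?_ e he ?_
  · rcases hY with hY | hY
    · left
      intro hu𝔪
      have h1 : e * Y₁ ∈ 𝔪' := by
        have : e * Y₁ = u - algebraMap A (chartClosure A E' y') ϖ * c := by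
          rw [hudefB]; ring
        rw [this]
        exact 𝔪'.sub_mem hu𝔪 (𝔪'.mul_mem_right _ hϖ𝔪')
      rcases h𝔪'p.mem_or_mem h1 with h | h
      · exact he h
      · exact hY h
    · right
      exact Fermat.Agent.H37.SS2.changeParam A E' hinj' ϖ hϖ y' hy' hfd' 𝔪' h𝔪' hϖ𝔪' Y₁ u hY
        (e : E') (c : E') (r11_isLocUnit_of_not_mem A E' h𝔪'p e he)
        ⟨1, (Ideal.ne_top_iff_one 𝔪').mp h𝔪'p.ne_top, by
          have h1 : ((1 : chartClosure A E' y') : E') = 1 := rfl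
          rw [h1, one_mul]; exact c.2⟩ hudef
  · subst hyy
    have : algebraMap E' E (e : E') * Z + algebraMap E' E (u : E')
        = algebraMap E' E (e : E') * (Z + algebraMap E' E (Y₁ : E'))
          + algebraMap A E ϖ * algebraMap E' E (c : E') := by
      rw [hudef, map_add, map_mul, map_mul, ← IsScalarTower.algebraMap_apply A E' E]
      ring
    rw [this]
    refine r11_add_mem_nonunits ?_ ?_
    · rw [mul_comm]
      exact r11_mul_mem_nonunits hX20 (hB20 _ (r11_map_mem_chartClosure e.2))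
    · exact r11_mul_mem_nonunits hV20.2.2.2 (hB20 _ (r11_map_mem_chartClosure c.2))

end Final

end Fermat.Agent.H12.SS2
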