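import Fermat.Agent.H12.SS2.Reg11Val3
import Fermat.Agent.H99.SS2.AsmPt

/-!
# P-SS2 row 902 (SS2-C5 REG11) for (P) POINTS: the `V₁₁`-only case of the chart `x` (helper12)

* `r11_thru02_of_asmPt` : the classification `hcls` from `AsmPt` (a point on `V₂₀` and `V₁₁` is
  a triple point, hence on `V₀₂`).
* `reg11_h11` : from the hypothesis block of `Fermat.Agent.H99.SS2.asmPt_val3_below` (helper99)
  and the NORM PACKAGE of REG11 (`N_α(Z) = q w u`, `u = e Y₁ + q c`, `w` a local unit and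
  SIMPLE-Y at the points of level `L` on `O₁` only): EXACTLY the hypothesis `h11` of
  `asmPt_val3_below`, at every closed point `𝔪 ∋ q` of the chart `y`.
* `asmPt_val3_reg11` : hence `AsmPt` at every closed point `𝔪 ∋ q` of the chart `y`.
-/

set_option autoImplicit false
set_option linter.unusedSectionVars false
set_option linter.style.haveILetI false
set_option linter.unusedVariables false

noncomputable section

namespace Fermat.Agent.H12.SS2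

open Fermat.Agent.H22.KL Fermat.Agent.H11.SS2 Fermat.Agent.H7.SS2 Fermat.Agent.H19.SS2
open Fermat.Agent.H41.SS

section H11

variable {A : Type} [CommRing A] [IsDomain A] [IsDiscreteValuationRing A]
variable {E' : Type} [Field E'] [Algebra A E'] [CharZero E']
variable {E : Type} [Field E] [Algebra A E] [CharZero E]

/-- The classification `hcls` of REG11 from `AsmPt`: a closed point on `V₂₀` and on `V₁₁` is a
triple point, hence on `V₀₂`. -/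
theorem r11_thru02_of_asmPt {q : ℕ} {α β : E' →+* E} {O₁ O₂ : ValuationSubring E'}
    {V₂₀ V₁₁ V₀₂ : ValuationSubring E} {y : E} {𝔫 : Ideal (chartClosure A E y)}
    (hpt : AsmPt A E' E q α β O₁ O₂ V₂₀ V₁₁ V₀₂ y 𝔫)
    (h20 : Through A E y 𝔫 V₂₀) (h11 : Through A E y 𝔫 V₁₁) : Through A E y 𝔫 V₀₂ := by
  rcases hpt with h3 | h | h | h
  · rcases h3.1 with ⟨z₁, z₂, h1, -, -⟩ | ⟨z₁, z₂, -, -, h1⟩
    · exact h1.thru
    · exact h1.thru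
  · exact absurd h11 h.1
  · exact absurd h20 h.1
  · exact absurd h20 h.1

/-- `q ∈ 𝔪'` for the point `𝔪'` below a closed point `𝔪 ∋ q`. -/
theorem r11_pi_mem_below {q : ℕ} (φ : E' →+* E)
    (hφ : ∀ a : A, φ (algebraMap A E' a) = algebraMap A E a) {y' : E'} {y : E}
    {𝔪 : Ideal (chartClosure A E y)} (h𝔪 : 𝔪.IsPrime)
    (hq𝔪 : algebraMap A (chartClosure A E y) ((q : ℕ) : A) ∈ 𝔪)
    {𝔪' : Ideal (chartClosure A E' y')}
    (hL : Fermat.Agent.H99.SS2.LiesOverAlong A E E' φ y' y 𝔪' 𝔪) :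
    algebraMap A (chartClosure A E' y') ((q : ℕ) : A) ∈ 𝔪' := by
  refine (hL.2 _).2 ⟨1, fun h => h𝔪.ne_top ((Ideal.eq_top_iff_one _).2 h),
    algebraMap A (chartClosure A E y) ((q : ℕ) : A), hq𝔪, ?_⟩
  have h1 : ((algebraMap A (chartClosure A E' y') ((q : ℕ) : A) : chartClosure A E' y') : E')
      = algebraMap A E' ((q : ℕ) : A) := rfl
  have h2 : ((algebraMap A (chartClosure A E y) ((q : ℕ) : A) : chartClosure A E y) : E)
      = algebraMap A E ((q : ℕ) : A) := rfl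
  rw [h1, h2, hφ]
  simp

/-- **REG11 as the hypothesis `h11` of `asmPt_val3_below`**: at every closed point `𝔪 ∋ q` of
the chart `y = α y'`. -/
theorem reg11_h11 (hH : Fermat.Agent.H45.LocalHartogsStatement)
    (hinj' : Function.Injective (algebraMap A E'))
    (hinj : Function.Injective (algebraMap A E))
    (q : ℕ) (hq2 : 2 ≤ q) (hq : Irreducible ((q : ℕ) : A))
    {y' : E'} (hy' : Transcendental A y')
    (hfd' : ∃ n : ℕ, Nonempty (Module.Basis (Fin n) (chartField A E' y') E'))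
    {y : E} (hy : Transcendental A y)
    (hfd : ∃ n : ℕ, Nonempty (Module.Basis (Fin n) (chartField A E y) E))
    (α β : E' →+* E) (hα : ∀ a : A, α (algebraMap A E' a) = algebraMap A E a)
    (hβ : ∀ a : A, β (algebraMap A E' a) = algebraMap A E a)
    (hyy : α y' = y)
    (hcβ : chartClosure A E (β y') = chartClosure A E y)
    (O₁ O₂ : ValuationSubring E') (V₂₀ V₁₁ V₀₂ : ValuationSubring E) (X₁ Y₁ : E') (Z : E)
    (hval : Val3Data α β O₁ O₂ V₂₀ V₁₁ V₀₂ q Y₁ Z)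
    (hV20 : IsVertical A E ((q : ℕ) : A) y V₂₀) (hV11 : IsVertical A E ((q : ℕ) : A) y V₁₁)
    (hV02 : IsVertical A E ((q : ℕ) : A) y V₀₂)
    (hgauss : ∀ z : E, z ∈ V₂₀ → z ∈ V₁₁ → z ∈ V₀₂ → z ∈ gaussClosure A E ((q : ℕ) : A) y)
    (hfrac10 : ∀ z' ∈ O₁, ∃ d₁ d₂ : chartClosure A E' y',
      (d₂ : E') ∉ O₁.nonunits ∧ z' * (d₂ : E') = d₁)
    (hfrac01 : ∀ z' ∈ O₂, ∃ d₁ d₂ : chartClosure A E' y',
      (d₂ : E') ∉ O₂.nonunits ∧ z' * (d₂ : E') = d₁)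
    (hregL : ∀ 𝔪' : Ideal (chartClosure A E' y'), 𝔪'.IsMaximal →
      algebraMap A (chartClosure A E' y') ((q : ℕ) : A) ∈ 𝔪' →
      RegLAtOne A E' ((q : ℕ) : A) y' 𝔪' O₁ O₂ X₁ Y₁)
    (hX₂ : β X₁ = Z + α Y₁) (hZ : Z ∈ chartClosure A E y)
    (Gα Gβ : E)
    (hGα : ∀ 𝔫 : Ideal (chartClosure A E y), 𝔫.IsMaximal →
      algebraMap A (chartClosure A E y) ((q : ℕ) : A) ∈ 𝔫 →
      Fermat.Agent.H11.SS2.InLoc A E y 𝔫 Gα)
    (hrelα : Z ^ (q - 1) * (Z + α Y₁) - α X₁ + algebraMap A E ((q : ℕ) : A) * Gα = 0)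
    (hGβ : ∀ 𝔫 : Ideal (chartClosure A E y), 𝔫.IsMaximal →
      algebraMap A (chartClosure A E y) ((q : ℕ) : A) ∈ 𝔫 →
      Fermat.Agent.H11.SS2.InLoc A E y 𝔫 Gβ)
    (hrelβ : (-Z) ^ (q - 1) * (-Z + β X₁) - β Y₁ + algebraMap A E ((q : ℕ) : A) * Gβ = 0)
    -- the norm package of REG11
    (hfin : @FiniteDimensional E' E _ _ (@Algebra.toModule E' E _ _ α.toAlgebra))
    (w : E') (hY₁B : Y₁ ∈ chartClosure A E' y') (e c u : chartClosure A E' y') (he : IsUnit e)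
    (hudef : (u : E') = (e : E') * Y₁ + algebraMap A E' ((q : ℕ) : A) * (c : E'))
    (hN : @Algebra.norm E' E _ _ α.toAlgebra Z =
      algebraMap A E' ((q : ℕ) : A) * w * (u : E'))
    (hloc : ∀ 𝔪' : Ideal (chartClosure A E' y'), 𝔪'.IsMaximal →
      algebraMap A (chartClosure A E' y') ((q : ℕ) : A) ∈ 𝔪' →
      Through A E' y' 𝔪' O₁ → ¬ Through A E' y' 𝔪' O₂ →
      IsLocUnit A E' y' 𝔪' w ∧
        ((⟨Y₁, hY₁B⟩ : chartClosure A E' y') ∉ 𝔪' ∨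
          IsRegularAt A E' ((q : ℕ) : A) y' 𝔪' ⟨Y₁, hY₁B⟩))
    (𝔪 : Ideal (chartClosure A E y)) (h𝔪 : 𝔪.IsMaximal)
    (hq𝔪 : algebraMap A (chartClosure A E y) ((q : ℕ) : A) ∈ 𝔪) :
    ∀ 𝔪α 𝔪β : Ideal (chartClosure A E' y'), 𝔪α.IsMaximal → 𝔪β.IsMaximal →
      Fermat.Agent.H99.SS2.LiesOverAlong A E E' α y' y 𝔪α 𝔪 →
      Fermat.Agent.H99.SS2.LiesOverAlong A E E' β y' y 𝔪β 𝔪 →
      Through A E y 𝔪 V₁₁ → ¬ Through A E y 𝔪 V₂₀ → ¬ Through A E y 𝔪 V₀₂ →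
      Through A E' y' 𝔪α O₁ → ¬ Through A E' y' 𝔪α O₂ →
      Through A E' y' 𝔪β O₂ → ¬ Through A E' y' 𝔪β O₁ →
      ∃ x₁ x₂ : E, IsRegPoint A E ((q : ℕ) : A) y 𝔪 V₁₁ x₁ x₂ := by
  intro 𝔪α 𝔪β h𝔪α h𝔪β hLα hLβ ht11 hn20 hn02 hα1 hα2 hβ2 hβ1
  have hcα : chartClosure A E (α y') = chartClosure A E y := by rw [hyy]
  -- the classification
  have hcls : ∀ 𝔫 : Ideal (chartClosure A E y), 𝔫.IsMaximal → Through A E y 𝔫 V₂₀ →
      Through A E y 𝔫 V₁₁ → Through A E y 𝔫 V₀₂ := by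
    intro 𝔫 h𝔫 h20 h11
    have hq𝔫 : algebraMap A (chartClosure A E y) ((q : ℕ) : A) ∈ 𝔫 := h20 _ hV20.2.2.2
    have hpt := Fermat.Agent.H99.SS2.asmPt_val3_below hH hinj' hinj q hq2 hq hy' hfd' hy hfd
      α β hα hβ hcα hcβ O₁ O₂ V₂₀ V₁₁ V₀₂ X₁ Y₁ Z hval hV20 hV11 hV02 hgauss hfrac10 hfrac01
      hregL hX₂ hZ Gα Gβ hGα hrelα hGβ hrelβ 𝔫 h𝔫 hq𝔫
      (fun _ _ _ _ _ _ _ h _ _ _ _ _ => absurd h20 h)
    exact r11_thru02_of_asmPt hpt h20 h11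
  -- the regular point below
  have hq𝔪α : algebraMap A (chartClosure A E' y') ((q : ℕ) : A) ∈ 𝔪α :=
    r11_pi_mem_below α hα h𝔪.isPrime hq𝔪 hLα
  obtain ⟨U', hreg'⟩ : ∃ U' : E',
      IsRegPoint A E' ((q : ℕ) : A) y' 𝔪α O₁ (algebraMap A E' ((q : ℕ) : A)) U' := by
    rcases hregL 𝔪α h𝔪α hq𝔪α with ⟨-, h⟩ | ⟨h, -⟩ | ⟨-, h, -⟩
    · exact h
    · exact absurd hα1 h
    · exact absurd h.thru hα2
  obtain ⟨hw, hY⟩ := hloc 𝔪α h𝔪α hq𝔪α hα1 hα2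
  have hA20 : ∃ s : chartClosure A E y, (s : E) ∈ V₂₀.nonunits ∧ s ∉ 𝔪 := by
    by_contra hcon
    exact hn20 (fun s hs => by_contra fun hs' => hcon ⟨s, hs, hs'⟩)
  have hA02 : ∃ s : chartClosure A E y, (s : E) ∈ V₀₂.nonunits ∧ s ∉ 𝔪 := by
    by_contra hcon
    exact hn02 (fun s hs => by_contra fun hs' => hcon ⟨s, hs, hs'⟩)
  have he𝔪 : e ∉ 𝔪α := fun h => h𝔪α.ne_top (Ideal.eq_top_of_isUnit_mem _ h he)
  exact reg11_val3data A E' E α β hα hfin hinj' ((q : ℕ) : A) hq q (map_natCast _ q) y' hy'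
    hfd' y hyy hy hfd 𝔪 h𝔪 hq𝔪 𝔪α h𝔪α hLα O₁ O₂ V₂₀ V₁₁ V₀₂ Y₁ Z hval hV20 hV11 hV02 hgauss
    ht11 hA20 hA02 hcls hZ hfrac10 hα2 U' hreg' w hw hY₁B e c u he𝔪 hudef hN hY

/-- **The per-point theorem of the chart `y = α y'` with REG11 plugged in**: `AsmPt` at every
closed point `𝔪 ∋ q`. -/
theorem asmPt_val3_reg11 (hH : Fermat.Agent.H45.LocalHartogsStatement)
    (hinj' : Function.Injective (algebraMap A E'))
    (hinj : Function.Injective (algebraMap A E))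
    (q : ℕ) (hq2 : 2 ≤ q) (hq : Irreducible ((q : ℕ) : A))
    {y' : E'} (hy' : Transcendental A y')
    (hfd' : ∃ n : ℕ, Nonempty (Module.Basis (Fin n) (chartField A E' y') E'))
    {y : E} (hy : Transcendental A y)
    (hfd : ∃ n : ℕ, Nonempty (Module.Basis (Fin n) (chartField A E y) E))
    (α β : E' →+* E) (hα : ∀ a : A, α (algebraMap A E' a) = algebraMap A E a)
    (hβ : ∀ a : A, β (algebraMap A E' a) = algebraMap A E a)
    (hyy : α y' = y)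
    (hcβ : chartClosure A E (β y') = chartClosure A E y)
    (O₁ O₂ : ValuationSubring E') (V₂₀ V₁₁ V₀₂ : ValuationSubring E) (X₁ Y₁ : E') (Z : E)
    (hval : Val3Data α β O₁ O₂ V₂₀ V₁₁ V₀₂ q Y₁ Z)
    (hV20 : IsVertical A E ((q : ℕ) : A) y V₂₀) (hV11 : IsVertical A E ((q : ℕ) : A) y V₁₁)
    (hV02 : IsVertical A E ((q : ℕ) : A) y V₀₂)
    (hgauss : ∀ z : E, z ∈ V₂₀ → z ∈ V₁₁ → z ∈ V₀₂ → z ∈ gaussClosure A E ((q : ℕ) : A) y)
    (hfrac10 : ∀ z' ∈ O₁, ∃ d₁ d₂ : chartClosure A E' y',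
      (d₂ : E') ∉ O₁.nonunits ∧ z' * (d₂ : E') = d₁)
    (hfrac01 : ∀ z' ∈ O₂, ∃ d₁ d₂ : chartClosure A E' y',
      (d₂ : E') ∉ O₂.nonunits ∧ z' * (d₂ : E') = d₁)
    (hregL : ∀ 𝔪' : Ideal (chartClosure A E' y'), 𝔪'.IsMaximal →
      algebraMap A (chartClosure A E' y') ((q : ℕ) : A) ∈ 𝔪' →
      RegLAtOne A E' ((q : ℕ) : A) y' 𝔪' O₁ O₂ X₁ Y₁)
    (hX₂ : β X₁ = Z + α Y₁) (hZ : Z ∈ chartClosure A E y)
    (Gα Gβ : E)
    (hGα : ∀ 𝔫 : Ideal (chartClosure A E y), 𝔫.IsMaximal →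
      algebraMap A (chartClosure A E y) ((q : ℕ) : A) ∈ 𝔫 →
      Fermat.Agent.H11.SS2.InLoc A E y 𝔫 Gα)
    (hrelα : Z ^ (q - 1) * (Z + α Y₁) - α X₁ + algebraMap A E ((q : ℕ) : A) * Gα = 0)
    (hGβ : ∀ 𝔫 : Ideal (chartClosure A E y), 𝔫.IsMaximal →
      algebraMap A (chartClosure A E y) ((q : ℕ) : A) ∈ 𝔫 →
      Fermat.Agent.H11.SS2.InLoc A E y 𝔫 Gβ)
    (hrelβ : (-Z) ^ (q - 1) * (-Z + β X₁) - β Y₁ + algebraMap A E ((q : ℕ) : A) * Gβ = 0)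
    -- the norm package of REG11
    (hfin : @FiniteDimensional E' E _ _ (@Algebra.toModule E' E _ _ α.toAlgebra))
    (w : E') (hY₁B : Y₁ ∈ chartClosure A E' y') (e c u : chartClosure A E' y') (he : IsUnit e)
    (hudef : (u : E') = (e : E') * Y₁ + algebraMap A E' ((q : ℕ) : A) * (c : E'))
    (hN : @Algebra.norm E' E _ _ α.toAlgebra Z =
      algebraMap A E' ((q : ℕ) : A) * w * (u : E'))
    (hloc : ∀ 𝔪' : Ideal (chartClosure A E' y'), 𝔪'.IsMaximal →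
      algebraMap A (chartClosure A E' y') ((q : ℕ) : A) ∈ 𝔪' →
      Through A E' y' 𝔪' O₁ → ¬ Through A E' y' 𝔪' O₂ →
      IsLocUnit A E' y' 𝔪' w ∧
        ((⟨Y₁, hY₁B⟩ : chartClosure A E' y') ∉ 𝔪' ∨
          IsRegularAt A E' ((q : ℕ) : A) y' 𝔪' ⟨Y₁, hY₁B⟩))
    (𝔪 : Ideal (chartClosure A E y)) (h𝔪 : 𝔪.IsMaximal)
    (hq𝔪 : algebraMap A (chartClosure A E y) ((q : ℕ) : A) ∈ 𝔪) :
    AsmPt A E' E q α β O₁ O₂ V₂₀ V₁₁ V₀₂ y 𝔪 :=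
  Fermat.Agent.H99.SS2.asmPt_val3_below hH hinj' hinj q hq2 hq hy' hfd' hy hfd
    α β hα hβ (by rw [hyy]) hcβ O₁ O₂ V₂₀ V₁₁ V₀₂ X₁ Y₁ Z hval hV20 hV11 hV02 hgauss hfrac10
    hfrac01 hregL hX₂ hZ Gα Gβ hGα hrelα hGβ hrelβ 𝔪 h𝔪 hq𝔪
    (reg11_h11 hH hinj' hinj q hq2 hq hy' hfd' hy hfd α β hα hβ hyy hcβ O₁ O₂ V₂₀ V₁₁ V₀₂
      X₁ Y₁ Z hval hV20 hV11 hV02 hgauss hfrac10 hfrac01 hregL hX₂ hZ Gα Gβ hGα hrelα hGβ
      hrelβ hfin w hY₁B e c u he hudef hN hloc 𝔪 h𝔪 hq𝔪)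

end H11

end Fermat.Agent.H12.SS2
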