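import Fermat.Agent.H86.SS2.Emb3Defs
import Fermat.Agent.H7.SS2.Vertical
import Fermat.Agent.H41.SS.TubeChart
import Fermat.Agent.H11.SS2.Defs

/-!
# P-SS2 row 902 (SS2-C5 REG11): the concrete NORM PACKAGE at level `M' q` (helper12)

`Reg11PkgStatement M' q` : everything `Fermat.Agent.H12.SS2.reg11_val3data` needs about the
function `Z = H₂ - H` of level `M' q²` and the functions of level `L = M' q`, chart `j`:

* `Y₁ = H - H₁^q ∈ B'(j)`, a unit `e` of `B'(j)` (`e = (H₁ (H₁ + 16))^m`), `c ∈ B'(j)`,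
  `u = e Y₁ + q c`, `w ∈ E'` with `N_α(Z) = q w u`  (NORM-ID + THETA-ID, row 1046;
  `w = - Θ / e`);
* at every maximal ideal `𝔪' ∋ q` of `B'(j)` lying on `V_∞ = V₁₀` only:
  `w` is a unit of `B'_{𝔪'}` (THETA-UNIT, row 1047) and either `Y₁ ∉ 𝔪'` or `(q, Y₁)` are
  regular parameters at `𝔪'` (SIMPLE-Y, row 1048).
-/

set_option autoImplicit false

noncomputable section

namespace Fermat.Agent.H12.SS2

open ModularCurve AlgebraicCurve
open Fermat.Agent.H22.KL Fermat.Agent.H11.SS2 Fermat.Agent.H82.SS Fermat.Agent.H7.SS2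
open Fermat.Agent.H86.SS2

/-- **The concrete norm package of REG11.**  See the module docstring. -/
def Reg11PkgStatement (M' q : ℕ) [NeZero M'] [NeZero q] : Prop :=
  ∀ (K₁ : Type) [Field K₁] [Algebra ℚ K₁] [FiniteDimensional ℚ K₁]
    (A₀ : Type) [CommRing A₀] [IsDomain A₀] [IsDiscreteValuationRing A₀]
    [Algebra A₀ K₁] [IsFractionRing A₀ K₁]
    [Algebra A₀ (ModelField K₁ (M' * q))] [IsScalarTower A₀ K₁ (ModelField K₁ (M' * q))],
    Irreducible ((q : ℕ) : A₀) →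
    ∀ (x : ModelField K₁ (M' * q)), (x : LaurentSeries K₁) = coeffEmb K₁ jq →
    ∀ (W : ModelField K₁ (M' * q) ≃ₐ[K₁] ModelField K₁ (M' * q)),
      IsAtkinLehnerModel K₁ M' q W →
    ∀ (Z : ModelField K₁ (M' * q * q)), (Z : LaurentSeries K₁) = sZ K₁ q →
    ∀ (Y₁ : ModelField K₁ (M' * q)), (Y₁ : LaurentSeries K₁) = sY1 K₁ q →
    ∃ (hY₁ : Y₁ ∈ chartClosure A₀ (ModelField K₁ (M' * q)) x)
      (e c u : chartClosure A₀ (ModelField K₁ (M' * q)) x) (w : ModelField K₁ (M' * q)),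
      IsUnit e ∧
      (u : ModelField K₁ (M' * q)) = (e : ModelField K₁ (M' * q)) * Y₁ +
        algebraMap A₀ (ModelField K₁ (M' * q)) ((q : ℕ) : A₀) * (c : ModelField K₁ (M' * q)) ∧
      @Algebra.norm (ModelField K₁ (M' * q)) (ModelField K₁ (M' * q * q)) _ _
          (heckeAlphaBar K₁ (M' * q) q).toRingHom.toAlgebra Z
        = algebraMap A₀ (ModelField K₁ (M' * q)) ((q : ℕ) : A₀) * w *
          (u : ModelField K₁ (M' * q)) ∧
      ∀ 𝔪' : Ideal (chartClosure A₀ (ModelField K₁ (M' * q)) x), 𝔪'.IsMaximal →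
        algebraMap A₀ (chartClosure A₀ (ModelField K₁ (M' * q)) x) ((q : ℕ) : A₀) ∈ 𝔪' →
        Through A₀ (ModelField K₁ (M' * q)) x 𝔪' (vInf K₁ A₀ (M' * q)) →
        ¬ Through A₀ (ModelField K₁ (M' * q)) x 𝔪' (vZero K₁ A₀ (M' * q) W) →
        IsLocUnit A₀ (ModelField K₁ (M' * q)) x 𝔪' w ∧
        ((⟨Y₁, hY₁⟩ : chartClosure A₀ (ModelField K₁ (M' * q)) x) ∉ 𝔪' ∨
          Fermat.Agent.H41.SS.IsRegularAt A₀ (ModelField K₁ (M' * q)) ((q : ℕ) : A₀) x 𝔪'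
            ⟨Y₁, hY₁⟩)

end Fermat.Agent.H12.SS2
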