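import Fermat.Agent.H12.SS2.Reg11Val3
import Fermat.Agent.H12.SS2.Reg11Pkg

/-!
# P-SS2 row 902 (SS2-C5 REG11): the model-level theorem (helper12)

`reg11_model` : level `M' q²`, chart `j`, base `A₀` unramified (`q` a uniformiser).  At a maximal
ideal `𝔪 ∋ q` of `B(j)` lying on `V₁₁` only:
`∃ x₁ U, IsRegPoint A₀ E q j 𝔪 V₁₁ x₁ U`  (the existential of `Fermat.Agent.H19.SS2.AsmOne`).

Inputs: the concrete norm package `Reg11PkgStatement M' q` (rows 1046 + 1047 + 1048),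
`Val3Data` for `α = heckeAlphaBar`, `O₁ = vInf`, `O₂ = vZero W`, the three `IsVertical`,
`C = V₂₀ ∩ V₁₁ ∩ V₀₂`, the classification (`hcls`, `hA20`, `hA02`, `hnot01`), the point below
`𝔪'` (`LiesOverAlong`), `hfrac` for `vInf` and the level-`L` regular point at `𝔪'`.
-/

set_option autoImplicit false
set_option linter.unusedSectionVars false
set_option linter.style.haveILetI false
set_option linter.unusedVariables false

noncomputable section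

namespace Fermat.Agent.H12.SS2

open ModularCurve AlgebraicCurve
open Fermat.Agent.H22.KL Fermat.Agent.H11.SS2 Fermat.Agent.H82.SS Fermat.Agent.H7.SS2
open Fermat.Agent.H86.SS2

/-- **REG11 at the model level** (chart `j`, points on `V₁₁` only). -/
theorem reg11_model (M' q : ℕ) [NeZero M'] [NeZero q]
    (hpkg : Reg11PkgStatement M' q)
    (K₁ : Type) [Field K₁] [Algebra ℚ K₁] [FiniteDimensional ℚ K₁]
    (A₀ : Type) [CommRing A₀] [IsDomain A₀] [IsDiscreteValuationRing A₀]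
    [Algebra A₀ K₁] [IsFractionRing A₀ K₁]
    [Algebra A₀ (ModelField K₁ (M' * q))] [IsScalarTower A₀ K₁ (ModelField K₁ (M' * q))]
    [Algebra A₀ (ModelField K₁ (M' * q * q))]
    [IsScalarTower A₀ K₁ (ModelField K₁ (M' * q * q))]
    (hqA : Irreducible ((q : ℕ) : A₀))
    (hfin : @FiniteDimensional (ModelField K₁ (M' * q)) (ModelField K₁ (M' * q * q)) _ _
      (@Algebra.toModule (ModelField K₁ (M' * q)) (ModelField K₁ (M' * q * q)) _ _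
        (heckeAlphaBar K₁ (M' * q) q).toRingHom.toAlgebra))
    (x : ModelField K₁ (M' * q)) (hx : (x : LaurentSeries K₁) = coeffEmb K₁ jq)
    (hxt : Transcendental A₀ x)
    (hfd' : ∃ n : ℕ, Nonempty (Module.Basis (Fin n)
      (chartField A₀ (ModelField K₁ (M' * q)) x) (ModelField K₁ (M' * q))))
    (x₂ : ModelField K₁ (M' * q * q)) (hx₂ : (heckeAlphaBar K₁ (M' * q) q).toRingHom x = x₂)
    (hx₂t : Transcendental A₀ x₂)
    (hfd : ∃ n : ℕ, Nonempty (Module.Basis (Fin n)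
      (chartField A₀ (ModelField K₁ (M' * q * q)) x₂) (ModelField K₁ (M' * q * q))))
    (W : ModelField K₁ (M' * q) ≃ₐ[K₁] ModelField K₁ (M' * q))
    (hW : IsAtkinLehnerModel K₁ M' q W)
    (β : ModelField K₁ (M' * q) →+* ModelField K₁ (M' * q * q))
    (Z : ModelField K₁ (M' * q * q)) (hZ : (Z : LaurentSeries K₁) = sZ K₁ q)
    (Y₁ : ModelField K₁ (M' * q)) (hY₁ : (Y₁ : LaurentSeries K₁) = sY1 K₁ q)
    (V₂₀ V₁₁ V₀₂ : ValuationSubring (ModelField K₁ (M' * q * q)))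
    (hval : Val3Data (heckeAlphaBar K₁ (M' * q) q).toRingHom β (vInf K₁ A₀ (M' * q))
      (vZero K₁ A₀ (M' * q) W) V₂₀ V₁₁ V₀₂ q Y₁ Z)
    (hV20 : IsVertical A₀ (ModelField K₁ (M' * q * q)) ((q : ℕ) : A₀) x₂ V₂₀)
    (hV11 : IsVertical A₀ (ModelField K₁ (M' * q * q)) ((q : ℕ) : A₀) x₂ V₁₁)
    (hV02 : IsVertical A₀ (ModelField K₁ (M' * q * q)) ((q : ℕ) : A₀) x₂ V₀₂)
    (hC : ∀ z : ModelField K₁ (M' * q * q), z ∈ V₂₀ → z ∈ V₁₁ → z ∈ V₀₂ →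
      z ∈ gaussClosure A₀ (ModelField K₁ (M' * q * q)) ((q : ℕ) : A₀) x₂)
    (hcls : ∀ 𝔫 : Ideal (chartClosure A₀ (ModelField K₁ (M' * q * q)) x₂), 𝔫.IsMaximal →
      Through A₀ (ModelField K₁ (M' * q * q)) x₂ 𝔫 V₂₀ →
      Through A₀ (ModelField K₁ (M' * q * q)) x₂ 𝔫 V₁₁ →
      Through A₀ (ModelField K₁ (M' * q * q)) x₂ 𝔫 V₀₂)
    (hZB : Z ∈ chartClosure A₀ (ModelField K₁ (M' * q * q)) x₂)
    (hfrac : ∀ z' ∈ vInf K₁ A₀ (M' * q), ∃ d₁ d₂ : chartClosure A₀ (ModelField K₁ (M' * q)) x,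
      (d₂ : ModelField K₁ (M' * q)) ∉ (vInf K₁ A₀ (M' * q)).nonunits ∧
        z' * (d₂ : ModelField K₁ (M' * q)) = d₁)
    (𝔪 : Ideal (chartClosure A₀ (ModelField K₁ (M' * q * q)) x₂)) (h𝔪 : 𝔪.IsMaximal)
    (hq𝔪 : algebraMap A₀ (chartClosure A₀ (ModelField K₁ (M' * q * q)) x₂) ((q : ℕ) : A₀) ∈ 𝔪)
    (hthru : Through A₀ (ModelField K₁ (M' * q * q)) x₂ 𝔪 V₁₁)
    (hA20 : ∃ s : chartClosure A₀ (ModelField K₁ (M' * q * q)) x₂,
      (s : ModelField K₁ (M' * q * q)) ∈ V₂₀.nonunits ∧ s ∉ 𝔪)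
    (hA02 : ∃ s : chartClosure A₀ (ModelField K₁ (M' * q * q)) x₂,
      (s : ModelField K₁ (M' * q * q)) ∈ V₀₂.nonunits ∧ s ∉ 𝔪)
    (𝔪' : Ideal (chartClosure A₀ (ModelField K₁ (M' * q)) x)) (h𝔪' : 𝔪'.IsMaximal)
    (hL : Fermat.Agent.H99.SS2.LiesOverAlong A₀ (ModelField K₁ (M' * q * q))
      (ModelField K₁ (M' * q)) (heckeAlphaBar K₁ (M' * q) q).toRingHom x x₂ 𝔪' 𝔪)
    (hnot01 : ¬ Through A₀ (ModelField K₁ (M' * q)) x 𝔪' (vZero K₁ A₀ (M' * q) W))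
    (U' : ModelField K₁ (M' * q))
    (hreg' : IsRegPoint A₀ (ModelField K₁ (M' * q)) ((q : ℕ) : A₀) x 𝔪' (vInf K₁ A₀ (M' * q))
      (algebraMap A₀ (ModelField K₁ (M' * q)) ((q : ℕ) : A₀)) U') :
    ∃ x₁ U : ModelField K₁ (M' * q * q),
      IsRegPoint A₀ (ModelField K₁ (M' * q * q)) ((q : ℕ) : A₀) x₂ 𝔪 V₁₁ x₁ U := by
  haveI : CharZero K₁ := algebraRat.charZero K₁
  haveI : CharZero (ModelField K₁ (M' * q)) :=
    charZero_of_injective_algebraMap (algebraMap K₁ (ModelField K₁ (M' * q))).injective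
  haveI : CharZero (ModelField K₁ (M' * q * q)) :=
    charZero_of_injective_algebraMap (algebraMap K₁ (ModelField K₁ (M' * q * q))).injective
  obtain ⟨hY₁B, e, c, u, w, he, hudef, hN, hloc⟩ := hpkg K₁ A₀ hqA x hx W hW Z hZ Y₁ hY₁
  have hq𝔪' : algebraMap A₀ (chartClosure A₀ (ModelField K₁ (M' * q)) x) ((q : ℕ) : A₀) ∈ 𝔪' :=
    hreg'.thru _ hreg'.vert.2.2.2
  obtain ⟨hw, hY⟩ := hloc 𝔪' h𝔪' hq𝔪' hreg'.thru hnot01
  have hinjK : Function.Injective (algebraMap A₀ K₁) := IsFractionRing.injective A₀ K₁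
  have hinj' : Function.Injective (algebraMap A₀ (ModelField K₁ (M' * q))) := by
    rw [IsScalarTower.algebraMap_eq A₀ K₁ (ModelField K₁ (M' * q))]
    exact (algebraMap K₁ (ModelField K₁ (M' * q))).injective.comp hinjK
  have hαA : ∀ a : A₀, (heckeAlphaBar K₁ (M' * q) q).toRingHom
      (algebraMap A₀ (ModelField K₁ (M' * q)) a) =
        algebraMap A₀ (ModelField K₁ (M' * q * q)) a := by
    intro a
    rw [IsScalarTower.algebraMap_apply A₀ K₁ (ModelField K₁ (M' * q)),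
      IsScalarTower.algebraMap_apply A₀ K₁ (ModelField K₁ (M' * q * q))]
    exact (heckeAlphaBar K₁ (M' * q) q).commutes _
  have he𝔪' : e ∉ 𝔪' := fun h => h𝔪'.ne_top (Ideal.eq_top_of_isUnit_mem _ h he)
  exact reg11_val3data A₀ (ModelField K₁ (M' * q)) (ModelField K₁ (M' * q * q))
    (heckeAlphaBar K₁ (M' * q) q).toRingHom β hαA hfin hinj' ((q : ℕ) : A₀) hqA q
    (map_natCast _ q) x hxt hfd' x₂ hx₂ hx₂t hfd 𝔪 h𝔪 hq𝔪 𝔪' h𝔪' hL
    (vInf K₁ A₀ (M' * q)) (vZero K₁ A₀ (M' * q) W) V₂₀ V₁₁ V₀₂ Y₁ Z hval hV20 hV11 hV02 hC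
    hthru hA20 hA02 hcls hZB hfrac hnot01 U' hreg' w hw hY₁B e c u he𝔪' hudef hN hY

end Fermat.Agent.H12.SS2
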