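import Fermat.Agent.H86.SS2.Emb3Defs
import Fermat.Agent.H82.SS.Model

/-!
# P-SS2 row 902 (SS2-C5 REG11): exact statement of the concrete sub-row Z-INT (helper12)

`ZIntStatement M' q` : at level `M' q²`, chart `j`: the second degeneracy map `β` (`t ↦ t^q`) maps
`B'(j)` (level `M' q`) into `B(j)` (level `M' q²`), and `Z = H₂ - H` lies in `B(j)`.
-/

set_option autoImplicit false

noncomputable section

namespace Fermat.Agent.H12.SS2

open ModularCurve AlgebraicCurve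
open Fermat.Agent.H22.KL Fermat.Agent.H82.SS Fermat.Agent.H86.SS2

/-- **Z-INT**: integrality of `Z = H₂ - H` over `A₀[j]` at level `M' q²`, and `β(B') ⊆ B`. -/
def ZIntStatement (M' q : ℕ) [NeZero M'] [NeZero q] : Prop :=
  ∀ (K₁ : Type) [Field K₁] [Algebra ℚ K₁] [FiniteDimensional ℚ K₁]
    (A₀ : Type) [CommRing A₀] [IsDomain A₀] [IsDiscreteValuationRing A₀]
    [Algebra A₀ K₁] [IsFractionRing A₀ K₁]
    [Algebra A₀ (ModelField K₁ (M' * q))] [IsScalarTower A₀ K₁ (ModelField K₁ (M' * q))]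
    [Algebra A₀ (ModelField K₁ (M' * q * q))]
    [IsScalarTower A₀ K₁ (ModelField K₁ (M' * q * q))],
    ¬ IsUnit ((q : ℕ) : A₀) →
    ∀ (x : ModelField K₁ (M' * q)), (x : LaurentSeries K₁) = coeffEmb K₁ jq →
    ∀ (W : ModelField K₁ (M' * q) ≃ₐ[K₁] ModelField K₁ (M' * q)),
      IsAtkinLehnerModel K₁ M' q W →
    (∀ s ∈ chartClosure A₀ (ModelField K₁ (M' * q)) x,
      heckeBetaBar K₁ (M' * q) q s ∈
        chartClosure A₀ (ModelField K₁ (M' * q * q)) (heckeAlphaBar K₁ (M' * q) q x)) ∧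
    ∀ Z : ModelField K₁ (M' * q * q), (Z : LaurentSeries K₁) = sZ K₁ q →
      Z ∈ chartClosure A₀ (ModelField K₁ (M' * q * q)) (heckeAlphaBar K₁ (M' * q) q x)

end Fermat.Agent.H12.SS2
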