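import Fermat.Agent.H12.SS2.Reg11Final
import Fermat.Agent.H11.SS2.Val3Defs

/-!
# P-SS2 row 902 (SS2-C5 REG11): REG11 from `Val3Data` (helper12)

`reg11_val3data` : the theorem `reg11_val3` in the language of the keystone interface
`Fermat.Agent.H11.SS2.Val3Data α β O₁ O₂ V₂₀ V₁₁ V₀₂ q Y₁ Z` (embeddings `α β : E' →+* E` as ring
homomorphisms, the norm along `α.toAlgebra`), in the style of helper93's `regss_val3_alpha`.

At a maximal ideal `𝔪` of `B(y)` lying on `V₁₁` only, above the maximal ideal `𝔪'` of `B'(y')`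
(along `α`), which is not on `O₂`:
`∃ x₁ U, IsRegPoint A E ϖ y 𝔪 V₁₁ x₁ U`, given the level-`L` regular point `(ϖ, U')` at `𝔪'`,
the norm package `N_α(Z) = ϖ w u`, `u = e Y₁ + ϖ c` and SIMPLE-Y.
-/

set_option autoImplicit false
set_option linter.unusedSectionVars false
set_option linter.style.haveILetI false
set_option linter.unusedVariables false

noncomputable section

namespace Fermat.Agent.H12.SS2

open Polynomial
open Fermat.Agent.H22.KL Fermat.Agent.H11.SS2 Fermat.Agent.H45 Fermat.Agent.H41.SS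

section Val3

variable (A : Type) [CommRing A] [IsDomain A] [IsDiscreteValuationRing A]
  (E' E : Type) [Field E'] [Field E] [Algebra A E'] [Algebra A E] [CharZero E'] [CharZero E]

/-- Finite ramification of `V₁₁` from `Val3Data.ram₁₁`. -/
theorem r11_hN11_of_ram {V₁₁ : ValuationSubring E} {q : ℕ} {Z : E}
    (hunif : DKUnif V₁₁ Z) (hram : VUnit V₁₁ ((q : E) / Z ^ (q - 1))) :
    ∃ N : ℕ, ∀ s ∈ V₁₁.nonunits, s ^ N / (q : E) ∈ V₁₁ := by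
  refine ⟨q - 1, fun s hs => ?_⟩
  have h1 : s / Z ∈ V₁₁ := hunif.2.2 s hs
  have h2 : ((q : E) / Z ^ (q - 1))⁻¹ ∈ V₁₁ := hram.2
  have hZ0 : Z ≠ 0 := hunif.1
  by_cases hq0 : (q : E) = 0
  · rw [hq0, div_zero]
    exact V₁₁.zero_mem
  have : s ^ (q - 1) / (q : E) = (s / Z) ^ (q - 1) * ((q : E) / Z ^ (q - 1))⁻¹ := by
    rw [div_pow, inv_div]
    field_simp
  rw [this]
  exact V₁₁.mul_mem _ _ (V₁₁.pow_mem h1 _) h2

/-- **REG11 from `Val3Data`.** -/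
theorem reg11_val3data
    (α β : E' →+* E) (hαA : ∀ a : A, α (algebraMap A E' a) = algebraMap A E a)
    (hfin : @FiniteDimensional E' E _ _ (@Algebra.toModule E' E _ _ α.toAlgebra))
    (hinj' : Function.Injective (algebraMap A E'))
    (ϖ : A) (hϖ : Irreducible ϖ) (q : ℕ) (hϖq : algebraMap A E ϖ = (q : E))
    (y' : E') (hy' : Transcendental A y')
    (hfd' : ∃ n : ℕ, Nonempty (Module.Basis (Fin n) (chartField A E' y') E'))
    (y : E) (hyy : α y' = y) (hy : Transcendental A y)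
    (hfd : ∃ n : ℕ, Nonempty (Module.Basis (Fin n) (chartField A E y) E))
    (𝔪 : Ideal (chartClosure A E y)) (h𝔪 : 𝔪.IsMaximal)
    (hϖ𝔪 : algebraMap A (chartClosure A E y) ϖ ∈ 𝔪)
    (𝔪' : Ideal (chartClosure A E' y')) (h𝔪' : 𝔪'.IsMaximal)
    (hL : Fermat.Agent.H99.SS2.LiesOverAlong A E E' α y' y 𝔪' 𝔪)
    (O₁ O₂ : ValuationSubring E') (V₂₀ V₁₁ V₀₂ : ValuationSubring E) (Y₁ : E') (Z : E)
    (hval : Val3Data α β O₁ O₂ V₂₀ V₁₁ V₀₂ q Y₁ Z)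
    (hV20 : IsVertical A E ϖ y V₂₀) (hV11 : IsVertical A E ϖ y V₁₁)
    (hV02 : IsVertical A E ϖ y V₀₂)
    (hC : ∀ z : E, z ∈ V₂₀ → z ∈ V₁₁ → z ∈ V₀₂ → z ∈ gaussClosure A E ϖ y)
    (hthru : Through A E y 𝔪 V₁₁)
    (hA20 : ∃ s : chartClosure A E y, (s : E) ∈ V₂₀.nonunits ∧ s ∉ 𝔪)
    (hA02 : ∃ s : chartClosure A E y, (s : E) ∈ V₀₂.nonunits ∧ s ∉ 𝔪)
    (hcls : ∀ 𝔫 : Ideal (chartClosure A E y), 𝔫.IsMaximal → Through A E y 𝔫 V₂₀ →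
      Through A E y 𝔫 V₁₁ → Through A E y 𝔫 V₀₂)
    (hZ : Z ∈ chartClosure A E y)
    (hfrac : ∀ z' ∈ O₁, ∃ d₁ d₂ : chartClosure A E' y',
      (d₂ : E') ∉ O₁.nonunits ∧ z' * (d₂ : E') = d₁)
    (hnot01 : ¬ Through A E' y' 𝔪' O₂)
    (U' : E') (hreg' : IsRegPoint A E' ϖ y' 𝔪' O₁ (algebraMap A E' ϖ) U')
    (w : E') (hw : IsLocUnit A E' y' 𝔪' w)
    (hY₁B : Y₁ ∈ chartClosure A E' y') (e c u : chartClosure A E' y') (he : e ∉ 𝔪')
    (hudef : (u : E') = (e : E') * Y₁ + algebraMap A E' ϖ * (c : E'))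
    (hN : @Algebra.norm E' E _ _ α.toAlgebra Z = algebraMap A E' ϖ * w * (u : E'))
    (hY : (⟨Y₁, hY₁B⟩ : chartClosure A E' y') ∉ 𝔪' ∨
      IsRegularAt A E' ϖ y' 𝔪' ⟨Y₁, hY₁B⟩) :
    ∃ x₁ U : E, IsRegPoint A E ϖ y 𝔪 V₁₁ x₁ U := by
  letI : Algebra E' E := α.toAlgebra
  haveI : IsScalarTower A E' E := IsScalarTower.of_algebraMap_eq (fun a => (hαA a).symm)
  haveI : FiniteDimensional E' E := hfin
  have hu20 : IsUniformiser E V₂₀ (algebraMap A E ϖ) := by rw [hϖq]; exact hval.unif₂₀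
  have hu02 : IsUniformiser E V₀₂ (algebraMap A E ϖ) := by rw [hϖq]; exact hval.unif₀₂
  have hN11 : ∃ N : ℕ, ∀ s ∈ V₁₁.nonunits, s ^ N / algebraMap A E ϖ ∈ V₁₁ := by
    rw [hϖq]; exact r11_hN11_of_ram E hval.unif₁₁ hval.ram₁₁
  exact reg11_val3 A E' E hinj' ϖ hϖ y' hy' hfd' y hyy hy hfd 𝔪 h𝔪 hϖ𝔪 𝔪' h𝔪' hL V₂₀ V₁₁ V₀₂
    hV20 hV11 hV02 hC hthru hA20 hA02 hu20 hu02 hN11 hcls Z hZ hval.unif₁₁ O₁ O₂
    hval.comap₂₀α hval.comap₁₁α hval.comap₀₂α hval.res₂₀α hval.res₁₁α hfrac hnot01 U' hreg'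
    w hw ⟨Y₁, hY₁B⟩ e c u he hudef hN hY hval.X₂₀.2.1

end Val3

end Fermat.Agent.H12.SS2
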